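import Fermat.Agent.Ord.Tr
import Fermat.Agent.PRem.Asm12
import Fermat.Agent.Flat.Theta

/-!
# New classes with trivial reduction are of multiplicative type
-/

set_option autoImplicit false
set_option linter.unusedSectionVars false
set_option linter.style.haveILetI false

noncomputable section

namespace Fermat.Agent.Ord

open ModularCurve Polynomial IntermediateField Fermat.Agent.ModPoly Fermat.Agent.Red
  Fermat.Agent.RedMod Fermat.Agent.Cusp Fermat.Agent.SemiSt AlgebraicCurve Fermat.Agent.Curve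
  Fermat.Agent.RR Fermat.Agent.Nod Fermat.Agent.Flat Fermat.Agent.FlatRam Fermat.Agent.Places
  Fermat.Agent.PRem

local notation "Ω" => AlgebraicClosure ℚ

variable {A : ValuationSubring (AlgebraicClosure ℚ)} {p : ℕ} [hp : Fact p.Prime]
  {M : ℕ} [NeZero M] {k : Type*} [Field k] [Algebra A k] [CharP k p] [IsAlgClosed k]
  {hk : Function.Surjective (algebraMap A k)} {hco : p.Coprime M} {hM : (M : k) ≠ 0} {b : A}
  [Algebra A (FF Ω (p * M))] [IsScalarTower A Ω (FF Ω (p * M))]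
  [Algebra A (FF k M)] [IsScalarTower A k (FF k M)]
  [FunField k (FF k M)] [FunField Ω (FF Ω M)] [FunField Ω (FF Ω (p * M))]
  {E : IntermediateField (K0 A) Ω} [FiniteDimensional (K0 A) E]
  {e : ℕ} {ϖ : A} {Q : RatStr (ng Ω hco hk hM b)}
  (H : NodMod (ng Ω hco hk hM b) hk (ng_hspan hco hk hM b) (fd k p M).nodes)

/-- leading terms of functions whose norm is a `p`-th power, first component -/
theorem comp_root {m : ℕ} {u : A} (hpe : (p : A) = Q.ϖ ^ (m * (p - 1)) * u) {n : ℕ} (hn : 1 ≤ n)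
    (hnm : n < m) {f : FF Ω (p * M)} {H : FF Ω (p * M)} (hH : H ∈ (ng Ω hco hk hM b).W)
    (hf : f = 1 + algebraMap A (FF Ω (p * M)) Q.ϖ ^ (p * n) * H) {z : FF Ω M}
    (hz : Nm Ω p M f = z ^ p) : ∃ h, r1 (ng Ω hco hk hM b) H = h ^ p := by
  have hp1 := hp.out.one_lt
  have hpn : 1 ≤ p * n := Nat.mul_pos hp.out.pos hn
  have hc : algebraMap A k (Q.ϖ ^ (p * n)) = 0 := by
    rw [map_pow, Q.ϖk, zero_pow (by omega)]
  obtain ⟨y, hy, hRd⟩ := Nm_first hco hk hM hc (pow_ne_zero _ Q.ϖ0) (x := f) (H := H)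
    (by rw [hf, ← map_pow, algA]; rfl) (rd1 hH) (rd2 hH)
  have he : p * n + 1 ≤ m * (p - 1) + n := by
    obtain ⟨d, hd⟩ : ∃ d, m = n + 1 + d := Nat.exists_eq_add_of_le hnm
    obtain ⟨q, hq⟩ : ∃ q, p = q + 1 + 1 := ⟨p - 2, by omega⟩
    rw [hq, hd, Nat.add_sub_cancel]; nlinarith [Nat.zero_le (d * (q + 1))]
  obtain ⟨h, hh⟩ := root_first hk hM Q.ϖk Q.ϖ0 hpe he hn (hz ▸ hy) hRd
  exact ⟨h, Subtype.ext hh⟩

/-- norms of related functions -/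
theorem nm_rel {f f' : FF Ω (p * M)} (h : Rel Q p f f') {z : FF Ω M} (hz : Nm Ω p M f = z ^ p) :
    ∃ z' : FF Ω M, Nm Ω p M f' = z' ^ p := by
  obtain ⟨U, -, -, c, -, -, ⟨c', rfl⟩, rfl⟩ := h
  obtain ⟨d, rfl⟩ := IsAlgClosed.exists_pow_nat_eq c' hp.out.pos
  refine ⟨z * Nm Ω p M U * Nm Ω p M (algebraMap Ω _ d), ?_⟩
  rw [map_mul, map_mul, map_pow, map_pow, map_pow, hz, mul_pow, mul_pow]

theorem rel_w {f f' : FF Ω (p * M)} (h : Rel Q p f f') {z : FF Ω M}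
    (hz : Nm Ω p M (SemiSt.w Ω hco f) = z ^ p) :
    ∃ z' : FF Ω M, Nm Ω p M (SemiSt.w Ω hco f') = z' ^ p := by
  obtain ⟨U, -, -, c, -, -, ⟨c', rfl⟩, rfl⟩ := h
  obtain ⟨d, rfl⟩ := IsAlgClosed.exists_pow_nat_eq c' hp.out.pos
  refine ⟨z * Nm Ω p M (SemiSt.w Ω hco U) * Nm Ω p M (algebraMap Ω _ d), ?_⟩
  rw [map_mul, map_mul, map_mul, map_mul, map_pow, map_pow, map_pow, map_pow,
    AlgEquiv.commutes, map_pow, hz, mul_pow, mul_pow]

include H in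
/-- **new classes with trivial reduction are of multiplicative type** -/
theorem final_new [hN : Nonempty (Nd (ng Ω hco hk hM b) hk (fd k p M).nodes)]
    {ι : Ω →+* ℂ} (hA : A.LiesOverPrime p) {m : ℕ} (hm : 1 ≤ m)
    (R : RS E (m * (p - 1)) ϖ Q) {σ : Ω ≃ₐ[K0 A] Ω} {c : ℕ}
    (S : Inert Q (galAut (p * M) (σ : Ω ≃+* Ω)) m c)
    {f : FF Ω (p * M)} {ξ : Kum.XL (p * M) p} (hfF : f ∈ Q.fld)
    (hf : UW (ng Ω hco hk hM b) f) (h1 : r1 (ng Ω hco hk hM b) f = 1)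
    (h2 : r2 (ng Ω hco hk hM b) f = 1) (hcl : HasCls ι p f ξ)
    (hn1 : ∃ z : FF Ω M, Nm Ω p M f = z ^ p)
    (hn2 : ∃ z : FF Ω M, Nm Ω p M (SemiSt.w Ω hco f) = z ^ p) :
    Kum.rhoF ι p (AlgEquiv.restrictScalars ℚ σ) ξ = c • ξ := by
  obtain ⟨z₁, hz₁⟩ := hn1
  obtain ⟨z₂, hz₂⟩ := hn2
  obtain ⟨u, hu⟩ := R.hpe
  obtain ⟨D, hD⟩ := exists_divisor hp.out.ne_zero hf.ne_zero hcl.kd
  have hp1 := hp.out.one_lt
  have hpp : p ≤ m * (p - 1) + 1 := by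
    obtain ⟨d, hd⟩ : ∃ d, p = d + 1 := ⟨p - 1, by omega⟩
    obtain ⟨m', rfl⟩ : ∃ m', m = m' + 1 := ⟨m - 1, by omega⟩
    rw [hd, Nat.add_sub_cancel]; nlinarith [Nat.zero_le (m' * d)]
  obtain ⟨κ, hκ, hκF, L₁⟩ := Lev.base H hu hpp hfF hf.mem (π_eq_one hf.mem h1 h2) hD
  have hκ0 : ((κ : A) : Ω) ≠ 0 := by
    intro h0
    have : κ = 0 := Subtype.ext h0
    rw [this, map_zero] at hκ
    exact zero_ne_one hκ
  have e1 : (algebraMap A (FF Ω (p * M)) κ)⁻¹ = algebraMap Ω _ ((κ : Ω)⁻¹) := by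
    rw [algA, map_inv₀]
  have hR₁ : Rel Q p f (f * (algebraMap A (FF Ω (p * M)) κ)⁻¹) := by
    refine ⟨1, one_mem _, one_ne_zero, _, inv_mem hκF, ?_, ⟨_, e1⟩, by rw [one_pow, mul_one]⟩
    rw [e1]
    exact (_root_.map_ne_zero _).2 (inv_ne_zero hκ0)
  have hcl1 : HasCls ι p (f * (algebraMap A (FF Ω (p * M)) κ)⁻¹) ξ := by
    rw [e1]; exact hcl.mul_const (inv_ne_zero hκ0)
  obtain ⟨f', D', L, hR'⟩ := exists_lev' H hu L₁
    (fun n f' hn hnp hfF' hfU' hR Hf hHf hfe => by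
      have hR2 := hR₁.trans hR
      constructor
      · obtain ⟨z, hz⟩ := nm_rel hR2 hz₁
        exact comp_root hu hn hnp hHf hfe hz
      · obtain ⟨z, hz⟩ := rel_w hR2 hz₂
        obtain ⟨h, hh⟩ := comp_root hu hn hnp (w_mem hHf)
          (f := SemiSt.w Ω hco f') (by
            rw [hfe, ← map_pow, algA, w_one_add]) hz
        exact ⟨h, by rw [← r1_w hHf]; exact hh⟩) m hm le_rfl
  obtain ⟨U, hU, hU0, c', hc', hc0, ⟨c₁, rfl⟩, e2⟩ := hR'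
  have hcl' : HasCls ι p f' ξ := by
    rw [e2]
    exact (hcl1.mul_pow hU0).mul_const fun h => hc0 (by rw [h, map_zero])
  obtain ⟨x, hx⟩ := lev_final' H R.hAt (hrank_of hk hA) S hm hu L
  rw [galAut_smul] at hx
  have hx' : x ^ p = act (p * M) (σ : Ω ≃+* Ω) f' * (f' ^ c)⁻¹ := hx
  have h3 : HasCls ι p (act (p * M) (σ : Ω ≃+* Ω) f')
      (Kum.rhoF ι p (AlgEquiv.restrictScalars ℚ σ) ξ) :=
    hcl'.gal (AlgEquiv.restrictScalars ℚ σ)
  have h4 := h3.div (hcl'.pow c)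
  rw [← hx'] at h4
  have hx0 : x ≠ 0 := by
    rintro rfl
    rw [zero_pow hp.out.ne_zero] at h4
    exact h4.ne_zero rfl
  exact sub_eq_zero.1 (h4.unique (HasCls.pow_self ι hx0))

/-- integral elements of `E` with trivial residue are divisible by the uniformizer -/
theorem unif_dvd (U : Unif E p e ϖ) {x : Ω} (hx : x ∈ E) (h : x ∈ A.nonunits) :
    ∃ y : Ω, y ∈ A ∧ x = (ϖ : Ω) * y := by
  rcases eq_or_ne x 0 with rfl | hx0
  · exact ⟨0, A.zero_mem, by rw [mul_zero]⟩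
  obtain ⟨j, u, huE, huA, hun, hxu⟩ := U.unit x hx hx0
  obtain ⟨u', hu'⟩ := isUnit_of (x := ⟨u, huA⟩) hun
  have hu1 : ((u' : A) : Ω) = u := by rw [hu']
  rcases le_or_gt j 0 with hj | hj
  · exfalso
    rcases (mem_nonunits_iff_inv A _).1 h with h1 | h1
    · exact hx0 h1
    · apply h1
      obtain ⟨i, hi⟩ := Int.eq_ofNat_of_zero_le (neg_nonneg.2 hj)
      have h2 : x⁻¹ = (ϖ : Ω) ^ i * ((↑u'⁻¹ : A) : Ω) := by
        rw [coeA_inv, hu1, hxu, mul_inv, ← zpow_neg, hi, zpow_natCast]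
      rw [h2]
      exact mul_mem (pow_mem ϖ.2 _) (↑u'⁻¹ : A).2
  · obtain ⟨i, hi⟩ := Int.eq_ofNat_of_zero_le hj.le
    obtain ⟨i, rfl⟩ : ∃ i', i = i' + 1 := ⟨i - 1, by omega⟩
    refine ⟨(ϖ : Ω) ^ i * u, mul_mem (pow_mem ϖ.2 _) huA, ?_⟩
    rw [hxu, hi, zpow_natCast, pow_succ]
    ring

theorem w_unif (hA : A.LiesOverPrime p) (U : Unif E p e ϖ) :
    (e : ℚ) * (rval A p hA).w (ϖ : Ω) = 1 := by
  obtain ⟨u, -, hu⟩ := U.hp
  have hu0 : ((u : A) : Ω) ≠ 0 := fun h => u.ne_zero (Subtype.ext h)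
  have h1 : (p : Ω) = (ϖ : Ω) ^ e * ((u : A) : Ω) := by
    have := congrArg (fun x : A => (x : Ω)) hu
    beta_reduce at this
    push_cast at this
    exact this
  have h2 : (rval A p hA).w ((u : A) : Ω) = 0 := by
    refine (rval_eq_zero_iff hA hu0).2 ⟨(u : A).2, fun h => ?_⟩
    rcases (mem_nonunits_iff_inv A _).1 h with h3 | h3
    · exact hu0 h3
    · apply h3
      rw [← coeA_inv]
      exact (↑u⁻¹ : A).2
  have h3 := congrArg (rval A p hA).w h1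
  rw [RVal.w_mul (pow_ne_zero _ U.ne) hu0, RVal.w_pow U.ne, h2, add_zero] at h3
  rw [← h3]
  exact (rval A p hA).w_p

/-- automorphisms over the fixed field of inertia -/
theorem inert_of (hA : A.LiesOverPrime p) {m : ℕ} (hm : 1 ≤ m) (R : RS E (m * (p - 1)) ϖ Q)
    (hb : (b : Ω) ∈ K0 A) {σ : Ω ≃ₐ[K0 A] Ω} (hσE : ∀ x ∈ E, σ x ∈ E) {ζ : Ω}
    (hζ : IsPrimitiveRoot ζ p) {c : ℕ} (h : σ ζ = ζ ^ c) :
    Inert Q (galAut (p * M) (σ : Ω ≃+* Ω)) m c := by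
  refine ⟨?_, fun x hx hxW => ?_, ?_⟩
  · rw [ng_t, galAut_smul, map_sub, act_jF, act_algebraMap]
    have : algebraMap A Ω b = (b : Ω) := rfl
    rw [this]
    congr 2
    exact σ.commutes ⟨b, hb⟩
  · rw [galAut_smul]
    obtain ⟨y, hy, h1⟩ := Cg.of_red (act_mem σ hxW) hxW (R.act_fld hσE hx) hx (r1_act σ hxW)
      (r2_act σ hxW)
    exact ⟨y, hy, by rw [pow_one] at h1; exact h1⟩
  · have hϖ := R.U.ne
    have hp1 := hp.out.one_lt
    set s : Ω ≃ₐ[ℚ] Ω := AlgEquiv.restrictScalars ℚ σ with hs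
    have hsI : s ∈ A.inertiaSubgroupIn ℚ := res_mem σ
    have hζ1 : ζ - 1 ≠ 0 := sub_ne_zero.2 (hζ.ne_one hp1)
    have h1 : ((p : ℚ) - 1) * (rval A p hA).w (ζ - 1) = 1 := FlatRam.RVal.w_zeta (V := rval A p hA) hζ
    have h2 := w_unif hA R.U
    have hw : (rval A p hA).w ((ϖ : Ω) ^ m) = (rval A p hA).w (ζ - 1) := by
      rw [RVal.w_pow hϖ]
      have h3 : ((p : ℚ) - 1) ≠ 0 := by
        have : (1 : ℚ) < p := by exact_mod_cast hp1
        linarith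
      push_cast [Nat.cast_sub hp1.le] at h2
      apply mul_left_cancel₀ h3
      linear_combination h2 - h1
    have h3 : th A s ((ϖ : Ω) ^ m) = c := by
      rw [th_eq_of_w hA hsI (pow_ne_zero _ hϖ) hζ1 hw]
      exact th_zeta hA hζ h
    have hdm : s ((ϖ : Ω) ^ m) / (ϖ : Ω) ^ m ∈ A := (pres_of_mem hsI).div_mem hA (pow_ne_zero _ hϖ)
    have h4 : s ((ϖ : Ω) ^ m) / (ϖ : Ω) ^ m - (c : Ω) ∈ A.nonunits := by
      rw [← rs_eq_iff hdm (natCast_mem A c), rs_natCast]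
      exact h3
    have hmE : ((ϖ : Ω) ^ m) ∈ E := pow_mem R.U.mem m
    have h5 : s ((ϖ : Ω) ^ m) / (ϖ : Ω) ^ m - (c : Ω) ∈ E :=
      sub_mem (E.div_mem (hσE _ hmE) hmE) (IntermediateField.natCast_mem E c)
    obtain ⟨y, hy, h6⟩ := unif_dvd R.U h5 h4
    refine ⟨algebraMap A (FF Ω (p * M)) ⟨y, hy⟩, (ng Ω hco hk hM b).W.algebraMap_mem _, ?_⟩
    have h7 : σ ((ϖ : Ω) ^ m) = (ϖ : Ω) ^ m * (c + (ϖ : Ω) * y) := by
      have h8 : σ ((ϖ : Ω) ^ m) / (ϖ : Ω) ^ m = c + (ϖ : Ω) * y := by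
        rw [← h6]; change _ = _ + (σ _ / _ - _); ring
      rw [← h8, mul_div_cancel₀]
      exact pow_ne_zero _ hϖ
    rw [galAut_smul, R.ϖF, ← map_pow, act_algebraMap, algA]
    change algebraMap Ω (FF Ω (p * M)) (σ ((ϖ : Ω) ^ m)) = _
    rw [h7, map_mul, map_add, map_mul, map_natCast]

end Fermat.Agent.Ord
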