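import Fermat.Agent.Ord.A2a

/-!
# Rational representatives; the field of definition
-/

set_option autoImplicit false
set_option linter.unusedSectionVars false
set_option linter.style.haveILetI false

noncomputable section

namespace Fermat.Agent.Ord

open ModularCurve Polynomial IntermediateField Fermat.Agent.ModPoly Fermat.Agent.Red
  Fermat.Agent.RedMod Fermat.Agent.Cusp Fermat.Agent.SemiSt AlgebraicCurve Fermat.Agent.Curve
  Fermat.Agent.RR Fermat.Agent.Nod Fermat.Agent.Flat Fermat.Agent.FlatRam Fermat.Agent.Places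
  Fermat.Agent.PRem

local notation "Ω" => AlgebraicClosure ℚ

theorem exists_prim_elt {K L : Type*} [Field K] [Field L] [Algebra K L] [CharZero K]
    (F : IntermediateField K L) [FiniteDimensional K F] :
    ∃ β : L, IntermediateField.adjoin K ({β} : Set L) = F := by
  obtain ⟨α, hα⟩ := Field.exists_primitive_element K F
  refine ⟨α, ?_⟩
  rw [← IntermediateField.lift_adjoin_simple, hα, IntermediateField.lift_top]

theorem exists_ext {K L : Type*} [Field K] [Field L] [Algebra K L] [CharZero K]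
    [Algebra.IsAlgebraic K L] (K' F : IntermediateField K L) [FiniteDimensional K F] :
    ∃ E : IntermediateField K' L, FiniteDimensional K' E ∧ (∀ σ : L ≃ₐ[K'] L, ∀ x ∈ E, σ x ∈ E) ∧
      ∀ x ∈ F, x ∈ E := by
  obtain ⟨α, hF⟩ := exists_prim_elt F
  have hm0 : minpoly K α ≠ 0 := minpoly.ne_zero (Algebra.IsIntegral.isIntegral _)
  have hSf : Finite ((minpoly K α).rootSet L) := (Polynomial.rootSet_finite _ _).to_subtype
  have hαS : α ∈ (minpoly K α).rootSet L := by
    rw [Polynomial.mem_rootSet]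
    exact ⟨hm0, minpoly.aeval _ _⟩
  have hFE : F ≤ (IntermediateField.adjoin K' ((minpoly K α).rootSet L)).restrictScalars K := by
    rw [← hF, IntermediateField.adjoin_simple_le_iff]
    change α ∈ IntermediateField.adjoin K' ((minpoly K α).rootSet L)
    exact IntermediateField.subset_adjoin K' _ hαS
  haveI : Algebra.IsAlgebraic K' L := Algebra.IsAlgebraic.tower_top (K := K) K'
  refine ⟨IntermediateField.adjoin K' ((minpoly K α).rootSet L), ?_, ?_, fun x hx => hFE hx⟩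
  · exact IntermediateField.finiteDimensional_adjoin fun x _ => Algebra.IsIntegral.isIntegral x
  · intro σ x hx
    have h1 : σ x ∈ (IntermediateField.adjoin K' ((minpoly K α).rootSet L)).map
      (σ : L →ₐ[K'] L) := ⟨x, hx, rfl⟩
    rw [IntermediateField.adjoin_map] at h1
    refine IntermediateField.adjoin.mono _ _ _ ?_ h1
    rintro _ ⟨y, hy, rfl⟩
    rw [Polynomial.mem_rootSet] at hy ⊢
    refine ⟨hm0, ?_⟩
    have h2 := Polynomial.aeval_algHom_apply (AlgHom.restrictScalars K (σ : L →ₐ[K'] L)) y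
      (minpoly K α)
    rw [hy.2, map_zero] at h2
    exact h2

section Field

variable {A : ValuationSubring (AlgebraicClosure ℚ)} {p : ℕ} [hp : Fact p.Prime]

/-- a finite extension of the fixed field of inertia, stable under automorphisms, fixing finitely
many classes -/
theorem exists_field (ι : Ω →+* ℂ) (N m : ℕ) [NeZero N] [NeZero m] :
    ∃ E : IntermediateField (K0 A) Ω, FiniteDimensional (K0 A) E ∧
      (∀ σ : Ω ≃ₐ[K0 A] Ω, ∀ x ∈ E, σ x ∈ E) ∧ (∃ ζ ∈ E, IsPrimitiveRoot ζ p) ∧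
      ∀ σ : Ω ≃ₐ[ℚ] Ω, (∀ x ∈ E, σ x = x) → ∀ ξ : Kum.XL N m, Kum.rhoF ι m σ ξ = ξ := by
  obtain ⟨L, hL, hL'⟩ := Kum.exists_level_rhoF (K := Ω) ι (N := N) (m := m)
  obtain ⟨ζ, hζ⟩ := exists_prim Ω p
  have hζ' : IsPrimitiveRoot (ζ : Ω) p := IsPrimitiveRoot.coe_units_iff.2 hζ
  haveI : FiniteDimensional ℚ (IntermediateField.adjoin ℚ ({(ζ : Ω)} : Set Ω)) :=
    IntermediateField.adjoin.finiteDimensional (Algebra.IsIntegral.isIntegral _)
  haveI : FiniteDimensional ℚ (L ⊔ IntermediateField.adjoin ℚ ({(ζ : Ω)} : Set Ω) :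
    IntermediateField ℚ Ω) := IntermediateField.finiteDimensional_sup _ _
  obtain ⟨E, hE, hEσ, hFE⟩ := exists_ext (K0 A)
    (L ⊔ IntermediateField.adjoin ℚ ({(ζ : Ω)} : Set Ω) : IntermediateField ℚ Ω)
  refine ⟨E, hE, hEσ, ⟨ζ, ?_, hζ'⟩, ?_⟩
  · exact hFE _ ((le_sup_right : _ ≤ L ⊔ IntermediateField.adjoin ℚ ({(ζ : Ω)} : Set Ω))
      (IntermediateField.mem_adjoin_simple_self _ _))
  · intro σ hσ ξ
    exact hL' σ (fun a ha => hσ a (hFE _ ((le_sup_left : L ≤
      L ⊔ IntermediateField.adjoin ℚ ({(ζ : Ω)} : Set Ω)) ha))) ξ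

theorem exists_m (hA : A.LiesOverPrime p) {E : IntermediateField (K0 A) Ω}
    [FiniteDimensional (K0 A) E] {e : ℕ} {ϖ : A}
    (U : Unif E p e ϖ) (he : 0 < e) {ζ : Ω} (hζE : ζ ∈ E) (hζ : IsPrimitiveRoot ζ p) :
    ∃ m : ℕ, 1 ≤ m ∧ e = m * (p - 1) := by
  have hp1 := hp.out.one_lt
  have hζ1 : ζ - 1 ≠ 0 := sub_ne_zero.2 (hζ.ne_one hp1)
  have h1 : ((p : ℚ) - 1) * (rval A p hA).w (ζ - 1) = 1 := FlatRam.RVal.w_zeta (V := rval A p hA) hζ
  have h2 := w_unif hA U
  obtain ⟨j, u, huE, huA, hun, hxu⟩ := U.unit (ζ - 1) (sub_mem hζE (one_mem _)) hζ1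
  have hu0 : u ≠ 0 := by
    rintro rfl
    exact hun (zero_mem_nonunits A)
  have h3 := congrArg (rval A p hA).w hxu
  rw [RVal.w_mul (zpow_ne_zero _ U.ne) hu0, RVal.w_zpow U.ne,
    (rval_eq_zero_iff hA hu0).2 ⟨huA, hun⟩, add_zero] at h3
  rw [h3] at h1
  have he0 : (e : ℚ) ≠ 0 := by exact_mod_cast he.ne'
  have h4 : ((p : ℚ) - 1) * j = e := by
    have h5 : (((p : ℚ) - 1) * j) * ((e : ℚ) * (rval A p hA).w (ϖ : Ω)) = e := by
      linear_combination (e : ℚ) * h1
    rwa [h2, mul_one] at h5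
  have h5 : ((p : ℤ) - 1) * j = e := by exact_mod_cast h4
  have h6 : 0 < j := by
    by_contra hcon
    have : ((p : ℤ) - 1) * j ≤ 0 := mul_nonpos_of_nonneg_of_nonpos (by omega) (by omega)
    omega
  obtain ⟨i, rfl⟩ := Int.eq_ofNat_of_zero_le h6.le
  refine ⟨i, by omega, ?_⟩
  have h7 : ((p - 1 : ℕ) : ℤ) = (p : ℤ) - 1 := by omega
  have h8 : (((p - 1) * i : ℕ) : ℤ) = e := by rw [Nat.cast_mul, h7]; exact h5
  rw [mul_comm]
  exact_mod_cast h8.symm

end Field

end Fermat.Agent.Ord
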