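import Fermat.Agent.Ord.A2b
import Fermat.Agent.MzC.Old

/-!
# Classes with trivial reduction have no fixed vectors
-/

set_option autoImplicit false
set_option linter.unusedSectionVars false
set_option linter.style.haveILetI false

noncomputable section

namespace Fermat.Agent.Ord

open ModularCurve Polynomial IntermediateField Fermat.Agent.ModPoly Fermat.Agent.Red
  Fermat.Agent.RedMod Fermat.Agent.Cusp Fermat.Agent.SemiSt AlgebraicCurve Fermat.Agent.Curve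
  Fermat.Agent.RR Fermat.Agent.Nod Fermat.Agent.Flat Fermat.Agent.FlatRam Fermat.Agent.Places
  Fermat.Agent.PRem

local notation "Ω" => AlgebraicClosure ℚ

section Rep

variable {A : ValuationSubring (AlgebraicClosure ℚ)} {p : ℕ} [hp : Fact p.Prime]
  {M : ℕ} [NeZero M] {k : Type*} [Field k] [Algebra A k] [CharP k p] [IsAlgClosed k]
  {hk : Function.Surjective (algebraMap A k)} {hco : p.Coprime M} {hM : (M : k) ≠ 0} {b : A}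
  [Algebra A (FF Ω (p * M))] [IsScalarTower A Ω (FF Ω (p * M))]
  [Algebra A (FF k M)] [IsScalarTower A k (FF k M)]
  [FunField k (FF k M)] [FunField Ω (FF Ω M)] [FunField Ω (FF Ω (p * M))]
  {E : IntermediateField (K0 A) Ω} [FiniteDimensional (K0 A) E]
  {e : ℕ} {ϖ : A} {Q : RatStr (ng Ω hco hk hM b)}

/-- rational unit representatives of the classes in the image of `T_ℓ - ℓ - 1` -/
theorem exists_rep' (R : RS E e ϖ Q) (ι : Ω →+* ℂ) {η : Kum.XL (p * M) p}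
    (hfix : ∀ σ : Ω ≃ₐ[ℚ] Ω, (∀ x ∈ E, σ x = x) → Kum.rhoF ι p σ η = η) {S : Set ℕ}
    {ℓ : ℕ} (hℓ : ℓ.Prime) (hℓN : ¬ ℓ ∣ p * M) (hℓS : ℓ ∉ S) :
    ∃ f ∈ Q.fld, UW (ng Ω hco hk hM b) f ∧ HasCls ι p f
      (Kum.actX (p * M) p S (CuspForm.heckeAlgebra.T hℓ hℓN hℓS) η - (ℓ + 1) • η) := by
  haveI : Fact ℓ.Prime := ⟨hℓ⟩
  have hℓp : ℓ ≠ p := fun h => hℓN (h ▸ dvd_mul_right p M)
  obtain ⟨ζ, Z⟩ := exists_Zt (A := A) (K := Ω) (k := k) hℓ (natCast_ne_of (p := p) hℓp)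
  have hℓc := coprime_of' hℓN
  obtain ⟨x, hx, hσ⟩ := exists_fixed ι η
  have hxF : x ∈ Q.fld := by
    rw [R.mem_fld]
    intro σ hσ'
    obtain ⟨τ, hτ, rfl⟩ := exists_of_mem_Fx hσ'
    exact congrArg Subtype.val (hσ (AlgEquiv.restrictScalars ℚ τ) (hfix _ fun y hy => hτ ⟨y, hy⟩))
  have hx0 := hx.ne_zero
  have h1 := hx.TT (S := S) hℓ hℓN hℓS Z.hK (coe_TTf hℓc Z.hK x)
  have h2 := h1.div (hx.pow (ℓ + 1))
  have hyF : TTf Ω ℓ (p * M) x * (x ^ (ℓ + 1))⁻¹ ∈ Q.fld :=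
    mul_mem (R.TTf_fld hℓc hxF) (inv_mem (pow_mem hxF _))
  have hy0 : TTf Ω ℓ (p * M) x * (x ^ (ℓ + 1))⁻¹ ≠ 0 := h2.ne_zero
  obtain ⟨a, s, u, hu, huF, hxe⟩ := R.normal hxF hx0
  obtain ⟨a', s', u', hu', hu'F, hye⟩ := R.normal hyF hy0
  have s1 : Sl A k hco x ((ϖ : Ω) ^ s) := by
    rw [hxe]; exact R.sl_normal (zpow_ne_zero _ R.U.ne) hu
  have s2 := (sl_TTf Z hℓc s1).mul (s1.pow (ℓ + 1)).inv
  have s3 : Sl A k hco (TTf Ω ℓ (p * M) x * (x ^ (ℓ + 1))⁻¹) ((ϖ : Ω) ^ s') := by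
    rw [hye]; exact R.sl_normal (zpow_ne_zero _ R.U.ne) hu'
  obtain ⟨v, hv⟩ := sl_uniq hk s2 s3
  rw [mul_inv_cancel₀ (pow_ne_zero _ (zpow_ne_zero _ R.U.ne)), one_mul] at hv
  have hs' := R.zpow_unit hv
  rw [hs', zpow_zero, mul_one] at hye
  have ha : ((ϖ : Ω) ^ a')⁻¹ ≠ 0 := inv_ne_zero (zpow_ne_zero _ R.U.ne)
  refine ⟨u', hu'F, hu', ?_⟩
  have h3 := h2.mul_const ha
  rw [hye, mul_right_comm, ← map_mul, mul_inv_cancel₀ (zpow_ne_zero _ R.U.ne), map_one,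
    one_mul] at h3
  exact h3

end Rep

section Old

theorem exists_fun_aux {p : ℕ} [hp : Fact p.Prime] {V : Type*} [AddCommGroup V]
    [Module (ZMod p) V] (V₁ : AddSubgroup V) {u : V} (h4 : u ∉ V₁) :
    ∃ ψ : V →+ ZMod p, (∀ v ∈ V₁, ψ v = 0) ∧ ψ u ≠ 0 := by
  let W : Submodule (ZMod p) V := { V₁ with smul_mem' := fun c x hx => by
                                              have := ZMod.smul_mem (n := p) (K := V₁) hx c
                                              exact this }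
  have hpr : Module.Projective (ZMod p) (V ⧸ W) := inferInstance
  obtain ⟨f, hf, hf'⟩ := Submodule.exists_dual_map_eq_bot_of_notMem (p := W) (x := u) h4 hpr
  refine ⟨f.toAddMonoidHom, fun v hv => ?_, hf⟩
  have h6 : f v ∈ Submodule.map f W := ⟨_, hv, rfl⟩
  rw [hf'] at h6
  exact h6

/-- separating invariant functionals -/
theorem exists_functional {p : ℕ} [hp : Fact p.Prime] {V G : Type*} [AddCommGroup V] [Mul G]
    (hV : ∀ x : V, p • x = 0) (I : Set G) (hI : ∀ a ∈ I, ∀ b ∈ I, a * b ∈ I)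
    (r : G → V →+ V) (χ : G → ℤ)
    (h2 : ∀ σ ∈ I, ∀ τ ∈ I, ∀ w, r σ (r τ w - w) = χ σ • (r τ w - w)) {u : V} (hu : u ≠ 0)
    {τ₀ : G} (hτ₀ : τ₀ ∈ I) (hτu : r τ₀ u = u) (hχ : ¬ (p : ℤ) ∣ χ τ₀ - 1) :
    ∃ ψ : V →+ ZMod p, (∀ σ ∈ I, ∀ v, ψ (r σ v) = ψ v) ∧ ψ u ≠ 0 := by
  letI : Module (ZMod p) V := AddCommGroup.zmodModule hV
  let V₁ : AddSubgroup V := AddSubgroup.closure {x | ∃ τ ∈ I, ∃ w, x = r τ w - w}
  have h3 : ∀ x ∈ V₁, r τ₀ x = χ τ₀ • x := by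
    intro x hx
    induction hx using AddSubgroup.closure_induction with
    | mem x hx => obtain ⟨τ, hτ, w, rfl⟩ := hx; exact h2 τ₀ hτ₀ τ hτ w
    | zero => rw [map_zero, smul_zero]
    | add x y _ _ hx hy => rw [map_add, smul_add, hx, hy]
    | neg x _ hx => rw [map_neg, smul_neg, hx]
  have h4 : u ∉ V₁ := by
    intro h
    have h5 := h3 u h
    rw [hτu] at h5
    apply hu
    have h6 : (χ τ₀ - 1) • u = 0 := by rw [sub_smul, one_smul, ← h5, sub_self]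
    have h7 : IsCoprime (p : ℤ) (χ τ₀ - 1) :=
      (Prime.coprime_iff_not_dvd (Nat.prime_iff_prime_int.1 hp.out)).2 hχ
    obtain ⟨a, b', hab⟩ := h7
    have h8 : u = (a * p + b' * (χ τ₀ - 1)) • u := by rw [hab, one_smul]
    rw [h8, add_smul, mul_smul, mul_smul, natCast_zsmul, hV, h6, smul_zero, smul_zero, add_zero]
  obtain ⟨f, hf', hf⟩ := exists_fun_aux (p := p) V₁ h4
  refine ⟨f, fun σ hσ v => ?_, hf⟩
  have h5 : f (r σ v - v) = 0 := hf' _ (AddSubgroup.subset_closure ⟨σ, hσ, v, rfl⟩)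
  rw [map_sub, sub_eq_zero] at h5
  exact h5

variable {A : ValuationSubring (AlgebraicClosure ℚ)} {p : ℕ} [hp : Fact p.Prime]
  {M : ℕ} [NeZero M] {k : Type} [Field k] [Algebra A k] [CharP k p] [IsAlgClosed k]

/-- the Galois action as additive maps -/
def rh (ι : Ω →+* ℂ) {N : ℕ} [NeZero N] (m : ℕ) [NeZero m] (σ : Ω ≃ₐ[ℚ] Ω) :
    Kum.XL N m →+ Kum.XL N m :=
  AddMonoidHom.mk' (Kum.rhoF ι m σ) (Kum.rhoF_add ι σ)

theorem rh_apply (ι : Ω →+* ℂ) {N : ℕ} [NeZero N] {m : ℕ} [NeZero m] (σ : Ω ≃ₐ[ℚ] Ω)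
    (x : Kum.XL N m) : rh ι m σ x = Kum.rhoF ι m σ x := rfl

theorem nsmul_XL {N m : ℕ} [NeZero N] [NeZero m] (x : Kum.XL N m) : m • x = 0 := by
  obtain ⟨φ, rfl⟩ := Kum.mkX_surjective x
  exact Kum.mkX_nsmul φ

/-- **old classes with trivial reduction** -/
theorem old_zero (ι : Ω →+* ℂ) (hA : A.LiesOverPrime p)
    (hk : Function.Surjective (algebraMap A k)) (hp2 : p ≠ 2) (hpM : ¬ p ∣ M)
    (V : AddSubgroup (Kum.XL M p))
    (hV : ∀ σ ∈ A.inertiaSubgroupIn ℚ, ∀ v ∈ V, Kum.rhoF ι p σ v ∈ V)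
    (χ : (Ω ≃ₐ[ℚ] Ω) → ℤ)
    (h2 : ∀ σ ∈ A.inertiaSubgroupIn ℚ, ∀ τ ∈ A.inertiaSubgroupIn ℚ, ∀ w ∈ V,
      Kum.rhoF ι p σ (Kum.rhoF ι p τ w - w) = χ σ • (Kum.rhoF ι p τ w - w))
    {u : Kum.XL M p} (hu : u ∈ V) {τ₀ : Ω ≃ₐ[ℚ] Ω} (hτ₀ : τ₀ ∈ A.inertiaSubgroupIn ℚ)
    (hτu : Kum.rhoF ι p τ₀ u = u) (hχ : ¬ (p : ℤ) ∣ χ τ₀ - 1)
    {f : FF Ω M} (hf : HasCls ι p f u)
    (h1 : Rd A (f : LaurentSeries Ω) (1 : LaurentSeries k)) : u = 0 := by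
  by_contra hu0
  let r : (A.inertiaSubgroupIn ℚ) → V →+ V := fun σ =>
    ((rh ι p (σ : Ω ≃ₐ[ℚ] Ω)).comp V.subtype).codRestrict V fun v => hV σ σ.2 v v.2
  have hr : ∀ σ (v : V), ((r σ v : V) : Kum.XL M p) = Kum.rhoF ι p σ v := fun σ v => rfl
  obtain ⟨ψ, hψ, hψu⟩ := exists_functional (p := p) (V := V) (fun x => Subtype.ext (by
    rw [AddSubgroup.coe_nsmul, nsmul_XL]; rfl)) (Set.univ : Set (A.inertiaSubgroupIn ℚ))
    (fun _ _ _ _ => Set.mem_univ _) r (fun σ => χ σ) (fun σ _ τ _ w => Subtype.ext (by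
      rw [hr]
      push_cast
      rw [hr]
      exact h2 σ σ.2 τ τ.2 w w.2)) (u := ⟨u, hu⟩) (fun h => hu0 (congrArg Subtype.val h))
    (τ₀ := ⟨τ₀, hτ₀⟩) (Set.mem_univ _) (Subtype.ext hτu) hχ
  exact hψu (MzC.psi_eq_zero_cls ι hA hk hp2 hpM V hV ψ
    (fun σ hσ v => hψ ⟨σ, hσ⟩ (Set.mem_univ _) v) hu hf h1)

/-- traces of classes with trivial reduction -/
theorem old_zero' (ι : Ω →+* ℂ) (hA : A.LiesOverPrime p)
    (hk : Function.Surjective (algebraMap A k)) (hp2 : p ≠ 2) (hpM : ¬ p ∣ M) {N : ℕ} [NeZero N]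
    (tr : Kum.XL N p →+ Kum.XL M p)
    (htr : ∀ σ ξ, tr (Kum.rhoF ι p σ ξ) = Kum.rhoF ι p σ (tr ξ)) {v : Kum.XL N p}
    (χ : (Ω ≃ₐ[ℚ] Ω) → ℤ)
    (h2 : ∀ σ ∈ A.inertiaSubgroupIn ℚ, ∀ τ ∈ A.inertiaSubgroupIn ℚ, ∀ g ∈ A.inertiaSubgroupIn ℚ,
      Kum.rhoF ι p σ (Kum.rhoF ι p τ (Kum.rhoF ι p g v) - Kum.rhoF ι p g v) =
        χ σ • (Kum.rhoF ι p τ (Kum.rhoF ι p g v) - Kum.rhoF ι p g v))
    {τ₀ : Ω ≃ₐ[ℚ] Ω} (hτ₀ : τ₀ ∈ A.inertiaSubgroupIn ℚ)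
    (hτv : Kum.rhoF ι p τ₀ v = v) (hχ : ¬ (p : ℤ) ∣ χ τ₀ - 1)
    {f : FF Ω M} (hf : HasCls ι p f (tr v))
    (h1 : Rd A (f : LaurentSeries Ω) (1 : LaurentSeries k)) : tr v = 0 := by
  let W : AddSubgroup (Kum.XL N p) :=
    AddSubgroup.closure {x | ∃ g ∈ A.inertiaSubgroupIn ℚ, x = Kum.rhoF ι p g v}
  have hvW : v ∈ W := AddSubgroup.subset_closure ⟨1, one_mem _, (Kum.rhoF_one ι v).symm⟩
  have hWσ : ∀ σ ∈ A.inertiaSubgroupIn ℚ, ∀ w ∈ W, rh ι p σ w ∈ W := by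
    intro σ hσ w hw
    induction hw using AddSubgroup.closure_induction with
    | mem x hx =>
      obtain ⟨g, hg, rfl⟩ := hx
      exact AddSubgroup.subset_closure ⟨σ * g, mul_mem hσ hg, (Kum.rhoF_mul ι σ g v).symm⟩
    | zero => rw [map_zero]; exact zero_mem _
    | add x y _ _ hx hy => rw [map_add]; exact add_mem hx hy
    | neg x _ hx => rw [map_neg]; exact neg_mem hx
  have hW2 : ∀ σ ∈ A.inertiaSubgroupIn ℚ, ∀ τ ∈ A.inertiaSubgroupIn ℚ, ∀ w ∈ W,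
      rh ι p σ (rh ι p τ w - w) = χ σ • (rh ι p τ w - w) := by
    intro σ hσ τ hτ w hw
    induction hw using AddSubgroup.closure_induction with
    | mem x hx =>
      obtain ⟨g, hg, rfl⟩ := hx
      exact h2 σ hσ τ hτ g hg
    | zero => rw [map_zero, sub_zero, map_zero, smul_zero]
    | add x y _ _ hx hy =>
      have e : rh ι p τ (x + y) - (x + y) = (rh ι p τ x - x) + (rh ι p τ y - y) := by
        rw [map_add]; abel
      rw [e, map_add, hx, hy, smul_add]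
    | neg x _ hx =>
      have e : rh ι p τ (-x) - (-x) = -(rh ι p τ x - x) := by rw [map_neg]; abel
      rw [e, map_neg, hx, smul_neg]
  have htr' : ∀ σ ξ, tr (rh ι p σ ξ) = Kum.rhoF ι p σ (tr ξ) := htr
  refine old_zero ι hA hk hp2 hpM (W.map tr) ?_ χ ?_ ⟨v, hvW, rfl⟩ hτ₀ ?_ hχ hf h1
  · rintro σ hσ _ ⟨w, hw, rfl⟩
    exact ⟨_, hWσ σ hσ w hw, htr' σ w⟩
  · rintro σ hσ τ hτ _ ⟨w, hw, rfl⟩
    rw [← htr', ← map_sub, ← htr', hW2 σ hσ τ hτ w hw, map_zsmul]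
  · rw [← htr, hτv]

end Old

section Main

variable {A : ValuationSubring (AlgebraicClosure ℚ)} {p : ℕ} [hp : Fact p.Prime]
  {M : ℕ} [NeZero M] {k : Type} [Field k] [Algebra A k] [CharP k p] [IsAlgClosed k]
  {hk : Function.Surjective (algebraMap A k)} {hco : p.Coprime M} {hM : (M : k) ≠ 0} {b : A}
  [Algebra A (FF Ω (p * M))] [IsScalarTower A Ω (FF Ω (p * M))]
  [Algebra A (FF k M)] [IsScalarTower A k (FF k M)]
  [FunField k (FF k M)] [FunField Ω (FF Ω M)] [FunField Ω (FF Ω (p * M))]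
  (H : NodMod (ng Ω hco hk hM b) hk (ng_hspan hco hk hM b) (fd k p M).nodes)

/-- equivariance of maps on classes -/
theorem clsMap_gal {N₁ N₂ m : ℕ} [NeZero N₁] [NeZero N₂] [NeZero m] (ι : Ω →+* ℂ)
    {F : FF Ω N₁ →* FF Ω N₂}
    (hFσ : ∀ (σ : Ω ≃+* Ω) x, F (act N₁ σ x) = act N₂ σ (F x)) {tr : Kum.XL N₁ m →+ Kum.XL N₂ m}
    (htr : ∀ x ξ, HasCls ι m x ξ → HasCls ι m (F x) (tr ξ)) (σ : Ω ≃ₐ[ℚ] Ω) (ξ : Kum.XL N₁ m) :
    tr (Kum.rhoF ι m σ ξ) = Kum.rhoF ι m σ (tr ξ) := by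
  obtain ⟨x, hx, -⟩ := exists_fixed ι ξ
  have h1 := htr _ _ (hx.gal σ)
  rw [hFσ] at h1
  exact h1.unique ((htr _ _ hx).gal σ)

theorem Rd.frob_one (hk : Function.Surjective (algebraMap A k)) (hco : p.Coprime M)
    (hM : (M : k) ≠ 0) {x : FF Ω (p * M)}
    (h1 : Rd A (x : LaurentSeries Ω) (1 : LaurentSeries k))
    (h2 : Rd A (SemiSt.w Ω hco x : LaurentSeries Ω) (1 : LaurentSeries k)) :
    Rd A (Nm Ω p M x : LaurentSeries Ω) (1 : LaurentSeries k) := by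
  obtain ⟨a1, a2⟩ := h1
  obtain ⟨b1, b2⟩ := h2
  obtain ⟨h, h3⟩ := Nm_red hco hk hM a1 b1
  refine ⟨h, ?_⟩
  rw [h3, a2, b2, map_one, mul_one]

include H in
/-- **(A2)** classes with trivial reduction have no fixed vectors -/
theorem fixed_zero [hN : Nonempty (Nd (ng Ω hco hk hM b) hk (fd k p M).nodes)]
    (ι : Ω →+* ℂ) (hA : A.LiesOverPrime p) (hp2 : p ≠ 2) (hpM : ¬ p ∣ M)
    (hb : (b : Ω) ∈ K0 A) {S : Set ℕ} {ℓ : ℕ} (hℓ : ℓ.Prime) (hℓN : ¬ ℓ ∣ p * M) (hℓS : ℓ ∉ S)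
    {v η : Kum.XL (p * M) p}
    (hv : v = Kum.actX (p * M) p S (CuspForm.heckeAlgebra.T hℓ hℓN hℓS) η - (ℓ + 1) • η)
    {f : FF Ω (p * M)} (hf : UW (ng Ω hco hk hM b) f) (hcl : HasCls ι p f v)
    (h1 : r1 (ng Ω hco hk hM b) f = 1) (h2 : r2 (ng Ω hco hk hM b) f = 1)
    (χ : (Ω ≃ₐ[ℚ] Ω) → ℕ) (hχ : ∀ σ (ζ : Ω), ζ ^ p = 1 → σ ζ = ζ ^ χ σ)
    (hstar : ∀ σ ∈ A.inertiaSubgroupIn ℚ, ∀ τ ∈ A.inertiaSubgroupIn ℚ,
      ∀ g ∈ A.inertiaSubgroupIn ℚ,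
      Kum.rhoF ι p σ (Kum.rhoF ι p τ (Kum.rhoF ι p g v) - Kum.rhoF ι p g v) =
        (χ σ : ℤ) • (Kum.rhoF ι p τ (Kum.rhoF ι p g v) - Kum.rhoF ι p g v))
    {τ₀ : Ω ≃ₐ[ℚ] Ω} (hτ₀ : τ₀ ∈ A.inertiaSubgroupIn ℚ)
    (hτv : Kum.rhoF ι p τ₀ v = v) (hχτ : ¬ (p : ℤ) ∣ (χ τ₀ : ℤ) - 1) : v = 0 := by
  have hp0 := hp.out.ne_zero
  -- the traces
  obtain ⟨tr, htr⟩ := exists_clsMap (m := p) ι (Nm Ω p M) (fun x hx => Nm_ne_zero hx)
    (fun n x hx h v => Nm_dvd hx h v)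
  obtain ⟨trw, htrw⟩ := exists_clsMap (m := p) ι
    ((Nm Ω p M).comp ((SemiSt.w Ω hco : FF Ω (p * M) ≃ₐ[Ω] FF Ω (p * M)) :
      FF Ω (p * M) →* FF Ω (p * M))) (fun x hx => Nm_ne_zero (w_ne_zero hx))
    (fun n x hx h v => Nm_dvd (w_ne_zero hx) (dvd_ord_w hx h) v)
  have k1 : Rd A (f : LaurentSeries Ω) (1 : LaurentSeries k) := by
    have := rd1 hf.mem
    rw [h1] at this
    exact this
  have k2 : Rd A (SemiSt.w Ω hco f : LaurentSeries Ω) (1 : LaurentSeries k) := by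
    have := rd2 hf.mem
    rw [h2] at this
    exact this
  have k3 : Rd A (SemiSt.w Ω hco (SemiSt.w Ω hco f) : LaurentSeries Ω) (1 : LaurentSeries k) := by
    rw [w_w]; exact k1
  have z1 : tr v = 0 := old_zero' ι hA hk hp2 hpM tr
    (clsMap_gal ι (fun σ x => Nm_act hco σ x) htr) (fun σ => (χ σ : ℤ)) hstar hτ₀ hτv hχτ
    (htr _ _ hcl) (Rd.frob_one hk hco hM k1 k2)
  have z2 : trw v = 0 := old_zero' ι hA hk hp2 hpM trw
    (clsMap_gal ι (fun σ x => by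
      change Nm Ω p M (SemiSt.w Ω hco (act (p * M) σ x)) = act M σ (Nm Ω p M (SemiSt.w Ω hco x))
      rw [← act_w, Nm_act hco]) htrw) (fun σ => (χ σ : ℤ)) hstar hτ₀ hτv hχτ
    (htrw _ _ hcl) (Rd.frob_one hk hco hM k2 k3)
  -- the field of definition
  obtain ⟨E, hE, hEσ, ⟨ζ, hζE, hζ⟩, hEfix⟩ := exists_field (A := A) (p := p) ι (p * M) p
  obtain ⟨ϖ, U⟩ := exists_Unif hA E
  obtain ⟨m, hm, hem⟩ := exists_m hA U Module.finrank_pos hζE hζ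
  rw [hem] at U
  obtain ⟨Q, R⟩ := exists_RS hk hco hM U hA hb
  obtain ⟨g, hgF, hg, hgcl⟩ := exists_rep' R ι (η := η) (fun σ hσ => hEfix σ hσ _) hℓ hℓN hℓS
  rw [← hv] at hgcl
  obtain ⟨z, hz, hgz⟩ := hcl.exists_pow hgcl
  have hzU : UW (ng Ω hco hk hM b) z := by
    refine uw_of_pow hp0 ?_
    have e : z ^ p = g * f⁻¹ := by
      rw [hgz, mul_comm f, mul_assoc, mul_inv_cancel₀ hf.ne_zero, mul_one]
    rw [e]
    exact hg.mul hf.inv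
  obtain ⟨f', hf'F, hf', e1, e2, hcl'⟩ := normalize H hgF hg hgcl
    ⟨r1 (ng Ω hco hk hM b) z, by
      rw [hgz, r1_mul hf.mem (hzU.pow p).mem, r1_pow hzU.mem, h1, one_mul]⟩
    ⟨r2 (ng Ω hco hk hM b) z, by
      rw [hgz, r2_mul hf.mem (hzU.pow p).mem, r2_pow hzU.mem, h2, one_mul]⟩
  have n1 := htr _ _ hcl'
  rw [z1] at n1
  have n2 := htrw _ _ hcl'
  rw [z2] at n2
  obtain ⟨τ, rfl⟩ := exists_res_eq hτ₀
  have hI := inert_of hA hm R hb (σ := τ) (hEσ τ) hζ (c := χ (AlgEquiv.restrictScalars ℚ τ))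
    (hχ (AlgEquiv.restrictScalars ℚ τ) ζ hζ.pow_eq_one)
  have hfin := final_new H hA hm R hI hf'F hf' e1 e2 hcl' n1.exists_pow_of_zero
    n2.exists_pow_of_zero
  rw [hτv] at hfin
  have h7 : IsCoprime (p : ℤ) ((χ (AlgEquiv.restrictScalars ℚ τ) : ℤ) - 1) :=
    (Prime.coprime_iff_not_dvd (Nat.prime_iff_prime_int.1 hp.out)).2 hχτ
  obtain ⟨a, b', hab⟩ := h7
  have h6 : ((χ (AlgEquiv.restrictScalars ℚ τ) : ℤ) - 1) • v = 0 := by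
    rw [sub_smul, one_smul, natCast_zsmul, ← hfin, sub_self]
  have h8 : v = (a * p + b' * ((χ (AlgEquiv.restrictScalars ℚ τ) : ℤ) - 1)) • v := by
    rw [hab, one_smul]
  rw [h8, add_smul, mul_smul, mul_smul, natCast_zsmul, nsmul_XL, h6, smul_zero, smul_zero,
    add_zero]

end Main

end Fermat.Agent.Ord
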