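import Mathlib

/-!
# Ordinariness: the algebraic part
-/

set_option autoImplicit false
set_option linter.unusedSectionVars false
set_option linter.style.haveILetI false

namespace Fermat.Agent.Ord

section Ring

variable {E G : Type*} [Ring E] [Group G] (a : G →* E) {χ t : G → E}

/-- the twisted inverse -/
def tw (χ : G → E) (g : G) : E := χ g * a g⁻¹

variable {a} (hχc : ∀ g x, χ g * x = x * χ g) (hχ : ∀ g h, χ (g * h) = χ g * χ h)
  (hχ1 : χ 1 = 1) (ht : ∀ g, a g + tw a χ g = t g) (htc : ∀ g x, t g * x = x * t g)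

include hχ hχc in
theorem tw_mul (g h : G) : tw a χ g * tw a χ h = tw a χ (h * g) := by
  simp only [tw]
  rw [mul_inv_rev, map_mul, hχ, hχc h (χ g), mul_assoc, mul_assoc, ← mul_assoc (a g⁻¹),
    ← hχc h (a g⁻¹), mul_assoc]

include hχ1 in
theorem tw_one : tw a χ 1 = 1 := by rw [tw, hχ1, inv_one, map_one, one_mul]

theorem a_mul_inv (h : G) : a h * a h⁻¹ = 1 := by rw [← map_mul, mul_inv_cancel, map_one]

include hχc hχ ht htc in
theorem t_conj (g h : G) : t (g * h) = t (h * g) := by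
  have e1 : t (g * h) = a h * t (g * h) * a h⁻¹ := by
    rw [← htc, mul_assoc, a_mul_inv, mul_one]
  rw [e1, ← ht, ← ht, mul_add, add_mul]
  congr 1
  · rw [← map_mul, ← map_mul]
    congr 1
    group
  · simp only [tw]
    rw [← mul_assoc (a h), ← hχc, mul_assoc, mul_assoc, ← map_mul, ← map_mul, hχ, hχ, hχc g]
    congr 2
    group

include hχc hχ ht htc in
theorem u_eq {c g k : G} (hc : c * c = 1) {y : E}
    (hy : y = (1 + a c) * a g * (1 - a c)) :
    t (g * k) + t (c * g * k) - t (g * c * k) - t (c * g * c * k) =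
      y * a k + a k * y - t k * y := by
  have hy' : y = a g + a (c * g) - a (g * c) - a (c * g * c) := by
    rw [hy]; simp only [map_mul]; noncomm_ring
  -- `y` is antisymmetric
  have hys : tw a χ g + tw a χ (c * g) - tw a χ (g * c) - tw a χ (c * g * c) = -y := by
    have h1 : t g + t (c * g) - t (g * c) - t (c * g * c) = 0 := by
      rw [t_conj hχc hχ ht htc c g, mul_assoc c g c, t_conj hχc hχ ht htc c (g * c), mul_assoc g,
        hc, mul_one]
      abel
    simp only [← ht] at h1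
    rw [hy', eq_neg_iff_add_eq_zero, ← h1]
    abel
  have h2 : tw a χ (g * k) + tw a χ (c * g * k) - tw a χ (g * c * k) - tw a χ (c * g * c * k) =
      tw a χ k * (-y) := by
    rw [← hys, mul_sub, mul_sub, mul_add]
    simp only [tw_mul hχc hχ]
  have h3 : tw a χ k = t k - a k := by rw [← ht]; abel
  simp only [← ht]
  have h4 : a (g * k) + a (c * g * k) - a (g * c * k) - a (c * g * c * k) = y * a k := by
    rw [hy']; simp only [map_mul]; noncomm_ring
  have h5 : a (g * k) + tw a χ (g * k) + (a (c * g * k) + tw a χ (c * g * k)) -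
      (a (g * c * k) + tw a χ (g * c * k)) - (a (c * g * c * k) + tw a χ (c * g * c * k)) =
      (a (g * k) + a (c * g * k) - a (g * c * k) - a (c * g * c * k)) +
      (tw a χ (g * k) + tw a χ (c * g * k) - tw a χ (g * c * k) - tw a χ (c * g * c * k)) := by
    abel
  rw [h5, h4, h2, h3]
  have h6 : a k + (t k - a k) = t k := by abel
  rw [h6]
  noncomm_ring

include hχc hχ hχ1 ht htc in
/-- **the star lemma** -/
theorem star_zero {σ τ c g k : G}
    (hres : ∀ g, t (σ * τ * g) - t (σ * g) - χ σ * t (τ * g) + χ σ * t g = 0)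
    (hc : c * c = 1) : (a σ - χ σ) * (a τ - 1) *
      (t (g * k) + t (c * g * k) - t (g * c * k) - t (c * g * c * k)) = 0 := by
  obtain ⟨s, hs⟩ : ∃ s, s = (a σ - χ σ) * (a τ - 1) := ⟨_, rfl⟩
  obtain ⟨s', hs'⟩ : ∃ s', s' = tw a χ (σ * τ) - tw a χ σ - χ σ * tw a χ τ + χ σ := ⟨_, rfl⟩
  -- the symmetry
  have h1 : ∀ g, s * a g + tw a χ g * s' = 0 := fun g => by
    have h2 := hres g
    simp only [← ht] at h2
    rw [← h2, hs, hs']
    have e1 : (a σ - χ σ) * (a τ - 1) * a g = a (σ * τ * g) - a (σ * g) - χ σ * a (τ * g) +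
        χ σ * a g := by
      simp only [map_mul]; noncomm_ring
    have e2 : tw a χ g * (tw a χ (σ * τ) - tw a χ σ - χ σ * tw a χ τ + χ σ) =
        tw a χ (σ * τ * g) - tw a χ (σ * g) - χ σ * tw a χ (τ * g) + χ σ * tw a χ g := by
      rw [mul_add, mul_sub, mul_sub, ← mul_assoc, ← hχc σ (tw a χ g), mul_assoc]
      simp only [tw_mul hχc hχ]
    rw [e1, e2]
    noncomm_ring
  have h2 : s' = -s := by
    have h3 := h1 1
    rw [map_one, mul_one, tw_one hχ1, one_mul] at h3
    exact (neg_eq_of_add_eq_zero_right h3).symm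
  have h3 : ∀ g, s * a g = tw a χ g * s := fun g => by
    have h4 := h1 g
    rw [h2, mul_neg] at h4
    exact add_neg_eq_zero.1 h4
  obtain ⟨y, hy⟩ : ∃ y, y = (1 + a c) * a g * (1 - a c) := ⟨_, rfl⟩
  have h4 : s * y = 0 := by
    have e1 : s * y = s * a g - s * a g * a c + (s * a (c * g) - s * a (c * g) * a c) := by
      rw [hy]; simp only [map_mul]; noncomm_ring
    have e2 : ∀ h, s * a h * a c = tw a χ h * tw a χ c * s := fun h => by
      rw [h3, mul_assoc, h3, mul_assoc]
    rw [e1, e2, e2, h3, h3, tw_mul hχc hχ, tw_mul hχc hχ, ← mul_assoc c c g, hc, one_mul]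
    abel
  rw [← hs, u_eq hχc hχ ht htc hc hy, mul_sub, mul_add, ← mul_assoc, h4, zero_mul,
    ← mul_assoc s (a k) y, h3, mul_assoc _ s y, h4, mul_zero, ← mul_assoc s (t k) y, ← htc,
    mul_assoc, h4, mul_zero]
  abel

end Ring

section Mod

variable {R X G : Type*} [CommRing R] [AddCommGroup X] [Module R X] [Group G]
  {ρ : G →* Module.End R X} {χ t : G → R}

variable (ρ) in
/-- restriction to a stable submodule -/
def resEnd (Y : Submodule R X) (hY : ∀ g, ∀ y ∈ Y, ρ g y ∈ Y) : G →* Module.End R Y where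
  toFun g := (ρ g).restrict (hY g)
  map_one' := by
    refine LinearMap.ext fun y => Subtype.ext ?_
    change ρ 1 y = y
    rw [map_one]; rfl
  map_mul' g h := by
    refine LinearMap.ext fun y => Subtype.ext ?_
    change ρ (g * h) y = ρ g (ρ h y)
    rw [map_mul]; rfl

theorem coe_resEnd (Y : Submodule R X) (hY : ∀ g, ∀ y ∈ Y, ρ g y ∈ Y) (g : G) (y : Y) :
    ((resEnd ρ Y hY g y : Y) : X) = ρ g y := rfl

/-- the torsion of an ideal -/
def tors (X : Type*) [AddCommGroup X] [Module R X] (𝔫 : Ideal R) : Submodule R X where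
  carrier := {x | ∀ s ∈ 𝔫, s • x = 0}
  zero_mem' := fun s _ => smul_zero s
  add_mem' := fun {x y} hx hy s hs => by rw [smul_add, hx s hs, hy s hs, add_zero]
  smul_mem' := fun c x hx s hs => by rw [smul_comm, hx s hs, smul_zero]

theorem mem_tors {𝔫 : Ideal R} {x : X} : x ∈ tors X 𝔫 ↔ ∀ s ∈ 𝔫, s • x = 0 := Iff.rfl

theorem map_tors {𝔫 : Ideal R} (f : Module.End R X) {x : X} (hx : x ∈ tors X 𝔫) :
    f x ∈ tors X 𝔫 := fun s hs => by rw [← map_smul, hx s hs, map_zero]

variable (hχ : ∀ g h (x : X), χ (g * h) • x = (χ g * χ h) • x) (hχ1 : ∀ x : X, χ 1 • x = x)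
  (hrel : ∀ g (x : X), ρ g x + χ g • ρ g⁻¹ x = t g • x) {𝔫 : Ideal R}

theorem exists_inv_mod [h𝔫 : 𝔫.IsMaximal] {a : R} (ha : a ∉ 𝔫) : ∃ b : R,
    ∀ x ∈ tors X 𝔫, (b * a) • x = x := by
  obtain ⟨b, i, hi, h⟩ := h𝔫.exists_inv ha
  refine ⟨b, fun x hx => ?_⟩
  have h1 : b * a = 1 - i := by rw [← h]; ring
  rw [h1, sub_smul, one_smul, hx i hi, sub_zero]

include hχ hχ1 hrel in
theorem star_tors [𝔫.IsMaximal] {σ τ c g k : G}
    (hres : ∀ g, t (σ * τ * g) - t (σ * g) - χ σ * t (τ * g) + χ σ * t g ∈ 𝔫) (hc : c * c = 1)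
    (hu : t (g * k) + t (c * g * k) - t (g * c * k) - t (c * g * c * k) ∉ 𝔫) {x : X}
    (hx : x ∈ tors X 𝔫) : ρ σ (ρ τ x - x) = χ σ • (ρ τ x - x) := by
  have hY : ∀ g, ∀ y ∈ tors X 𝔫, ρ g y ∈ tors X 𝔫 := fun g y hy => map_tors _ hy
  have h1 := star_zero (a := resEnd ρ (tors X 𝔫) hY)
    (χ := fun g => algebraMap R (Module.End R (tors X 𝔫)) (χ g))
    (t := fun g => algebraMap R (Module.End R (tors X 𝔫)) (t g))
    (fun g x => Algebra.commutes _ _)
    (fun g h => by
      rw [← map_mul]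
      refine LinearMap.ext fun y => Subtype.ext ?_
      exact hχ g h y)
    (LinearMap.ext fun y => Subtype.ext (hχ1 y))
    (fun g => LinearMap.ext fun y => Subtype.ext (hrel g y))
    (fun g x => Algebra.commutes _ _) (σ := σ) (τ := τ) (c := c) (g := g) (k := k)
    (fun g => by
      rw [← map_mul, ← map_mul, ← map_sub, ← map_sub, ← map_add]
      refine LinearMap.ext fun y => Subtype.ext ?_
      exact y.2 _ (hres g)) hc
  rw [← map_add, ← map_sub, ← map_sub] at h1
  obtain ⟨b, hb⟩ := exists_inv_mod (X := X) hu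
  have h2 := LinearMap.congr_fun h1 (⟨b • x, Submodule.smul_mem _ b hx⟩ : tors X 𝔫)
  have h3 := congrArg Subtype.val h2
  have h4 : ρ σ (ρ τ ((t (g * k) + t (c * g * k) - t (g * c * k) - t (c * g * c * k)) • b • x) -
      (t (g * k) + t (c * g * k) - t (g * c * k) - t (c * g * c * k)) • b • x) -
      χ σ • (ρ τ ((t (g * k) + t (c * g * k) - t (g * c * k) - t (c * g * c * k)) • b • x) -
      (t (g * k) + t (c * g * k) - t (g * c * k) - t (c * g * c * k)) • b • x) = 0 := h3
  rw [smul_smul, mul_comm _ b, hb x hx] at h4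
  exact sub_eq_zero.1 h4

include hχ hrel in
/-- scalar actions kill the commutator trace -/
theorem u_zero {c g k : G} (hc : c * c = 1) {lam : G → R} {z : X}
    (hz : ∀ g (r : R), ρ g (r • z) = lam g • r • z) :
    (t (g * k) + t (c * g * k) - t (g * c * k) - t (c * g * c * k)) • z = 0 := by
  obtain ⟨y, hy⟩ : ∃ y, y = (1 + ρ c) * ρ g * (1 - ρ c) := ⟨_, rfl⟩
  have h1 := u_eq (a := ρ) (χ := fun g => algebraMap R (Module.End R X) (χ g))
    (t := fun g => algebraMap R (Module.End R X) (t g))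
    (fun g x => Algebra.commutes _ _)
    (fun g h => by
      rw [← map_mul]
      exact LinearMap.ext fun y => hχ g h y)
    (fun g => LinearMap.ext fun y => hrel g y)
    (fun g x => Algebra.commutes _ _) (c := c) (g := g) (k := k) hc hy
  have h2 := LinearMap.congr_fun h1 z
  rw [← map_add, ← map_sub, ← map_sub] at h2
  have hyz : ∀ r : R, y (r • z) = 0 := by
    intro r
    have e0 : ρ c (ρ c (r • z)) = r • z := by
      have : (ρ c * ρ c) (r • z) = r • z := by rw [← map_mul, hc, map_one]; rfl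
      exact this
    rw [hz c r, smul_smul, hz c, smul_smul] at e0
    have e1 : y (r • z) = ρ g (r • z - ρ c (r • z)) + ρ c (ρ g (r • z - ρ c (r • z))) := by
      rw [hy]; rfl
    rw [e1, hz c r, smul_smul, ← sub_smul, hz g, smul_smul, hz c, smul_smul, ← add_smul]
    have e2 : lam g * (r - lam c * r) + lam c * (lam g * (r - lam c * r)) =
        lam g * r - lam g * (lam c * (lam c * r)) := by ring
    rw [e2, sub_smul, mul_smul, mul_smul, e0, sub_self]
  have hyz1 : y z = 0 := by have := hyz 1; rwa [one_smul] at this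
  have h3 : (t (g * k) + t (c * g * k) - t (g * c * k) - t (c * g * c * k)) • z =
      y (ρ k z) + ρ k (y z) - t k • y z := h2
  have h4 : ρ k z = lam k • z := by have := hz k 1; rwa [one_smul] at this
  rw [h3, hyz1, h4, hyz, map_zero, smul_zero, add_zero, sub_zero]

section Fin

variable [Finite X]

/-- nonzero vectors killed by a power of an ideal have a nonzero multiple killed by it -/
theorem exists_socle (𝔫 : Ideal R) (k : ℕ) : ∀ {z : X}, z ≠ 0 → z ∈ tors X (𝔫 ^ k) →
    ∃ r : R, r • z ≠ 0 ∧ r • z ∈ tors X 𝔫 := by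
  induction k with
  | zero =>
    intro z hz h
    have h1 := h 1 (by rw [pow_zero, Ideal.one_eq_top]; exact Submodule.mem_top)
    rw [one_smul] at h1
    exact absurd h1 hz
  | succ k ih =>
    intro z hz h
    by_cases h1 : ∀ s ∈ 𝔫, s • z = 0
    · exact ⟨1, by rwa [one_smul], by rw [one_smul]; exact h1⟩
    · push Not at h1
      obtain ⟨s, hs, hsz⟩ := h1
      obtain ⟨r, hr, hr'⟩ := ih hsz (fun s' hs' => by
        rw [smul_smul]
        exact h _ (by rw [pow_succ]; exact Ideal.mul_mem_mul hs' hs))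
      exact ⟨r * s, by rwa [mul_smul], by rwa [mul_smul]⟩

theorem eq_zero_of_smul [𝔫.IsMaximal] {k : ℕ} {a : R} (ha : a ∉ 𝔫) {x : X}
    (hx : x ∈ tors X (𝔫 ^ k)) (h : a • x = 0) : x = 0 := by
  by_contra hx0
  obtain ⟨r, hr, hr'⟩ := exists_socle 𝔫 k hx0 hx
  obtain ⟨b, hb⟩ := exists_inv_mod (X := X) ha
  apply hr
  rw [← hb _ hr', mul_smul, smul_comm a r, h, smul_zero, smul_zero]

/-- injective endomorphisms of finite submodules are surjective -/
theorem surj_of_inj (Y : Submodule R X) (f : X →ₗ[R] X) (hf : ∀ y ∈ Y, f y ∈ Y)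
    (hinj : ∀ y ∈ Y, f y = 0 → y = 0) {y : X} (hy : y ∈ Y) : ∃ z ∈ Y, f z = y := by
  have h1 : Function.Injective (f.restrict hf) := by
    rw [injective_iff_map_eq_zero]
    intro a ha
    exact Subtype.ext (hinj a a.2 (congrArg Subtype.val ha))
  obtain ⟨z, hz⟩ := Finite.surjective_of_injective h1 ⟨y, hy⟩
  exact ⟨z, z.2, congrArg Subtype.val hz⟩

variable (X) in
theorem exists_stable (𝔫 : Ideal R) : ∃ (k : ℕ) (s : R), s - 1 ∈ 𝔫 ∧
    ∀ x : X, s • x ∈ tors X (𝔫 ^ k) := by
  let f : ℕ →o (Submodule R X)ᵒᵈ :=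
    ⟨fun k => OrderDual.toDual (𝔫 ^ k • (⊤ : Submodule R X)), fun a b hab =>
      OrderDual.toDual_le_toDual.2 (Submodule.smul_mono_left (Ideal.pow_le_pow_right hab))⟩
  obtain ⟨k, hk⟩ := IsArtinian.monotone_stabilizes f
  have h1 : (𝔫 ^ k • (⊤ : Submodule R X)) = 𝔫 ^ (k + 1) • (⊤ : Submodule R X) :=
    OrderDual.toDual_inj.1 (hk (k + 1) (Nat.le_succ k))
  obtain ⟨s, hs, hs'⟩ := Submodule.exists_sub_one_mem_and_smul_eq_zero_of_fg_of_le_smul 𝔫
    (𝔫 ^ k • (⊤ : Submodule R X)) (IsNoetherian.noetherian _) (by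
      rw [← mul_smul, ← pow_succ']
      exact h1.le)
  refine ⟨k, s, hs, fun x a ha => ?_⟩
  rw [smul_comm]
  exact hs' _ (Submodule.smul_mem_smul ha Submodule.mem_top)

end Fin

end Mod

end Fermat.Agent.Ord
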