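import Fermat.Agent.Ord.A2c

/-!
# The embedding of the `p`-torsion in the `p ^ n`-torsion
-/

set_option autoImplicit false
set_option linter.unusedSectionVars false
set_option linter.style.haveILetI false

noncomputable section

namespace Fermat.Agent.Ord

open ModularCurve AlgebraicCurve Polynomial IntermediateField Fermat.Agent.ModPoly Fermat.Agent.Red
  Fermat.Agent.RedMod Fermat.Agent.Cusp Fermat.Agent.SemiSt Fermat.Agent.Curve Fermat.Agent.RR
  Fermat.Agent.Kum Fermat.Agent.Places Fermat.Agent.PRem Fermat.Agent.HeckeHom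
  Fermat.Agent.MFLib Fermat.Agent.KumF

variable {N : ℕ} [NeZero N] {m d D : ℕ} [NeZero m] [NeZero D]

/-- multiplication by `d` -/
def jE (hD : D = d * m) : XL N m →+ XL N D :=
  QuotientAddGroup.map (mL N m) (mL N D) (nsmulAddMonoidHom d) (by
    rintro _ ⟨φ, rfl⟩
    refine ⟨φ, ?_⟩
    rw [nsmulAddMonoidHom_apply, nsmulAddMonoidHom_apply, nsmulAddMonoidHom_apply, hD, mul_nsmul',
      smul_smul])

theorem jE_mkX (hD : D = d * m) (φ : LZ N) : jE hD (mkX φ : XL N m) = mkX (d • φ) := rfl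

theorem LZ_cancel (hd : d ≠ 0) {φ ψ : LZ N} (h : d • φ = d • ψ) : φ = ψ := by
  apply Subtype.ext
  refine AddMonoidHom.ext fun γ => ?_
  have h1 : (d : ℤ) * φ.1 γ = (d : ℤ) * ψ.1 γ := by
    have := DFunLike.congr_fun (congrArg Subtype.val h) γ
    rw [← nsmul_eq_mul, ← nsmul_eq_mul]
    exact this
  exact mul_left_cancel₀ (by exact_mod_cast hd) h1

theorem jE_injective (hD : D = d * m) : Function.Injective (jE hD : XL N m →+ XL N D) := by
  have hd : d ≠ 0 := by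
    rintro rfl
    rw [zero_mul] at hD
    exact NeZero.ne D hD
  rw [injective_iff_map_eq_zero]
  intro ξ h
  obtain ⟨φ, rfl⟩ := mkX_surjective ξ
  rw [jE_mkX, ← map_zero mkX, mkX_eq_iff, redI_zero, redI_eq_zero] at h
  obtain ⟨ψ, hψ⟩ := h
  rw [← map_zero mkX, mkX_eq_iff, redI_zero, redI_eq_zero]
  refine ⟨ψ, LZ_cancel hd ?_⟩
  rw [hψ, hD, smul_smul]

theorem exists_jE (hD : D = d * m) {ξ : XL N D} (h : m • ξ = 0) : ∃ η : XL N m, jE hD η = ξ := by
  obtain ⟨φ, rfl⟩ := mkX_surjective ξ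
  rw [← map_nsmul, ← map_zero mkX, mkX_eq_iff, redI_zero, redI_eq_zero] at h
  obtain ⟨ψ, hψ⟩ := h
  refine ⟨mkX ψ, ?_⟩
  rw [jE_mkX]
  congr 1
  refine LZ_cancel (NeZero.ne m) ?_
  rw [hψ, hD, smul_smul, mul_comm]

theorem jE_act (hD : D = d * m) {S : Set ℕ} (t : CuspForm.heckeAlgebra N 2 S) (ξ : XL N m) :
    jE hD (actX N m S t ξ) = actX N D S t (jE hD ξ) := by
  obtain ⟨φ, rfl⟩ := mkX_surjective ξ
  rw [actX_mkX, jE_mkX, jE_mkX, actX_mkX]
  exact congrArg mkX (map_nsmul (actL N S t) d φ).symm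

/-- `ech` of multiples -/
theorem ech_mul (hD : D = d * m) (a : ℤ) : ech ((d * a : ℤ) : ZMod D) = ech ((a : ℤ) : ZMod m) := by
  have hd : d ≠ 0 := by
    rintro rfl
    rw [zero_mul] at hD
    exact NeZero.ne D hD
  rw [ech, ech, ZMod.stdAddChar_coe, ZMod.stdAddChar_coe]
  congr 1
  have h1 : (m : ℂ) ≠ 0 := by exact_mod_cast NeZero.ne m
  have h2 : (d : ℂ) ≠ 0 := by exact_mod_cast hd
  rw [hD]
  push_cast
  field_simp

theorem rep_pow (hD : D = d * m) {x : LaurentSeries ℂ} {φ : LZ N} (h : Rep N x (redI m φ)) :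
    Rep N (x ^ d) (redI D (d • φ)) := by
  obtain ⟨k, u, g, hr⟩ := h
  refine ⟨k, u, g, hr.hu, hr.u0, fun γ => ?_, hr.hg, hr.g0, ?_⟩
  · rw [hr.hs]
    congr 1
    change ech ((φ.1 (Additive.ofMul γ) : ℤ) : ZMod m) =
      ech ((((d • φ : LZ N).1 (Additive.ofMul γ) : ℤ)) : ZMod D)
    have : ((d • φ : LZ N).1 (Additive.ofMul γ) : ℤ) = d * φ.1 (Additive.ofMul γ) := by
      rw [← nsmul_eq_mul]; rfl
    rw [this, ech_mul hD]
  · have h1 := congrArg (· ^ d) hr.eq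
    beta_reduce at h1
    rw [mul_pow, ← pow_mul, mul_comm m d, ← hD] at h1
    have h2 : u ^ D = (u ^ m) ^ d := by rw [← pow_mul, hD, mul_comm]
    rw [h1, h2, ql_pow hr.pow_mf.qgN]

section Cls

variable {ι : AlgebraicClosure ℚ →+* ℂ}

theorem hasCls_pow (hD : D = d * m) {f : FF (AlgebraicClosure ℚ) N} {ξ : XL N m}
    (h : HasCls ι m f ξ) : HasCls ι D (f ^ d) (jE hD ξ) := by
  obtain ⟨φ, rfl, h1⟩ := h
  refine ⟨d • φ, rfl, ?_⟩
  have h2 := rep_pow hD h1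
  rw [← map_pow] at h2
  exact h2

theorem jE_gal (hD : D = d * m) (σ : AlgebraicClosure ℚ ≃ₐ[ℚ] AlgebraicClosure ℚ) (ξ : XL N m) :
    jE hD (rhoF ι m σ ξ) = rhoF ι D σ (jE hD ξ) := by
  obtain ⟨x, hx, -⟩ := exists_fixed ι ξ
  have h1 := hasCls_pow hD (hx.gal σ)
  have h2 := (hasCls_pow hD hx).gal σ
  rw [map_pow] at h2
  exact h1.unique h2

/-- descent of representatives -/
theorem exists_root_cls (hD : D = d * m) {f : FF (AlgebraicClosure ℚ) N} {ξ : XL N m}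
    (h : HasCls ι D f (jE hD ξ)) : ∃ g : FF (AlgebraicClosure ℚ) N, f = g ^ d ∧ HasCls ι m g ξ := by
  obtain ⟨x, hx, -⟩ := exists_fixed ι ξ
  obtain ⟨z, hz, hfz⟩ := (hasCls_pow hD hx).exists_pow h
  refine ⟨x * z ^ m, ?_, hx.mul_pow hz⟩
  rw [hfz, hD, mul_pow, ← pow_mul, mul_comm m d]

end Cls

end Fermat.Agent.Ord
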