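import Mathlib

/-!
# Linear algebra for ordinariness
-/

set_option autoImplicit false
set_option linter.unusedSectionVars false
set_option linter.style.haveILetI false

noncomputable section

namespace Fermat.Agent.Ord

open Module Matrix

section Field

variable {k V : Type*} [CommRing k] [AddCommGroup V] [Module k V] (b : Basis (Fin 2) k V)

/-- ordinary endomorphisms -/
theorem ord_rel (f g h : Module.End k V) (hf : ∀ v, f v - v ∈ k ∙ b 0)
    (hg : ∀ v, g v - v ∈ k ∙ b 0) :
    LinearMap.trace k V (f * g * h) - LinearMap.trace k V (f * h) -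
      LinearMap.det f * LinearMap.trace k V (g * h) +
      LinearMap.det f * LinearMap.trace k V h = 0 := by
  have hf0 : f (b 0) = LinearMap.det f • b 0 := by
    obtain ⟨c0, hc0⟩ := Submodule.mem_span_singleton.1 (hf (b 0))
    obtain ⟨c1, hc1⟩ := Submodule.mem_span_singleton.1 (hf (b 1))
    have e0 : f (b 0) = (1 + c0) • b 0 := by
      rw [add_smul, one_smul, hc0]; abel
    have e1 : f (b 1) = b 1 + c1 • b 0 := by
      rw [hc1]; abel
    have hdet : LinearMap.det f = 1 + c0 := by
      rw [← LinearMap.det_toMatrix b, Matrix.det_fin_two]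
      simp [LinearMap.toMatrix_apply, e0, e1]
    rw [hdet, e0]
  have h0 : (f - LinearMap.det f • (1 : Module.End k V)) * (g - 1) = 0 := by
    refine LinearMap.ext fun v => ?_
    obtain ⟨c, hc⟩ := Submodule.mem_span_singleton.1 (hg v)
    change f (g v - v) - LinearMap.det f • (g v - v) = 0
    rw [← hc, map_smul, hf0, smul_comm, sub_self]
  have h1 : (f - LinearMap.det f • (1 : Module.End k V)) * (g - 1) * h =
      f * g * h - f * h - LinearMap.det f • (g * h) + LinearMap.det f • h := by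
    simp only [sub_mul, mul_sub, smul_mul_assoc, one_mul, mul_one, smul_sub]
    abel
  have h2 := congrArg (LinearMap.trace k V) h1
  rw [h0, zero_mul, map_zero, map_add, map_sub, map_sub, map_smul, map_smul, smul_eq_mul,
    smul_eq_mul] at h2
  exact h2.symm

end Field

section Local

variable {A V : Type*} [CommRing A] [IsLocalRing A] [AddCommGroup V] [Module A V]
  (b : Basis (Fin 2) A V)

theorem exists_basis {v w : V} (h : IsUnit (b.repr v 0 * b.repr w 1 - b.repr w 0 * b.repr v 1)) :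
    ∃ b' : Basis (Fin 2) A V, b' 0 = v ∧ b' 1 = w := by
  have h1 : IsUnit (b.det ![v, w]) := by
    rw [Basis.det_apply, Matrix.det_fin_two]
    simpa [Basis.toMatrix_apply] using h
  obtain ⟨h2, h3⟩ := (Module.Basis.is_basis_iff_det b).2 h1
  refine ⟨Basis.mk h2 h3.ge, ?_, ?_⟩ <;> simp

/-- rank one idempotents -/
theorem exists_line (f : Module.End A V) (htr : (LinearMap.toMatrix b b f).trace = 1)
    (hdet : (LinearMap.toMatrix b b f).det = 0) :
    ∃ b' : Basis (Fin 2) A V, LinearMap.range f = A ∙ b' 0 := by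
  rw [Matrix.trace_fin_two] at htr
  rw [Matrix.det_fin_two] at hdet
  simp only [LinearMap.toMatrix_apply] at htr hdet
  have hrep : ∀ v, v = b.repr v 0 • b 0 + b.repr v 1 • b 1 := fun v => by
    conv_lhs => rw [← b.sum_repr v]
    rw [Fin.sum_univ_two]
  obtain ⟨α, hα⟩ : ∃ α, α = b.repr (f (b 0)) 0 := ⟨_, rfl⟩
  obtain ⟨γ, hγ⟩ : ∃ γ, γ = b.repr (f (b 0)) 1 := ⟨_, rfl⟩
  obtain ⟨β, hβ⟩ : ∃ β, β = b.repr (f (b 1)) 0 := ⟨_, rfl⟩
  obtain ⟨δ, hδ⟩ : ∃ δ, δ = b.repr (f (b 1)) 1 := ⟨_, rfl⟩
  rw [← hα, ← hδ] at htr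
  rw [← hα, ← hδ, ← hβ, ← hγ] at hdet
  have f0 : f (b 0) = α • b 0 + γ • b 1 := by rw [hα, hγ]; exact hrep _
  have f1 : f (b 1) = β • b 0 + δ • b 1 := by rw [hβ, hδ]; exact hrep _
  have hfv : ∀ v, f v = b.repr v 0 • f (b 0) + b.repr v 1 • f (b 1) := fun v => by
    conv_lhs => rw [hrep v]
    rw [map_add, map_smul, map_smul]
  rcases IsLocalRing.isUnit_or_isUnit_of_add_one htr with h | h
  · obtain ⟨u, hu⟩ := h
    obtain ⟨b', hb0, -⟩ := exists_basis b (v := f (b 0)) (w := b 1) (by
      rw [← hα, ← hγ]; simpa using ⟨u, hu⟩)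
    refine ⟨b', le_antisymm ?_ ?_⟩
    · rintro _ ⟨v, rfl⟩
      rw [hb0, hfv v]
      refine add_mem (Submodule.smul_mem _ _ (Submodule.mem_span_singleton_self _))
        (Submodule.smul_mem _ _ ?_)
      rw [Submodule.mem_span_singleton]
      refine ⟨((u⁻¹ : Aˣ) : A) * β, ?_⟩
      rw [f0, f1, smul_add, smul_smul, smul_smul]
      have e1 : ((u⁻¹ : Aˣ) : A) * β * α = β := by
        rw [← hu, mul_comm, ← mul_assoc, Units.mul_inv, one_mul]
      have e2 : ((u⁻¹ : Aˣ) : A) * β * γ = δ := by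
        have : β * γ = u * δ := by rw [hu]; linear_combination -hdet
        rw [mul_assoc, this, Units.inv_mul_cancel_left]
      rw [e1, e2]
    · rw [hb0, Submodule.span_singleton_le_iff_mem]
      exact LinearMap.mem_range_self f _
  · obtain ⟨u, hu⟩ := h
    obtain ⟨b', hb0, -⟩ := exists_basis b (v := f (b 1)) (w := b 0) (by
      rw [← hβ, ← hδ]; simpa using ⟨u, hu⟩)
    refine ⟨b', le_antisymm ?_ ?_⟩
    · rintro _ ⟨v, rfl⟩
      rw [hb0, hfv v]
      refine add_mem (Submodule.smul_mem _ _ ?_)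
        (Submodule.smul_mem _ _ (Submodule.mem_span_singleton_self _))
      rw [Submodule.mem_span_singleton]
      refine ⟨((u⁻¹ : Aˣ) : A) * γ, ?_⟩
      rw [f0, f1, smul_add, smul_smul, smul_smul]
      have e1 : ((u⁻¹ : Aˣ) : A) * γ * δ = γ := by
        rw [← hu, mul_comm, ← mul_assoc, Units.mul_inv, one_mul]
      have e2 : ((u⁻¹ : Aˣ) : A) * γ * β = α := by
        have : γ * β = u * α := by rw [hu]; linear_combination -hdet
        rw [mul_assoc, this, Units.inv_mul_cancel_left]
      rw [e1, e2]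
    · rw [hb0, Submodule.span_singleton_le_iff_mem]
      exact LinearMap.mem_range_self f _

end Local

end Fermat.Agent.Ord
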