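import Fermat.Agent.Ord.Lim2
import Fermat.Agent.Ord.LinA
import Fermat.Agent.FlT.Main
import Fermat.Prelude.Def_GaloisRep_LocalConditions

/-!
# Ordinariness at `p` of Hecke–Galois data
-/

set_option autoImplicit false
set_option linter.unusedSectionVars false
set_option linter.style.haveILetI false

noncomputable section

namespace Fermat.Agent.Ord

open Fermat.Agent.GalRep Fermat.Agent.Kum Fermat.Agent.HeckeHom Fermat.Agent.Flat
  Fermat.Agent.FlatRam IsLocalRing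
open Fermat.Agent.DefRing (toMatRep toMatRep_apply toMatRep_cont)

local notation "Ω" => AlgebraicClosure ℚ

section Tau

variable {p : ℕ} [hp : Fact p.Prime]

/-- the cyclotomic character is ramified -/
theorem exists_tau {A : ValuationSubring (AlgebraicClosure ℚ)} (hA : A.LiesOverPrime p)
    (hp2 : p ≠ 2) : ∃ τ ∈ A.inertiaSubgroupIn ℚ, cyc (p ^ 1) τ ≠ 1 := by
  by_contra hcon
  push Not at hcon
  obtain ⟨ζ, hζ⟩ := GalRep.exists_zeta p
  have hp1 := hp.out.two_le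
  have hζ1 : ζ - 1 ≠ 0 := sub_ne_zero.2 (hζ.ne_one hp.out.one_lt)
  have h1 : ζ - 1 ∈ K0 A := by
    rw [K0, IntermediateField.mem_fixedField_iff]
    intro σ hσ
    have h2 : σ ζ = ζ := by
      have h3 := apply_eq_pow_cyc (p ^ 1) σ (x := ζ) (by rw [pow_one]; exact hζ.pow_eq_one)
      rw [hcon σ hσ] at h3
      haveI : Fact (1 < p ^ 1) := ⟨by rw [pow_one]; exact hp.out.one_lt⟩
      rwa [ZMod.val_one, pow_one] at h3
    rw [map_sub, h2, map_one]
  obtain ⟨m, hm⟩ := (rval A p hA).w_int ⟨ζ - 1, h1⟩ (fun h => hζ1 (congrArg Subtype.val h))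
  have h2 : ((p : ℚ) - 1) * (rval A p hA).w (ζ - 1) = 1 :=
    FlatRam.RVal.w_zeta (V := rval A p hA) hζ
  have h3 : (rval A p hA).w (ζ - 1) = m := hm
  rw [h3] at h2
  have h4 : ((p : ℤ) - 1) * m = 1 := by exact_mod_cast h2
  have h5 := Int.eq_one_or_neg_one_of_mul_eq_one h4
  have h6 : (3 : ℤ) ≤ p := by
    have : 3 ≤ p := by omega
    exact_mod_cast this
  omega

theorem tau_unit {B : Type*} [CommRing B] [IsLocalRing B] (hpB : (p : B) ∈ maximalIdeal B)
    {a : ℕ → B} {S : Set ℕ} {K : Set GQ} {t D : GQ → B}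
    (h : IsGoodPseudoRep (maximalIdeal B) a S p K t D) {τ : GQ} (hτ : cyc (p ^ 1) τ ≠ 1) :
    D τ - 1 ∉ maximalIdeal B := by
  intro hD
  have h1 := h.D_eq 1 τ
  have h2 : (((cyc (p ^ 1) τ).val : ℤ) - 1 : ℤ) ∈
      Ideal.comap (Int.castRingHom B) (maximalIdeal B) := by
    rw [Ideal.mem_comap]
    have h3 : Ideal.Quotient.mk (maximalIdeal B ^ 1) (D τ - ((cyc (p ^ 1) τ).val : B)) = 0 := by
      rw [map_sub, h1, map_natCast, sub_self]
    rw [Ideal.Quotient.eq_zero_iff_mem, pow_one] at h3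
    have h4 := Ideal.sub_mem _ hD h3
    have h5 : (Int.castRingHom B) (((cyc (p ^ 1) τ).val : ℤ) - 1 : ℤ) =
        D τ - 1 - (D τ - ((cyc (p ^ 1) τ).val : B)) := by
      rw [map_sub, map_one, map_natCast]; ring
    rw [h5]
    exact h4
  have h3 : ((p : ℤ)) ∣ (((cyc (p ^ 1) τ).val : ℤ) - 1 : ℤ) := by
    by_contra hndvd
    obtain ⟨x, y, hxy⟩ := (Prime.coprime_iff_not_dvd (Nat.prime_iff_prime_int.1 hp.out)).2 hndvd
    have h4 : (1 : ℤ) ∈ Ideal.comap (Int.castRingHom B) (maximalIdeal B) := by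
      rw [← hxy]
      refine Ideal.add_mem _ (Ideal.mul_mem_left _ _ ?_) (Ideal.mul_mem_left _ _ h2)
      rw [Ideal.mem_comap, map_natCast]
      exact hpB
    rw [Ideal.mem_comap, map_one] at h4
    exact (Ideal.ne_top_iff_one _).1 (Ideal.IsMaximal.ne_top inferInstance) h4
  apply hτ
  have h4 : (((cyc (p ^ 1) τ).val : ℕ) : ZMod (p ^ 1)) = ((1 : ℕ) : ZMod (p ^ 1)) := by
    have h5 : ((((cyc (p ^ 1) τ).val : ℤ) - 1 : ℤ) : ZMod (p ^ 1)) = 0 := by
      rw [ZMod.intCast_zmod_eq_zero_iff_dvd]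
      have h6 : ((p ^ 1 : ℕ) : ℤ) = p := by rw [pow_one]
      rw [h6]
      exact h3
    push_cast at h5
    rw [sub_eq_zero] at h5
    rw [Nat.cast_one]
    exact h5
  rwa [ZMod.natCast_zmod_val, Nat.cast_one] at h4

end Tau

/-- a prime which is not Eisenstein -/
theorem exists_ell {p : ℕ} [hp : Fact p.Prime] {B : Type*} [CommRing B] [IsLocalRing B]
    (hpB : (p : B) ∈ maximalIdeal B)
    {a : ℕ → B} {S : Set ℕ} (hS : S.Finite) (hpS : p ∈ S) {K : Set GQ} {t D : GQ → B}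
    (h : IsGoodPseudoRep (maximalIdeal B) a S p K t D) {c g₀ k₀ : GQ} (hc : c * c = 1)
    (hu : t (g₀ * k₀) + t (c * g₀ * k₀) - t (g₀ * c * k₀) - t (c * g₀ * c * k₀) ∉ maximalIdeal B) :
    ∃ ℓ : ℕ, ℓ.Prime ∧ ℓ ∉ S ∧ a ℓ - (ℓ + 1 : ℕ) ∉ maximalIdeal B := by
  by_contra hcon
  push Not at hcon
  apply hu
  let q := Ideal.Quotient.mk (maximalIdeal B ^ 1)
  have hps := h.isPseudoRep.comp q
  have hps' : IsPseudoRep (fun g => 1 + q (D g)) (fun g => q (D g)) := by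
    refine ⟨?_, hps.D_one, hps.D_mul, fun g k => ?_⟩
    · rw [hps.D_one]; norm_num
    · rw [hps.D_mul, hps.D_mul]
      have h1 := hps.D_mul_D_inv k
      beta_reduce at h1
      linear_combination q (D g) * h1
  have hcD : IsLocConst (fun g => 1 + q (D g)) := by
    have h1 : (fun g => 1 + q (D g)) = fun g =>
        (fun z : ZMod (p ^ 1) => 1 + ((z.val : ℕ) : B ⧸ maximalIdeal B ^ 1)) (cyc (p ^ 1) g) := by
      funext g
      beta_reduce
      rw [← h.D_eq 1 g]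
    rw [h1]
    exact (isLocConst_cyc (p ^ 1)).comp
      (fun z : ZMod (p ^ 1) => 1 + ((z.val : ℕ) : B ⧸ maximalIdeal B ^ 1))
  have heq := hps.t_eq_of_frobenius hps' (h.cont 1) hcD hS (fun ℓ hℓ hℓS A hA τ hτ => by
    obtain ⟨e1, e2⟩ := h.frobenius ℓ hℓ hℓS A hA τ hτ
    refine ⟨?_, rfl⟩
    rw [e1, e2, ← sub_eq_zero]
    have h1 := hcon ℓ hℓ hℓS
    rw [← pow_one (maximalIdeal B), ← Ideal.Quotient.eq_zero_iff_mem] at h1
    rw [← h1, map_sub]
    push_cast
    rw [map_add, map_natCast, map_one]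
    ring)
  have ht : ∀ g, q (t g) = 1 + q (D g) := fun g => congrFun heq g
  rw [← pow_one (maximalIdeal B), ← Ideal.Quotient.eq_zero_iff_mem]
  change q _ = 0
  rw [map_sub, map_sub, map_add, ht, ht, ht, ht]
  have hD : ∀ g k, q (D (g * k)) = q (D g) * q (D k) := fun g k => hps.D_mul g k
  have hcc : q (D c) * q (D c) = 1 := by rw [← hD, hc]; exact hps.D_one
  rw [hD (c * g₀ * c), hD (c * g₀) c, hD (c * g₀) k₀, hD c g₀, hD (g₀ * c), hD g₀ c, hD g₀ k₀]
  linear_combination -(q (D g₀) * q (D k₀)) * hcc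

end Fermat.Agent.Ord
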