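import Fermat.Agent.Ord.Emb

/-!
# Classes with trivial reduction
-/

set_option autoImplicit false
set_option linter.unusedSectionVars false
set_option linter.style.haveILetI false

noncomputable section

namespace Fermat.Agent.Ord

open ModularCurve Polynomial IntermediateField Fermat.Agent.ModPoly Fermat.Agent.Red
  Fermat.Agent.RedMod Fermat.Agent.Cusp Fermat.Agent.SemiSt AlgebraicCurve Fermat.Agent.Curve
  Fermat.Agent.RR Fermat.Agent.Nod Fermat.Agent.Flat Fermat.Agent.FlatRam Fermat.Agent.Places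
  Fermat.Agent.PRem

local notation "Ω" => AlgebraicClosure ℚ

/-- the Galois action commutes with the Hecke algebra -/
theorem rhoF_act' {N m : ℕ} [NeZero N] [NeZero m] (ι : Ω →+* ℂ) {S : Set ℕ}
    (hS : ∀ q, q.Prime → q ∣ N → q ∈ S)
    (σ : Ω ≃ₐ[ℚ] Ω) (t : CuspForm.heckeAlgebra N 2 S) (ξ : Kum.XL N m) :
    Kum.rhoF ι m σ (Kum.actX N m S t ξ) = Kum.actX N m S t (Kum.rhoF ι m σ ξ) := by
  obtain ⟨t, ht⟩ := t
  have hr : ∀ ξ, Kum.rhoF ι m σ ξ = rh (N := N) ι m σ ξ := fun _ => rfl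
  simp only [hr]
  induction ht using Algebra.adjoin_induction generalizing ξ with
  | mem x hx =>
    rcases hx with ⟨ℓ, hℓ, hℓN, hℓS, rfl⟩ | ⟨q, hqN, hq, hqS, rfl⟩
    · haveI : NeZero ℓ := ⟨hℓ.ne_zero⟩
      exact Kum.rhoF_T ι hℓ hℓN hℓS σ ξ
    · exact absurd (hS q hq hqN) hqS
  | algebraMap n =>
    have h1 : (⟨algebraMap ℤ _ n, Subalgebra.algebraMap_mem _ n⟩ : CuspForm.heckeAlgebra N 2 S) =
      ((n : ℤ) : CuspForm.heckeAlgebra N 2 S) := by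
      apply Subtype.ext
      simp
    have h2 : ∀ ξ : Kum.XL N m, Kum.actX N m S
        ⟨algebraMap ℤ _ n, Subalgebra.algebraMap_mem _ n⟩ ξ = n • ξ := by
      intro ξ
      refine (DFunLike.congr_fun (congrArg (Kum.actX N m S) h1) ξ).trans ?_
      rw [map_intCast]
      rfl
    rw [h2, h2, map_zsmul]
  | add x y hx hy ihx ihy =>
    have h1 : (⟨x + y, add_mem hx hy⟩ : CuspForm.heckeAlgebra N 2 S) = ⟨x, hx⟩ + ⟨y, hy⟩ := rfl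
    have h2 : ∀ ξ : Kum.XL N m, Kum.actX N m S ⟨x + y, add_mem hx hy⟩ ξ =
        Kum.actX N m S ⟨x, hx⟩ ξ + Kum.actX N m S ⟨y, hy⟩ ξ := by
      intro ξ
      rw [h1, map_add]; rfl
    rw [h2, h2, map_add, ihx, ihy]
  | mul x y hx hy ihx ihy =>
    have h1 : (⟨x * y, mul_mem hx hy⟩ : CuspForm.heckeAlgebra N 2 S) = ⟨x, hx⟩ * ⟨y, hy⟩ := rfl
    have h2 : ∀ ξ : Kum.XL N m, Kum.actX N m S ⟨x * y, mul_mem hx hy⟩ ξ =
        Kum.actX N m S ⟨x, hx⟩ (Kum.actX N m S ⟨y, hy⟩ ξ) := by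
      intro ξ
      rw [h1, map_mul]; rfl
    rw [h2, h2, ihx, ihy]

/-- subgroups stable under the Hecke operators -/
theorem stable_of_T {N m : ℕ} [NeZero N] [NeZero m] {S : Set ℕ} (hS : ∀ q, q.Prime → q ∣ N → q ∈ S)
    {V : AddSubgroup (Kum.XL N m)}
    (h : ∀ (ℓ : ℕ) (hℓ : ℓ.Prime) (hℓN : ¬ ℓ ∣ N) (hℓS : ℓ ∉ S), ∀ ξ ∈ V,
      Kum.actX N m S (CuspForm.heckeAlgebra.T hℓ hℓN hℓS) ξ ∈ V)
    (t : CuspForm.heckeAlgebra N 2 S) {ξ : Kum.XL N m} (hξ : ξ ∈ V) :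
    Kum.actX N m S t ξ ∈ V := by
  obtain ⟨t, ht⟩ := t
  induction ht using Algebra.adjoin_induction generalizing ξ with
  | mem x hx =>
    rcases hx with ⟨ℓ, hℓ, hℓN, hℓS, rfl⟩ | ⟨q, hqN, hq, hqS, rfl⟩
    · exact h ℓ hℓ hℓN hℓS ξ hξ
    · exact absurd (hS q hq hqN) hqS
  | algebraMap n =>
    have h1 : (⟨algebraMap ℤ _ n, Subalgebra.algebraMap_mem _ n⟩ : CuspForm.heckeAlgebra N 2 S) =
      ((n : ℤ) : CuspForm.heckeAlgebra N 2 S) := by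
      apply Subtype.ext
      simp
    have h2 : Kum.actX N m S ⟨algebraMap ℤ _ n, Subalgebra.algebraMap_mem _ n⟩ ξ = n • ξ := by
      refine (DFunLike.congr_fun (congrArg (Kum.actX N m S) h1) ξ).trans ?_
      rw [map_intCast]
      rfl
    rw [h2]
    exact V.zsmul_mem hξ n
  | add x y hx hy ihx ihy =>
    have h1 : (⟨x + y, add_mem hx hy⟩ : CuspForm.heckeAlgebra N 2 S) = ⟨x, hx⟩ + ⟨y, hy⟩ := rfl
    have h2 : Kum.actX N m S ⟨x + y, add_mem hx hy⟩ ξ =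
        Kum.actX N m S ⟨x, hx⟩ ξ + Kum.actX N m S ⟨y, hy⟩ ξ := by
      rw [h1, map_add]; rfl
    rw [h2]
    exact V.add_mem (ihx hξ) (ihy hξ)
  | mul x y hx hy ihx ihy =>
    have h1 : (⟨x * y, mul_mem hx hy⟩ : CuspForm.heckeAlgebra N 2 S) = ⟨x, hx⟩ * ⟨y, hy⟩ := rfl
    have h2 : Kum.actX N m S ⟨x * y, mul_mem hx hy⟩ ξ =
        Kum.actX N m S ⟨x, hx⟩ (Kum.actX N m S ⟨y, hy⟩ ξ) := by
      rw [h1, map_mul]; rfl
    rw [h2]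
    exact ihx (ihy hξ)

variable {A : ValuationSubring (AlgebraicClosure ℚ)} {p : ℕ} [hp : Fact p.Prime]
  {M : ℕ} [NeZero M] {k : Type} [Field k] [Algebra A k] [CharP k p] [IsAlgClosed k]
  (hk : Function.Surjective (algebraMap A k)) (hco : p.Coprime M) (hM : (M : k) ≠ 0) (b : A)
  [Algebra A (FF Ω (p * M))] [IsScalarTower A Ω (FF Ω (p * M))]
  [Algebra A (FF k M)] [IsScalarTower A k (FF k M)]
  [FunField k (FF k M)] [FunField Ω (FF Ω M)] [FunField Ω (FF Ω (p * M))]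
  (ι : Ω →+* ℂ)

/-- classes with trivial reduction -/
def KK (m : ℕ) [NeZero m] : AddSubgroup (Kum.XL (p * M) m) where
  carrier := {ξ | ∃ f : FF Ω (p * M), UW (ng Ω hco hk hM b) f ∧ HasCls ι m f ξ ∧
    r1 (ng Ω hco hk hM b) f = 1 ∧ r2 (ng Ω hco hk hM b) f = 1}
  zero_mem' := ⟨1, UW.one, by
    have := HasCls.pow_self (N := p * M) (m := m) ι (one_ne_zero (α := FF Ω (p * M)))
    rwa [one_pow] at this, r1_one, r2_one⟩
  add_mem' := by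
    rintro ξ η ⟨f, hf, hfξ, f1, f2⟩ ⟨g, hg, hgη, g1, g2⟩
    exact ⟨f * g, hf.mul hg, hfξ.mul hgη, by rw [r1_mul hf.mem hg.mem, f1, g1, one_mul],
      by rw [r2_mul hf.mem hg.mem, f2, g2, one_mul]⟩
  neg_mem' := by
    rintro ξ ⟨f, hf, hfξ, f1, f2⟩
    exact ⟨f⁻¹, hf.inv, hfξ.inv, by rw [hf.r1_inv, f1, inv_one], by rw [hf.r2_inv, f2, inv_one]⟩

variable {hk hco hM b ι} {m : ℕ} [NeZero m]

theorem mem_KK {ξ : Kum.XL (p * M) m} : ξ ∈ KK hk hco hM b ι m ↔ ∃ f : FF Ω (p * M),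
    UW (ng Ω hco hk hM b) f ∧ HasCls ι m f ξ ∧
    r1 (ng Ω hco hk hM b) f = 1 ∧ r2 (ng Ω hco hk hM b) f = 1 := Iff.rfl

theorem KK_T {S : Set ℕ} {ℓ : ℕ} (hℓ : ℓ.Prime) (hℓN : ¬ ℓ ∣ p * M) (hℓS : ℓ ∉ S)
    {ξ : Kum.XL (p * M) m} (hξ : ξ ∈ KK hk hco hM b ι m) :
    Kum.actX (p * M) m S (CuspForm.heckeAlgebra.T hℓ hℓN hℓS) ξ ∈ KK hk hco hM b ι m := by
  haveI : Fact ℓ.Prime := ⟨hℓ⟩
  have hℓp : ℓ ≠ p := fun h => hℓN (h ▸ dvd_mul_right p M)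
  obtain ⟨ζ, Z⟩ := exists_Zt (A := A) (K := Ω) (k := k) hℓ (natCast_ne_of (p := p) hℓp)
  have hℓc := coprime_of' hℓN
  obtain ⟨f, hf, hfξ, f1, f2⟩ := hξ
  refine ⟨TTf Ω ℓ (p * M) f, uw_TTf Z hℓc hf, hfξ.TT (S := S) hℓ hℓN hℓS Z.hK
    (coe_TTf hℓc Z.hK f), ?_, ?_⟩
  · apply Subtype.ext
    rw [r1_TTf Z hℓc hf.mem, f1]
    exact map_one _
  · apply Subtype.ext
    rw [r2_TTf Z hℓc hf.mem, f2]
    exact map_one _

theorem KK_act {S : Set ℕ} (hS : ∀ q, q.Prime → q ∣ p * M → q ∈ S) (t : CuspForm.heckeAlgebra (p * M) 2 S)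
    {ξ : Kum.XL (p * M) m} (hξ : ξ ∈ KK hk hco hM b ι m) :
    Kum.actX (p * M) m S t ξ ∈ KK hk hco hM b ι m :=
  stable_of_T hS (fun ℓ hℓ hℓN hℓS ξ hξ => KK_T hℓ hℓN hℓS hξ) t hξ

/-- inertia acts trivially modulo classes with trivial reduction -/
theorem KK_sub (hA : A.LiesOverPrime p) {σ : Ω ≃ₐ[ℚ] Ω} (hσ : σ ∈ A.inertiaSubgroupIn ℚ)
    (ξ : Kum.XL (p * M) m) : Kum.rhoF ι m σ ξ - ξ ∈ KK hk hco hM b ι m := by
  obtain ⟨f, hf, -⟩ := exists_fixed ι ξ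
  obtain ⟨g, hg, hW, h1, h2⟩ := exists_scale_kummer hco hk hM (hrank_of hk hA) (NeZero.ne m)
    hf.ne_zero
  have hfg : UW (ng Ω hco hk hM b) (f * g ^ m) := ⟨hW, h1, h2⟩
  have hcl := hf.mul_pow hg
  obtain ⟨τ, rfl⟩ := exists_res_eq hσ
  have hcl2 : HasCls ι m (act (p * M) (τ : Ω ≃+* Ω) (f * g ^ m))
    (Kum.rhoF ι m (AlgEquiv.restrictScalars ℚ τ) ξ) := hcl.gal (AlgEquiv.restrictScalars ℚ τ)
  have hu := uw_act τ hfg
  refine ⟨_, hu.mul hfg.inv, hcl2.div hcl, ?_, ?_⟩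
  · rw [r1_mul hu.mem hfg.inv.mem, r1_act τ hfg.mem, hfg.r1_inv, mul_inv_cancel₀ hfg.r1_ne]
  · rw [r2_mul hu.mem hfg.inv.mem, r2_act τ hfg.mem, hfg.r2_inv, mul_inv_cancel₀ hfg.r2_ne]

theorem one_of_pow {F : Type*} [Field F] [CharP F p] {x : F} (a : ℕ) (h : x ^ p ^ a = 1) :
    x = 1 := by
  induction a with
  | zero => rwa [pow_zero, pow_one] at h
  | succ a ih =>
    rw [pow_succ, pow_mul] at h
    exact ih (PRem.eq_one_of_pow h)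

/-- descent -/
theorem KK_desc {a : ℕ} {D : ℕ} [NeZero D] (hD : D = p ^ a * m) {η : Kum.XL (p * M) m}
    (h : jE hD η ∈ KK hk hco hM b ι D) : η ∈ KK hk hco hM b ι m := by
  obtain ⟨f, hf, hfξ, f1, f2⟩ := h
  obtain ⟨g, rfl, hg⟩ := exists_root_cls hD hfξ
  have hgU : UW (ng Ω hco hk hM b) g := uw_of_pow (pow_ne_zero a hp.out.ne_zero) hf
  rw [r1_pow hgU.mem] at f1
  rw [r2_pow hgU.mem] at f2
  exact ⟨g, hgU, hg, one_of_pow a f1, one_of_pow a f2⟩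

end Fermat.Agent.Ord
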