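import Fermat.Agent.PRem.Levels

/-!
# Levels of triviality of Kummer classes: general ramification
-/

set_option autoImplicit false
set_option linter.unusedSectionVars false
set_option linter.style.haveILetI false

namespace Fermat.Agent.Ord

open AlgebraicCurve Fermat.Agent.Curve Fermat.Agent.RR Fermat.Agent.Red Fermat.Agent.Nod Module
  Polynomial Fermat.Agent.PRem
open scoped IntermediateField

variable {A K F k E₁ E₂ : Type*} [CommRing A] [IsDomain A] [ValuationRing A]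
  [Field K] [Algebra A K] [IsFractionRing A K] [Field F] [Algebra K F] [Algebra A F]
  [IsScalarTower A K F] [Field k] [Algebra A k] [Field E₁] [Field E₂] [Algebra k E₁]
  [Algebra k E₂] [Algebra A E₁] [Algebra A E₂] [IsScalarTower A k E₁] [IsScalarTower A k E₂]
  [IsAlgClosed K] [IsAlgClosed k] [CharZero K] [FunField K F] [FunField k E₁] [FunField k E₂]

variable {ι₀ : Type*} [Fintype ι₀] [Nonempty ι₀]
  {G : GaussData A K F k (E₁ × E₂) ι₀} {Q : RatStr G}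
  {hk : Function.Surjective (algebraMap A k)}
  {hspan : ∀ x : F, ∃ q : K[X], q ≠ 0 ∧ ∃ P : ι₀ → K[X], aeval G.t q * x = G.comb P}
  {ι : Type*} [Finite ι] {𝒩 : Nodes k E₁ E₂ ι} (H : NodMod G hk hspan 𝒩)
  {p : ℕ} [hp : Fact p.Prime] [CharP k p]

variable (Q) in
/-- automorphisms in the inertia group, acting on `ϖ ^ m` by `c` modulo higher powers -/
structure Inert (σ : SemilinearAut K F) (m c : ℕ) : Prop where
  t_fix : σ • G.t = G.t
  res : ∀ x ∈ Q.fld, x ∈ G.W → ∃ y ∈ G.W, σ • x = x + algebraMap A F Q.ϖ * y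
  unif : ∃ y ∈ G.W, σ • (algebraMap A F Q.ϖ ^ m) =
    algebraMap A F Q.ϖ ^ m * (c + algebraMap A F Q.ϖ * y)

theorem cg_gen {σ : SemilinearAut K F}
    (hres : ∀ x ∈ Q.fld, x ∈ G.W → ∃ y ∈ G.W, σ • x = x + algebraMap A F Q.ϖ * y) {a c : ℕ}
    (ha : 1 ≤ a) (hu : ∃ y ∈ G.W, σ • (algebraMap A F Q.ϖ ^ a) =
      algebraMap A F Q.ϖ ^ a * (c + algebraMap A F Q.ϖ * y)) {x : F} (hxF : x ∈ Q.fld)
    (hx : Cg Q a x 1) : Cg Q (a + 1) (σ • x) (x ^ c) := by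
  obtain ⟨x', hx', hxx⟩ := hx
  have hx'F : x' ∈ Q.fld := cg_rat hxx hxF
  obtain ⟨y', hy', hy'2⟩ := hres x' hx'F hx'
  obtain ⟨y, hy, hy2⟩ := hu
  obtain ⟨w, hw⟩ := exists_one_add_mul_pow (⟨algebraMap A F Q.ϖ ^ a, pow_mem δ_mem a⟩ : G.W)
    ⟨x', hx'⟩ c
  have hw' : (1 + algebraMap A F Q.ϖ ^ a * x') ^ c =
      1 + c * (algebraMap A F Q.ϖ ^ a * x') + (algebraMap A F Q.ϖ ^ a) ^ 2 * (w : F) := by
    have := congrArg Subtype.val hw
    push_cast at this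
    exact this
  have hcW : (c : F) ∈ G.W := natCast_mem _ c
  refine ⟨c * y' + y * x' + algebraMap A F Q.ϖ * (y * y') - algebraMap A F Q.ϖ ^ (a - 1) * w,
    ?_, ?_⟩
  · exact sub_mem (add_mem (add_mem (mul_mem hcW hy') (mul_mem hy hx'))
      (mul_mem δ_mem (mul_mem hy hy'))) (mul_mem (pow_mem δ_mem _) w.2)
  · obtain ⟨a, rfl⟩ : ∃ b, a = b + 1 := ⟨a - 1, by omega⟩
    rw [hxx, smul_add, smul_one, smul_mul', hy2, hw', hy'2, Nat.add_sub_cancel]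
    ring

/-- rational functions of level `m` -/
theorem Inert.cg {σ : SemilinearAut K F} {m c : ℕ} (S : Inert Q σ m c) (hm : 1 ≤ m) {x : F}
    (hxF : x ∈ Q.fld) (hx : Cg Q m x 1) : Cg Q (m + 1) (σ • x) (x ^ c) :=
  cg_gen S.res hm S.unif hxF hx

/-- rational functions of level `p m` -/
theorem Inert.cg_p {σ : SemilinearAut K F} {m c : ℕ} (S : Inert Q σ m c) (hm : 1 ≤ m) {e : ℕ}
    (he : 1 ≤ e) {u : A} (hpe : (p : A) = Q.ϖ ^ e * u) {x : F}
    (hxF : x ∈ Q.fld) (hx : Cg Q (p * m) x 1) : Cg Q (p * m + 1) (σ • x) (x ^ c) := by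
  have hp1 := hp.out.one_lt
  refine cg_gen S.res (Nat.mul_pos hp.out.pos hm) ?_ hxF hx
  obtain ⟨y, hy, hy2⟩ := S.unif
  have hcW : (c : F) ∈ G.W := natCast_mem _ c
  -- expansion of the power
  obtain ⟨q, hq⟩ : ∃ q ∈ G.W, ((c : F) + algebraMap A F Q.ϖ * y) ^ p =
      (c : F) ^ p + algebraMap A F Q.ϖ * q := by
    obtain ⟨k, hk⟩ := sub_dvd_pow_sub_pow (⟨(c : F) + algebraMap A F Q.ϖ * y,
      add_mem hcW (mul_mem δ_mem hy)⟩ : G.W) ⟨(c : F), hcW⟩ p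
    have hk' := congrArg Subtype.val hk
    push_cast at hk'
    change ((c : F) + algebraMap A F Q.ϖ * y) ^ p - (c : F) ^ p =
      ((c : F) + algebraMap A F Q.ϖ * y - c) * (k : F) at hk'
    refine ⟨y * k, mul_mem hy k.2, ?_⟩
    have h2 : ((c : F) + algebraMap A F Q.ϖ * y) ^ p = (c : F) ^ p +
        ((c : F) + algebraMap A F Q.ϖ * y - c) * (k : F) := by
      rw [← hk']; ring
    rw [h2]
    ring
  obtain ⟨hqW, hq⟩ := hq
  obtain ⟨z, hz⟩ : (p : ℤ) ∣ (c : ℤ) ^ p - c := by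
    have h1 : ((c : ZMod p)) ^ p = c := ZMod.pow_card _
    rw [← ZMod.intCast_zmod_eq_zero_iff_dvd]
    push_cast
    rw [h1, sub_self]
  have hz' : (c : F) ^ p = c + algebraMap A F (p : A) * z := by
    have : ((c : F)) ^ p - c = p * z := by exact_mod_cast congrArg (Int.cast : ℤ → F) hz
    rw [map_natCast, ← this]
    ring
  refine ⟨algebraMap A F (Q.ϖ ^ (e - 1) * u) * z + q, add_mem (mul_mem (G.W.algebraMap_mem _)
    (intCast_mem _ z)) hqW, ?_⟩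
  rw [mul_comm p m, pow_mul, smul_pow', hy2, mul_pow, hq, hz', hpe]
  obtain ⟨e, rfl⟩ : ∃ b, e = b + 1 := ⟨e - 1, by omega⟩
  rw [Nat.add_sub_cancel, map_mul, map_pow, map_mul, map_pow]
  ring

theorem pow_mem_L' {D : Divisor K F} {a b : ℕ} {x : F} (hx : x ∈ riemannRochSpace (DD K G.t a b - D))
    (c : ℕ) : x ^ c ∈ riemannRochSpace (DD K G.t (c * a) (c * b) - c • D) := by
  induction c with
  | zero =>
    rw [pow_zero, zero_smul, sub_zero, zero_mul, zero_mul]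
    exact one_mem_DD _ _ _
  | succ c ih =>
    have h1 := L_mul_mem ih hx
    have e1 : DD K G.t (c * a) (c * b) - c • D + (DD K G.t a b - D) =
        DD K G.t ((c + 1) * a) ((c + 1) * b) - (c + 1) • D := by
      rw [add_mul, add_mul, one_mul, one_mul, ← DD_add, succ_nsmul]; abel
    rwa [e1, ← pow_succ] at h1

/-- a section of `σ D - c D` -/
theorem final_sec' {σ : SemilinearAut K F} {n c : ℕ} (S : Inert Q σ n c)
    {D : Divisor K F} (hn : 1 ≤ n) {a b a' b' : ℕ} {s t : F} (hsF : s ∈ Q.fld)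
    (hs : Cg Q n s 1) (hsL : s ∈ riemannRochSpace (DD K G.t a b - D)) (ht : Cg Q n t 1)
    (htL : t ∈ riemannRochSpace (DD K G.t a' b' - -D)) :
    ∃ s₃ : F, s₃ ∈ riemannRochSpace (DD K G.t (a + c * (a' + (a + a'))) (b + c * (b' + (b + b'))) -
      (σ • D - c • D)) ∧ Cg Q (n + 1) s₃ 1 := by
  have h1 : σ • s ∈ riemannRochSpace (DD K G.t a b - σ • D) := by
    have := smul_mem_L σ hsL
    rwa [smul_sub, smul_DD σ S.t_fix] at this
  have hstL := L_mul_mem hsL htL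
  have e1 : DD K G.t a b - D + (DD K G.t a' b' - -D) = DD K G.t (a + a') (b + b') := by
    rw [← DD_add]; abel
  rw [e1] at hstL
  have hst : Cg Q n (s * t) 1 := by
    have := hs.mul ht (one_mem _) (one_mem _)
    rwa [mul_one] at this
  obtain ⟨g, hg, hgg⟩ := hst
  have hgL : g ∈ riemannRochSpace (DD K G.t (a + a') (b + b')) := by
    apply L_of_δ (Q := Q) (n := n)
    have : algebraMap A F Q.ϖ ^ n * g = s * t - 1 := by rw [hgg]; ring
    rw [this]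
    exact sub_mem hstL (one_mem_DD _ _ _)
  have hgL' : 1 - algebraMap A F Q.ϖ ^ n * g ∈ riemannRochSpace (DD K G.t (a + a') (b + b')) :=
    sub_mem (one_mem_DD _ _ _) (δ_mul_L hgL)
  have hsW : s ∈ G.W := hs.mem (one_mem _)
  have htW : t ∈ G.W := ht.mem (one_mem _)
  have hgW : 1 - algebraMap A F Q.ϖ ^ n * g ∈ G.W :=
    sub_mem (one_mem _) (mul_mem (pow_mem δ_mem n) hg)
  have htL' : t * (1 - algebraMap A F Q.ϖ ^ n * g) ∈
      riemannRochSpace (DD K G.t (a' + (a + a')) (b' + (b + b')) - -D) := by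
    have h2 := L_mul_mem htL hgL'
    have e2 : DD K G.t a' b' - -D + DD K G.t (a + a') (b + b') =
        DD K G.t (a' + (a + a')) (b' + (b + b')) - -D := by
      rw [← DD_add G.t a' b' (a + a') (b + b')]; abel
    rwa [e2] at h2
  refine ⟨σ • s * (t * (1 - algebraMap A F Q.ϖ ^ n * g)) ^ c, ?_, ?_⟩
  · have h2 := L_mul_mem h1 (pow_mem_L' htL' c)
    have e2 : DD K G.t a b - σ • D + (DD K G.t (c * (a' + (a + a'))) (c * (b' + (b + b'))) -
        c • -D) = DD K G.t (a + c * (a' + (a + a'))) (b + c * (b' + (b + b'))) -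
          (σ • D - c • D) := by
      rw [← DD_add G.t a b (c * (a' + (a + a'))) (c * (b' + (b + b'))), smul_neg]; abel
    rwa [e2] at h2
  · have h3 := (S.cg hn hsF hs).mul (Cg.refl ((t * (1 - algebraMap A F Q.ϖ ^ n * g)) ^ c))
      (pow_mem hsW c) (pow_mem (mul_mem htW hgW) c)
    refine h3.trans ?_
    rw [← mul_pow]
    have h4 : Cg Q (n + 1) (s * (t * (1 - algebraMap A F Q.ϖ ^ n * g))) 1 := by
      refine ⟨algebraMap A F Q.ϖ ^ (n - 1) * (-(g ^ 2)), mul_mem (pow_mem δ_mem _)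
        (neg_mem (pow_mem hg 2)), ?_⟩
      rw [← mul_assoc, hgg, ← mul_assoc, ← pow_add]
      have : n + 1 + (n - 1) = n * 2 := by omega
      rw [this, pow_mul]
      ring
    have h5 := h4.pow (one_mem _) c
    rwa [one_pow] at h5

include H in
/-- **The final step**: classes of level `m` are of multiplicative type. -/
theorem lev_final' (hA : ∃ t : A, t ≠ 0 ∧ ¬ IsUnit t)
    (hrank : ∀ a c : A, algebraMap A k a = 0 → c ≠ 0 → ∃ n : ℕ, c ∣ a ^ n)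
    {σ : SemilinearAut K F} {m c : ℕ} (S : Inert Q σ m c) (hm : 1 ≤ m) {u : Aˣ}
    (hpe : (p : A) = Q.ϖ ^ (m * (p - 1)) * u) {f : F} {D : Divisor K F} (L : Lev Q p f D m) :
    ∃ x : F, x ^ p = σ • f * (f ^ c)⁻¹ := by
  have hp1 := hp.out.one_lt
  have hpp : 1 ≤ p * m := Nat.mul_pos hp.out.pos hm
  have he : 1 ≤ m * (p - 1) := Nat.mul_pos hm (by omega)
  have hfu : UW G f := uw_of_cg_one L.hf hpp
  have hfc : UW G (f ^ c) := hfu.pow c
  have hy : Cg Q (p * m + 1) (σ • f * (f ^ c)⁻¹) 1 := by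
    have := (S.cg_p hm he hpe L.fF L.hf).mul (Cg.refl (f ^ c)⁻¹) hfc.mem hfc.inv.mem
    rwa [mul_inv_cancel₀ hfc.ne_zero] at this
  have hyu : UW G (σ • f * (f ^ c)⁻¹) := uw_of_cg_one hy (by omega)
  have hyπ : G.π ⟨_, hyu.mem⟩ = 1 := by
    have h1 := hy.r1_eq (by omega) (one_mem _)
    have h2 := hy.r2_eq (by omega) (one_mem _)
    rw [r1_of hyu.mem, r1_one] at h1
    rw [r2_of hyu.mem, r2_one] at h2
    exact Prod.ext h1 h2
  have hσf : σ • f ≠ 0 := (smul_ne_zero_iff_ne σ).2 hfu.ne_zero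
  have hyD : ∀ v, (p : ℤ) * (σ • D - c • D) v = v.ord (σ • f * (f ^ c)⁻¹) := fun v => by
    rw [Place.ord_mul v hσf (inv_ne_zero hfc.ne_zero), Place.ord_inv, Curve.ord_pow,
      Finsupp.sub_apply, Finsupp.smul_apply,
      SemilinearAut.divisor_smul_apply, mul_sub, L.hD, nsmul_eq_mul, mul_left_comm, L.hD]
    have h3 := SemilinearAut.ord_smul σ (σ⁻¹ • v) f
    rw [smul_inv_smul] at h3
    rw [h3]; push_cast; ring
  have T := tw_one (hspan := hspan) H hyu.mem hyπ hyD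
  obtain ⟨⟨a, s, hsF, hsL, hs⟩, ⟨b, t, htF, htL, ht⟩⟩ := L.sec
  obtain ⟨⟨a', s', hs'F, hs'L, hs'⟩, ⟨b', t', ht'F, ht'L, ht'⟩⟩ := L.sec'
  obtain ⟨s₁, hs₁L, ρ₁, hρ₁, hs₁⟩ := final_sec' S hm hsF hs hsL hs' hs'L
  obtain ⟨s₂, hs₂L, ρ₂, hρ₂, hs₂⟩ := final_sec' S hm htF ht htL ht' ht'L
  simp only [add_zero, mul_zero, zero_add] at hs₁L hs₂L
  obtain ⟨w, hw, hw2⟩ := hy
  have hpA : (p : A) ≠ 0 := by
    rw [hpe]
    exact mul_ne_zero (pow_ne_zero _ Q.ϖ0) u.ne_zero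
  refine wild_rigid (hspan := hspan) H hA hrank hpA T (c₀ := Q.ϖ ^ (m + 1))
    (ε := Q.ϖ ^ (p - 1) * (u⁻¹ : Aˣ)) (pow_ne_zero _ Q.ϖ0) ?_ ?_ ?_
    (w := algebraMap A F (u⁻¹ : Aˣ) * w) (mul_mem (G.W.algebraMap_mem _) hw) ?_
    hs₁L hs₂L hρ₁ hρ₂ ?_ ?_
  · rw [hpe, ← pow_mul]
    have e1 : (m + 1) * (p - 1) = m * (p - 1) + (p - 1) := by ring
    rw [e1, pow_add]
    calc Q.ϖ ^ (m * (p - 1)) * Q.ϖ ^ (p - 1) =
        Q.ϖ ^ (m * (p - 1)) * Q.ϖ ^ (p - 1) * ((u : A) * (u⁻¹ : Aˣ)) := by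
          rw [Units.mul_inv, mul_one]
      _ = _ := by ring
  · rw [map_pow, Q.ϖk, zero_pow (by omega)]
  · rw [map_mul, map_pow, Q.ϖk, zero_pow (by omega), zero_mul]
  · rw [hw2]
    have e2 : (p : A) * Q.ϖ ^ (m + 1) * (u⁻¹ : Aˣ) = Q.ϖ ^ (p * m + 1) := by
      rw [hpe]
      have e3 : p * m + 1 = m * (p - 1) + (m + 1) := by
        obtain ⟨q, rfl⟩ : ∃ q, p = q + 1 := ⟨p - 1, by omega⟩
        simp only [Nat.add_sub_cancel]; ring
      rw [e3, pow_add Q.ϖ (m * (p - 1)) (m + 1)]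
      calc Q.ϖ ^ (m * (p - 1)) * u * Q.ϖ ^ (m + 1) * (u⁻¹ : Aˣ) =
          Q.ϖ ^ (m * (p - 1)) * Q.ϖ ^ (m + 1) * ((u : A) * (u⁻¹ : Aˣ)) := by ring
        _ = _ := by rw [Units.mul_inv, mul_one]
    rw [← mul_assoc, ← map_mul, e2, map_pow]
  · rw [hs₁, map_pow]
  · rw [hs₂, map_pow]

include H in
/-- **Raising the level.** -/
theorem exists_lev' [hN : Nonempty (Nd G hk 𝒩)] {m : ℕ} {u : A}
    (hpe : (p : A) = Q.ϖ ^ (m * (p - 1)) * u) {f : F} {D : Divisor K F} (L₁ : Lev Q p f D 1)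
    (hE : ∀ (n : ℕ) (f' : F), 1 ≤ n → n < m → f' ∈ Q.fld → UW G f' →
      Rel Q p f f' → ∀ Hf ∈ G.W, f' = 1 + algebraMap A F Q.ϖ ^ (p * n) * Hf →
      (∃ h₁, r1 G Hf = h₁ ^ p) ∧ (∃ h₂, r2 G Hf = h₂ ^ p)) (n : ℕ) (hn : 1 ≤ n) (hnp : n ≤ m) :
    ∃ f' D', Lev Q p f' D' n ∧ Rel Q p f f' := by
  induction n, hn using Nat.le_induction with
  | base => exact ⟨f, D, L₁, Rel.refl f⟩
  | succ n hn ih =>
    obtain ⟨f', D', L, hR⟩ := ih (by omega)
    obtain ⟨Hf, hHf, hf⟩ := L.hf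
    have hp1 := hp.out.one_lt
    obtain ⟨d, hd⟩ : ∃ d, m = n + 1 + d := Nat.exists_eq_add_of_le hnp
    obtain ⟨q, hq⟩ : ∃ q, p = q + 1 + 1 := ⟨p - 2, by omega⟩
    have he : p * n + 1 ≤ m * (p - 1) + n := by
      rw [hq, hd, Nat.add_sub_cancel]; nlinarith [Nat.zero_le (d * (q + 1))]
    have he' : p * (n + 1) ≤ m * (p - 1) + (n + 1) := by
      rw [hq, hd, Nat.add_sub_cancel]; nlinarith [Nat.zero_le (d * (q + 1))]
    obtain ⟨⟨h₁, e₁⟩, ⟨h₂, e₂⟩⟩ := hE n f' hn (by omega) L.fF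
      (uw_of_cg_one L.hf (Nat.mul_pos hp.out.pos hn)) hR Hf hHf hf
    obtain ⟨κ, hκ, hκF, U, hUF, hUc, L'⟩ := L.step H hpe hn he he' hHf hf e₁ e₂
    refine ⟨_, _, L', hR.trans ⟨U⁻¹, inv_mem hUF, inv_ne_zero (uw_of_cg_one hUc hn).ne_zero,
      (algebraMap A F κ)⁻¹, inv_mem hκF, inv_ne_zero (uw_const (G := G) hκ).ne_zero,
      ⟨(algebraMap A K κ)⁻¹, ?_⟩, ?_⟩⟩
    · rw [map_inv₀, ← IsScalarTower.algebraMap_apply A K F]
    · rw [inv_pow]

end Fermat.Agent.Ord
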