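import Fermat.Agent.Ord.AlgC

/-!
# Ordinariness: the main algebraic theorem
-/

set_option autoImplicit false
set_option linter.unusedSectionVars false
set_option linter.style.haveILetI false

namespace Fermat.Agent.Ord

variable {R X G : Type*} [CommRing R] [AddCommGroup X] [Module R X] [Group G] [Finite X]
  {ρ : G →* Module.End R X} {χ t : G → R}
  (hχ : ∀ g h (x : X), χ (g * h) • x = (χ g * χ h) • x) (hχ1 : ∀ x : X, χ 1 • x = x)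
  (hrel : ∀ g (x : X), ρ g x + χ g • ρ g⁻¹ x = t g • x) {𝔫 : Ideal R} [h𝔫 : 𝔫.IsMaximal]
  {I : Subgroup G} {K : Submodule R X} (hK : ∀ τ ∈ I, ∀ x, ρ τ x - x ∈ K)
  (hres : ∀ σ ∈ I, ∀ τ ∈ I, ∀ g,
    t (σ * τ * g) - t (σ * g) - χ σ * t (τ * g) + χ σ * t g ∈ 𝔫)
  {c g₀ k₀ : G} (hc : c * c = 1)
  (hu : t (g₀ * k₀) + t (c * g₀ * k₀) - t (g₀ * c * k₀) - t (c * g₀ * c * k₀) ∉ 𝔫)
  {τ₀ : G} (hτ₀ : τ₀ ∈ I) (hχτ : χ τ₀ - 1 ∉ 𝔫)
  (hA2 : ∀ v ∈ K, v ∈ tors X 𝔫 → ρ τ₀ v = v → v = 0)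

theorem inv_act (g : G) (x : X) : ρ g (ρ g⁻¹ x) = x := by
  have : (ρ g * ρ g⁻¹) x = x := by rw [← map_mul, mul_inv_cancel, map_one]; rfl
  exact this

theorem inv_act' (g : G) (x : X) : ρ g⁻¹ (ρ g x) = x := by
  have : (ρ g⁻¹ * ρ g) x = x := by rw [← map_mul, inv_mul_cancel, map_one]; rfl
  exact this

theorem mul_act (g h : G) (x : X) : ρ (g * h) x = ρ g (ρ h x) := by rw [map_mul]; rfl

include hrel in
theorem sq_act (g : G) (x : X) : ρ g (ρ g x) + χ g • x = t g • ρ g x := by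
  have := hrel g (ρ g x)
  rwa [inv_act'] at this

include hA2 in
/-- step 1 -/
theorem step1 (k : ℕ) {x : X} (hx : x ∈ tors X (𝔫 ^ k)) (hxK : x ∈ K) (h : ρ τ₀ x = x) :
    x = 0 := by
  by_contra hx0
  obtain ⟨r, hr, hr'⟩ := exists_socle 𝔫 k hx0 hx
  exact hr (hA2 _ (K.smul_mem r hxK) hr' (by rw [map_smul, h]))

include hχ hχ1 hrel hK hres hc hu hτ₀ hχτ hA2 in
/-- step 2 -/
theorem step2 (k : ℕ) {τ : G} (hτ : τ ∈ I) {x : X} (hx : x ∈ tors X (𝔫 ^ k)) :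
    (t τ - 1 - χ τ) • x = 0 := by
  by_contra hx0
  have hKU : ∀ x : X, (t τ - 1 - χ τ) • x ∈ K := by
    intro x
    obtain ⟨x', rfl⟩ : ∃ x', ρ τ x' = x := ⟨ρ τ⁻¹ x, inv_act τ x⟩
    have h1 := hK τ hτ (ρ τ x' - χ τ • x')
    have h2 : ρ τ (ρ τ x' - χ τ • x') - (ρ τ x' - χ τ • x') = (t τ - 1 - χ τ) • ρ τ x' := by
      rw [map_sub, map_smul, sub_smul, sub_smul, one_smul, ← sq_act hrel τ x']
      abel
    rwa [h2] at h1
  obtain ⟨r, hr, hr'⟩ := exists_socle 𝔫 k hx0 (Submodule.smul_mem _ _ hx)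
  -- the stable submodule
  let Y : Submodule R X :=
    { carrier := {y | y ∈ tors X 𝔫 ∧ ∀ g, ρ g y ∈ K}
      zero_mem' := ⟨zero_mem _, fun g => by rw [map_zero]; exact zero_mem _⟩
      add_mem' := fun {a b} ha hb => ⟨add_mem ha.1 hb.1, fun g => by
        rw [map_add]; exact add_mem (ha.2 g) (hb.2 g)⟩
      smul_mem' := fun c a ha => ⟨Submodule.smul_mem _ c ha.1, fun g => by
        rw [map_smul]; exact K.smul_mem c (ha.2 g)⟩ }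
  have hYρ : ∀ g, ∀ y ∈ Y, ρ g y ∈ Y := fun g y hy =>
    ⟨map_tors _ hy.1, fun h => by rw [← mul_act]; exact hy.2 _⟩
  have hYK : ∀ y ∈ Y, y ∈ K := fun y hy => by
    have := hy.2 1
    rw [map_one] at this
    exact this
  have hzY : r • (t τ - 1 - χ τ) • x ∈ Y := ⟨hr', fun g => by
    rw [map_smul, map_smul]; exact K.smul_mem r (hKU _)⟩
  -- the action of `τ₀`
  have h1 : ∀ y ∈ Y, ρ τ₀ y = χ τ₀ • y := by
    intro y hy
    obtain ⟨z, hz, hzy⟩ := surj_of_inj Y (ρ τ₀ - 1) (fun y hy => sub_mem (hYρ τ₀ y hy) hy)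
      (fun y hy h => hA2 y (hYK y hy) hy.1 (sub_eq_zero.1 h)) hy
    have h2 := star_tors hχ hχ1 hrel (hres τ₀ hτ₀ τ₀ hτ₀) hc hu hz.1
    have h3 : ρ τ₀ z - z = y := hzy
    rwa [h3] at h2
  obtain ⟨b, hb⟩ := exists_inv_mod (X := X) hχτ
  have h2 : ∀ y ∈ Y, ∀ g, ρ g y = (b * (t (τ₀ * g) - t g)) • y := by
    intro y hy g
    have h3 : χ τ₀ • ρ τ₀⁻¹ y = y := by
      rw [← map_smul, ← h1 y hy, inv_act']
    have h4 := hrel (τ₀ * g) y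
    rw [mul_act, h1 _ (hYρ g y hy), hχ, mul_inv_rev, mul_act, mul_comm (χ τ₀), mul_smul,
      ← map_smul (ρ g⁻¹), h3] at h4
    have h5 : (χ τ₀ - 1) • ρ g y = (t (τ₀ * g) - t g) • y := by
      rw [sub_smul, sub_smul, one_smul, ← h4, ← hrel g y]
      abel
    rw [mul_smul, ← h5, smul_smul, hb _ (map_tors _ hy.1)]
  apply hr
  have h3 := u_zero hχ hrel (k := k₀) (g := g₀) hc (lam := fun g => b * (t (τ₀ * g) - t g))
    (z := r • (t τ - 1 - χ τ) • x) (fun g s => h2 _ (Submodule.smul_mem Y s hzY) g)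
  obtain ⟨b', hb'⟩ := exists_inv_mod (X := X) hu
  rw [← hb' _ hr', mul_smul, h3, smul_zero]

include hχ hχ1 hrel hK hres hc hu hτ₀ hχτ hA2 in
/-- step 3 -/
theorem step3 (k : ℕ) {τ : G} (hτ : τ ∈ I) {x : X} (hx : x ∈ tors X (𝔫 ^ k)) :
    ρ τ (ρ τ x - x) = χ τ • (ρ τ x - x) := by
  have h1 := step2 hχ hχ1 hrel hK hres hc hu hτ₀ hχτ hA2 k hτ (map_tors (ρ τ) hx)
  rw [sub_smul, sub_smul, one_smul, ← sq_act hrel] at h1
  rw [map_sub, smul_sub, ← sub_eq_zero, ← h1]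
  abel

include hχ hχ1 hrel hK hres hc hu hτ₀ hχτ hA2 in
/-- step 4 -/
theorem step4 (k : ℕ) {x : X} (hx : x ∈ tors X (𝔫 ^ k)) (hxK : x ∈ K) :
    ∀ σ ∈ I, ρ σ x = χ σ • x := by
  let Y : Submodule R X := tors X (𝔫 ^ k) ⊓ K
  have hYρ : ∀ τ ∈ I, ∀ y ∈ Y, ρ τ y ∈ Y := fun τ hτ y hy => ⟨map_tors _ hy.1, by
    have := K.add_mem (hK τ hτ y) hy.2
    rwa [sub_add_cancel] at this⟩
  have h1 : ∀ y ∈ Y, ρ τ₀ y = χ τ₀ • y := by
    intro y hy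
    obtain ⟨z, hz, hzy⟩ := surj_of_inj Y (ρ τ₀ - 1) (fun y hy => sub_mem (hYρ τ₀ hτ₀ y hy) hy)
      (fun y hy h => step1 hA2 k hy.1 hy.2 (sub_eq_zero.1 h)) hy
    have h2 := step3 hχ hχ1 hrel hK hres hc hu hτ₀ hχτ hA2 k hτ₀ hz.1
    have h3 : ρ τ₀ z - z = y := hzy
    rwa [h3] at h2
  intro σ hσ
  have hxY : x ∈ Y := ⟨hx, hxK⟩
  have h2 := step3 hχ hχ1 hrel hK hres hc hu hτ₀ hχτ hA2 k (mul_mem hσ hτ₀) hx
  have h3 := step3 hχ hχ1 hrel hK hres hc hu hτ₀ hχτ hA2 k hσ hx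
  have hy : χ τ₀ • ρ σ x - x ∈ Y := sub_mem (Y.smul_mem _ (hYρ σ hσ x hxY)) hxY
  rw [mul_act, mul_act, h1 x hxY, map_smul, h1 _ hy, hχ, mul_comm (χ σ), mul_smul,
    map_smul (ρ σ) (χ τ₀)] at h2
  -- cancel `χ τ₀`
  have hcan : ∀ y : X, χ τ₀ • y = 0 → y = 0 := fun y h => by
    have := hχ τ₀⁻¹ τ₀ y
    rw [inv_mul_cancel, hχ1, mul_smul, h, smul_zero] at this
    exact this
  have h4 : ρ σ (χ τ₀ • ρ σ x - x) = χ σ • (χ τ₀ • ρ σ x - x) := by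
    rw [← sub_eq_zero]
    apply hcan
    rw [smul_sub, h2, sub_self]
  have h5 : (χ τ₀ - 1) • (ρ σ x - χ σ • x) = 0 := by
    rw [map_sub, map_smul] at h4
    rw [map_sub] at h3
    linear_combination (norm := module) h4 - χ τ₀ • h3
  have h6 : ρ σ x - χ σ • x ∈ tors X (𝔫 ^ k) := sub_mem (map_tors _ hx) (Submodule.smul_mem _ _ hx)
  exact sub_eq_zero.1 (eq_zero_of_smul hχτ h6 h5)

include hχ hχ1 hrel hK hres hc hu hτ₀ hχτ hA2 in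
/-- step 5 -/
theorem step5 (k : ℕ) {x : X} (hx : x ∈ tors X (𝔫 ^ k)) {σ τ : G} (hσ : σ ∈ I) (hτ : τ ∈ I)
    (g : G) : (t (σ * τ * g) - t (σ * g) - χ σ * t (τ * g) + χ σ * t g) • x = 0 := by
  have h4 := fun {x : X} (hx : x ∈ tors X (𝔫 ^ k)) (hxK : x ∈ K) =>
    step4 hχ hχ1 hrel hK hres hc hu hτ₀ hχτ hA2 k hx hxK
  -- first part
  have hg := map_tors (ρ g) hx
  have e1 : ρ (σ * τ * g) x - ρ (σ * g) x - χ σ • ρ (τ * g) x + χ σ • ρ g x = 0 := by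
    have h5 := h4 (sub_mem (map_tors (ρ τ) hg) hg) (hK τ hτ (ρ g x)) σ hσ
    rw [mul_act, mul_act, mul_act, mul_act]
    rw [map_sub, smul_sub] at h5
    linear_combination (norm := module) h5
  -- second part
  have hσi := map_tors (ρ σ⁻¹) hx
  have h6 := h4 (sub_mem hσi hx) (hK σ⁻¹ (inv_mem hσ) x) τ hτ
  have e2 : χ τ • ρ τ⁻¹ (ρ σ⁻¹ x) - ρ σ⁻¹ x - χ τ • ρ τ⁻¹ x + x = 0 := by
    have h7 := congrArg (ρ τ⁻¹) h6
    rw [inv_act', map_smul, map_sub] at h7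
    rw [smul_sub] at h7
    linear_combination (norm := module) -h7
  have e3 : χ (σ * τ * g) • ρ (σ * τ * g)⁻¹ x - χ (σ * g) • ρ (σ * g)⁻¹ x -
      χ σ • χ (τ * g) • ρ (τ * g)⁻¹ x + χ σ • χ g • ρ g⁻¹ x = 0 := by
    have h8 := congrArg (fun y => (χ σ * χ g) • ρ g⁻¹ y) e2
    beta_reduce at h8
    rw [map_zero, smul_zero, map_add, map_sub, map_sub, map_smul, map_smul] at h8
    have k1 : ∀ w : X, χ (σ * τ * g) • w = (χ σ * χ τ * χ g) • w := fun w => by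
      rw [hχ, mul_smul, hχ, ← mul_smul]
    rw [k1, hχ σ g, hχ τ g]
    simp only [mul_inv_rev, mul_act]
    linear_combination (norm := module) h8
  rw [add_smul, sub_smul, sub_smul, mul_smul, mul_smul, ← hrel, ← hrel, ← hrel, ← hrel]
  linear_combination (norm := module) e1 + e3

include hχ hχ1 hrel hK hres hc hu hτ₀ hχτ hA2 in
/-- **Theorem C** -/
theorem thmC : ∃ s : R, s ∉ 𝔫 ∧ ∀ σ ∈ I, ∀ τ ∈ I, ∀ (g : G) (x : X),
    (s * (t (σ * τ * g) - t (σ * g) - χ σ * t (τ * g) + χ σ * t g)) • x = 0 := by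
  obtain ⟨k, s, hs, hsX⟩ := exists_stable X 𝔫
  refine ⟨s, fun h => ?_, fun σ hσ τ hτ g x => ?_⟩
  · have : (1 : R) ∈ 𝔫 := by
      have := 𝔫.sub_mem h hs
      rwa [sub_sub_cancel] at this
    exact h𝔫.ne_top ((Ideal.eq_top_iff_one _).2 this)
  · rw [mul_comm, mul_smul]
    exact step5 hχ hχ1 hrel hK hres hc hu hτ₀ hχτ hA2 k (hsX x) hσ hτ g

end Fermat.Agent.Ord
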