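import Fermat.Agent.Ord.Pack
import Fermat.Agent.Ord.ThmC
import Fermat.Agent.GalRep.Hecke
import Fermat.Agent.Nod.KumBGM

/-!
# The limit argument
-/

set_option autoImplicit false
set_option linter.unusedSectionVars false
set_option linter.style.haveILetI false

noncomputable section

namespace Fermat.Agent.Ord

open Fermat.Agent.GalRep Fermat.Agent.Kum Fermat.Agent.HeckeHom

section Cyc

variable {p : ℕ} [hp : Fact p.Prime] {X : Type*} [AddCommGroup X]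

theorem smul_of_modEq {n a b : ℕ} (hm : ∀ x : X, n • x = 0) (h : a ≡ b [MOD n]) (x : X) :
    a • x = b • x := by
  obtain h5 | h5 := le_total a b
  · obtain ⟨c, hc⟩ := (Nat.modEq_iff_dvd' h5).mp h
    have h6 : b = a + c * n := by rw [mul_comm c]; omega
    rw [h6, add_smul, mul_smul c, hm, smul_zero, add_zero]
  · obtain ⟨c, hc⟩ := (Nat.modEq_iff_dvd' h5).mp h.symm
    have h6 : a = b + c * n := by rw [mul_comm c]; omega
    rw [h6, add_smul, mul_smul c, hm, smul_zero, add_zero]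

theorem cyc_smul_mul {m : ℕ} (hm : ∀ x : X, p ^ m • x = 0) (g h : GQ) (x : X) :
    (cyc (p ^ m) (g * h)).val • x = ((cyc (p ^ m) g).val * (cyc (p ^ m) h).val) • x := by
  refine smul_of_modEq hm ?_ x
  rw [← ZMod.natCast_eq_natCast_iff]
  push_cast
  rw [ZMod.natCast_zmod_val, ZMod.natCast_zmod_val, ZMod.natCast_zmod_val, map_mul]

theorem cyc_smul_one {m : ℕ} (hm : ∀ x : X, p ^ m • x = 0) (x : X) :
    (cyc (p ^ m) 1).val • x = x := by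
  have h1 : (cyc (p ^ m) 1).val • x = 1 • x := by
    refine smul_of_modEq hm ?_ x
    rw [← ZMod.natCast_eq_natCast_iff, ZMod.natCast_zmod_val, map_one, Nat.cast_one]
  rw [h1, one_smul]

theorem cyc_smul_le {m m' : ℕ} (h : m ≤ m') (hm : ∀ x : X, p ^ m • x = 0) (g : GQ) (x : X) :
    (cyc (p ^ m') g).val • x = (cyc (p ^ m) g).val • x := by
  refine smul_of_modEq hm ?_ x
  rw [← ZMod.natCast_eq_natCast_iff, ZMod.natCast_zmod_val,
    ← castHom_cyc (m := p ^ m) (n := p ^ m') (pow_dvd_pow p h) g]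
  simp [ZMod.natCast_val]

theorem cyc_smul_eq {m m' : ℕ} (hm : ∀ x : X, p ^ m • x = 0) (hm' : ∀ x : X, p ^ m' • x = 0)
    (g : GQ) (x : X) : (cyc (p ^ m') g).val • x = (cyc (p ^ m) g).val • x := by
  rcases le_total m m' with h | h
  · exact cyc_smul_le h hm g x
  · exact (cyc_smul_le h hm' g x).symm

end Cyc

/-- the Hecke modules -/
@[reducible] def modXS (N m : ℕ) [NeZero N] [NeZero m] (S : Set ℕ) :
    Module (CuspForm.heckeAlgebra N 2 S) (XL N m) := Module.compHom (XL N m) (actX N m S)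

section HG

variable {N : ℕ} [NeZero N] {S : Set ℕ}

/-- the Galois action on the Hecke modules -/
def rhoS (hNS : ∀ q, q.Prime → q ∣ N → q ∈ S) (ι : AlgebraicClosure ℚ →+* ℂ) (m : ℕ) [NeZero m] :
    letI := modXS N m S
    GQ →* Module.End (CuspForm.heckeAlgebra N 2 S) (XL N m) :=
  letI := modXS N m S
  { toFun := fun σ =>
      { toFun := rhoF ι m σ
        map_add' := rhoF_add ι σ
        map_smul' := fun a ξ => rhoF_act' ι hNS σ a ξ }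
    map_one' := LinearMap.ext fun ξ => rhoF_one ι ξ
    map_mul' := fun σ τ => LinearMap.ext fun ξ => rhoF_mul ι σ τ ξ }

theorem isHG_rhoS {p : ℕ} [hp : Fact p.Prime] (hpS : p ∈ S)
    (hNS : ∀ q, q.Prime → q ∣ N → q ∈ S) (ι : AlgebraicClosure ℚ →+* ℂ) :
    ∃ c : ℕ, ∀ n : ℕ, ∀ m : ℕ, m = p ^ (n + c) → ∀ [NeZero m],
      letI := modXS N m S
      IsHG (heckeFun N S) S p n (rhoS hNS ι m) := by
  have hp0 : p ≠ 0 := hp.out.ne_zero
  letI : Module (CuspForm.heckeAlgebra N 2 S) (LZ N) :=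
    Module.compHom (LZ N) (actL N S)
  obtain ⟨c, hc⟩ := exists_faithful_bound (T := CuspForm.heckeAlgebra N 2 S) (L := LZ N)
    (fun a ha => by
      apply actL_injective N
      rw [map_zero]
      exact LinearMap.ext ha) p hp0
  refine ⟨c, fun n m hm => ?_⟩
  subst hm
  intro _
  set m : ℕ := p ^ (n + c) with hm
  letI := modXS N m S
  refine ⟨⟨n + c, fun ξ => ?_⟩, ?_, ?_, ?_⟩
  · obtain ⟨φ, rfl⟩ := mkX_surjective ξ
    exact mkX_nsmul φ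
  · obtain ⟨L, hL, h⟩ := exists_level_rhoF (N := N) (m := m) (K := AlgebraicClosure ℚ) ι
    exact ⟨L, hL, fun σ hσ => LinearMap.ext fun ξ => h σ hσ ξ⟩
  · intro ℓ hℓ hℓS A hA σ hσ ξ
    have hℓN : ¬ ℓ ∣ N := fun h => hℓS (hNS ℓ hℓ h)
    have hℓm : ¬ ℓ ∣ m := fun h => by
      have := (Nat.prime_dvd_prime_iff_eq hℓ hp.out).1 (hℓ.dvd_of_dvd_pow h)
      exact hℓS (this ▸ hpS)
    have h1 := rhoF_frob ι (goodRed hℓ hℓN hℓm hA) hℓ hℓN hℓS hA hσ ξ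
    rw [heckeFun_eq hℓ hℓN hℓS]
    exact h1
  · intro a ha
    obtain ⟨b, hb⟩ := hc n a (fun φ => by
      have h1 : (mkX (actL N S a φ) : XL N m) = mkX 0 := by
        rw [map_zero]
        exact ha (mkX φ)
      rw [mkX_eq_iff, redI_zero, redI_eq_zero] at h1
      obtain ⟨ψ, hψ⟩ := h1
      exact ⟨ψ, hψ⟩)
    refine ⟨b, ?_⟩
    rw [hb, nsmul_eq_mul]
    push_cast
    rfl

end HG

/-- the local information at `p` -/
def QC (p : ℕ) [Fact p.Prime] (I : Subgroup GQ) {R : Type*} [CommRing R] (𝔫 : Ideal R) :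
    ∀ (X : Type) (_ : AddCommGroup X) (_ : Module R X), (GQ →* Module.End R X) → Prop :=
  fun X _ _ ρ => ∀ m : ℕ, 1 ≤ m → (∀ x : X, p ^ m • x = 0) → ∀ r : GQ → R,
    (∀ g x, ρ g x + (cyc (p ^ m) g).val • ρ g⁻¹ x = r g • x) →
    (∀ σ ∈ I, ∀ τ ∈ I, ∀ g, r (σ * τ * g) - r (σ * g) - ((cyc (p ^ m) σ).val : R) * r (τ * g) +
      ((cyc (p ^ m) σ).val : R) * r g ∈ 𝔫) →
    ∀ c g₀ k₀ : GQ, c * c = 1 →
    r (g₀ * k₀) + r (c * g₀ * k₀) - r (g₀ * c * k₀) - r (c * g₀ * c * k₀) ∉ 𝔫 →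
    ∀ τ₀ ∈ I, ((cyc (p ^ m) τ₀).val : R) - 1 ∉ 𝔫 →
    ∃ s : R, s ∉ 𝔫 ∧ ∀ σ ∈ I, ∀ τ ∈ I, ∀ (g : GQ) (x : X),
      (s * (r (σ * τ * g) - r (σ * g) - ((cyc (p ^ m) σ).val : R) * r (τ * g) +
      ((cyc (p ^ m) σ).val : R) * r g)) • x = 0

section QCX

theorem qc_rhoS {p M : ℕ} [hp : Fact p.Prime] [NeZero M] (hpM : ¬ p ∣ M)
    {A : ValuationSubring (AlgebraicClosure ℚ)} (hA : A.LiesOverPrime p) (hp2 : p ≠ 2)
    (ι : AlgebraicClosure ℚ →+* ℂ) {S : Set ℕ} (hNS : ∀ q, q.Prime → q ∣ p * M → q ∈ S)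
    (a : ℕ) {D : ℕ} [NeZero D] (hD : D = p ^ a * p)
    {𝔫 : Ideal (CuspForm.heckeAlgebra (p * M) 2 S)} (h𝔫 : 𝔫.IsMaximal)
    (hp𝔫 : (p : CuspForm.heckeAlgebra (p * M) 2 S) ∈ 𝔫)
    {ℓ : ℕ} (hℓ : ℓ.Prime) (hℓN : ¬ ℓ ∣ p * M) (hℓS : ℓ ∉ S)
    (hT : CuspForm.heckeAlgebra.T hℓ hℓN hℓS -
      ((ℓ + 1 : ℕ) : CuspForm.heckeAlgebra (p * M) 2 S) ∉ 𝔫) :
    QC p (A.inertiaSubgroupIn ℚ) 𝔫 (XL (p * M) D) inferInstance (modXS (p * M) D S)
      (rhoS hNS ι D) := by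
  letI := modXS (p * M) D S
  intro m hm1 hm r hrel hres c g₀ k₀ hc hu τ₀ hτ₀ hχτ
  obtain ⟨K, hK1, hK2, hK3⟩ := exists_kk hpM hA hp2 ι hNS a hD
  let K' : Submodule (CuspForm.heckeAlgebra (p * M) 2 S) (XL (p * M) D) :=
    { K with smul_mem' := fun t ξ hξ => hK1 t ξ hξ }
  have hχ : ∀ g h (x : XL (p * M) D), ((cyc (p ^ m) (g * h)).val :
      CuspForm.heckeAlgebra (p * M) 2 S) • x = (((cyc (p ^ m) g).val :
      CuspForm.heckeAlgebra (p * M) 2 S) * ((cyc (p ^ m) h).val :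
      CuspForm.heckeAlgebra (p * M) 2 S)) • x := fun g h x => by
    rw [← Nat.cast_mul, Nat.cast_smul_eq_nsmul, Nat.cast_smul_eq_nsmul]
    exact cyc_smul_mul hm g h x
  have hχ1 : ∀ x : XL (p * M) D, ((cyc (p ^ m) 1).val :
      CuspForm.heckeAlgebra (p * M) 2 S) • x = x := fun x => by
    rw [Nat.cast_smul_eq_nsmul]
    exact cyc_smul_one hm x
  have hrel' : ∀ g (x : XL (p * M) D), rhoS hNS ι D g x + ((cyc (p ^ m) g).val :
      CuspForm.heckeAlgebra (p * M) 2 S) • rhoS hNS ι D g⁻¹ x = r g • x := fun g x => by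
    rw [Nat.cast_smul_eq_nsmul]
    exact hrel g x
  haveI : Finite (XL (p * M) D) := MzC.finite_XL
  refine thmC hχ hχ1 hrel' (K := K') (fun τ hτ x => hK2 τ hτ x) hres hc hu hτ₀ hχτ ?_
  intro v hv hv𝔫 hτv
  refine hK3 𝔫 h𝔫 hp𝔫 ℓ hℓ hℓN hℓS hT (fun g => (cyc (p ^ m) g).val) ?_ ?_ τ₀ hτ₀ ?_ v hv
    hv𝔫 hτv
  · intro σ ζ hζ
    apply apply_eq_pow_cyc
    obtain ⟨d, rfl⟩ : ∃ d, m = d + 1 := ⟨m - 1, by omega⟩
    rw [pow_succ, mul_comm, pow_mul, hζ, one_pow]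
  · intro σ hσ τ hτ w hw
    have h1 := star_tors hχ hχ1 hrel' (hres σ hσ τ hτ) hc hu (x := w) hw
    rw [Nat.cast_smul_eq_nsmul] at h1
    rw [natCast_zsmul]
    exact h1
  · intro hdvd
    apply hχτ
    obtain ⟨z, hz⟩ := hdvd
    have h1 : ((cyc (p ^ m) τ₀).val : CuspForm.heckeAlgebra (p * M) 2 S) - 1 =
        (p : CuspForm.heckeAlgebra (p * M) 2 S) * z := by
      exact_mod_cast congrArg (Int.cast : ℤ → CuspForm.heckeAlgebra (p * M) 2 S) hz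
    rw [h1]
    exact Ideal.mul_mem_right _ _ hp𝔫

end QCX

end Fermat.Agent.Ord
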