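import Fermat.Agent.Ord.Lim
import Fermat.Agent.GalRep.LocalCond

/-!
# The limit argument
-/

set_option autoImplicit false
set_option linter.unusedSectionVars false
set_option linter.style.haveILetI false

noncomputable section

namespace Fermat.Agent.Ord

open Fermat.Agent.GalRep Fermat.Agent.Kum Fermat.Agent.HeckeHom

variable {R : Type*} [CommRing R] {a : ℕ → R} {S : Set ℕ} {p : ℕ} [hp : Fact p.Prime]

/-- approximations of a pseudo-representation by Hecke operators -/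
theorem lim_eq {B : Type*} [CommRing B] {I : Ideal B} (hpI : (p : B) ∈ I) (χ : R →+* B)
    (hS : S.Finite) (hpS : p ∈ S) {K : Set GQ} {t D : GQ → B}
    (h : IsGoodPseudoRep I (fun ℓ => χ (a ℓ)) S p K t D) {n : ℕ} {X : Type*} [AddCommGroup X]
    [Module R X] {ρ : GQ →* Module.End R X} (hρ : IsHG a S p n ρ) {m : ℕ}
    (hm : ∀ x : X, p ^ m • x = 0) {r : GQ → R}
    (hr : ∀ g x, ρ g x + (cyc (p ^ m) g).val • ρ g⁻¹ x = r g • x) (g : GQ) :
    Ideal.Quotient.mk (I ^ n) (t g) = Ideal.Quotient.mk (I ^ n) (χ (r g)) := by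
  obtain ⟨t', ⟨ht1, ht2, ht3, -⟩, ht5⟩ := hρ.exists_pseudoRep' hS hpS
  have hle : Ideal.span {(p : R) ^ n} ≤ Ideal.comap χ (I ^ n) := by
    rw [Ideal.span_singleton_le_iff_mem, Ideal.mem_comap, map_pow, map_natCast]
    exact Ideal.pow_mem_pow hpI n
  let φ : R ⧸ Ideal.span {(p : R) ^ n} →+* B ⧸ I ^ n := Ideal.quotientMap (I ^ n) χ hle
  have hcop : ∀ {ℓ : ℕ}, ℓ.Prime → ℓ ∉ S → ∀ n, Nat.Coprime ℓ (p ^ n) := by
    intro ℓ hℓ hℓS n
    refine Nat.Coprime.pow_right _ ((Nat.coprime_primes hℓ hp.out).mpr ?_)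
    rintro rfl
    exact hℓS hpS
  have h1 := ht1.comp φ
  have h2 := h.isPseudoRep.comp (Ideal.Quotient.mk (I ^ n))
  have h3 := h2.t_eq_of_frobenius h1 (h.cont n) (ht2.comp φ) hS (fun ℓ hℓ hℓS A hA τ hτ => by
    obtain ⟨e1, e2⟩ := h.frobenius ℓ hℓ hℓS A hA τ hτ
    constructor
    · rw [e1, ht3 ℓ hℓ hℓS A hA τ hτ]
      rfl
    · rw [h.D_eq, map_natCast])
  have h4 := congrFun h3 g
  obtain ⟨m', r', hm', hr', hrel'⟩ := ht5 g
  have h5 : Ideal.Quotient.mk (I ^ n) (t g) = φ (t' g) := h4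
  have h6 : φ (t' g) = Ideal.Quotient.mk (I ^ n) (χ r') := by rw [hr']; rfl
  rw [h5, h6]
  obtain ⟨b, hb⟩ := hρ.faithful (r' - r g) (fun x => by
    rw [sub_smul, ← hrel', ← hr, cyc_smul_eq hm hm', sub_self])
  rw [Ideal.Quotient.eq, ← map_sub, hb, map_mul, map_pow, map_natCast]
  exact Ideal.mul_mem_right _ _ (Ideal.pow_mem_pow hpI n)

open IsLocalRing in
/-- **the ordinary relation** -/
theorem rel_zero {B : Type*} [CommRing B] [IsLocalRing B] [IsAdicComplete (maximalIdeal B) B]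
    (hpI : (p : B) ∈ maximalIdeal B) (χ : R →+* B) (hS : S.Finite) (hpS : p ∈ S) {K : Set GQ}
    {t D : GQ → B} (h : IsGoodPseudoRep (maximalIdeal B) (fun ℓ => χ (a ℓ)) S p K t D)
    {I : Subgroup GQ}
    (hX : ∀ n, ∃ (X : Type) (i₁ : AddCommGroup X) (i₂ : Module R X) (ρ : GQ →* Module.End R X),
      IsHG a S p n ρ ∧ QC p I (Ideal.comap χ (maximalIdeal B)) X i₁ i₂ ρ)
    (hres : ∀ σ ∈ I, ∀ τ ∈ I, ∀ g, t (σ * τ * g) - t (σ * g) - D σ * t (τ * g) +
      D σ * t g ∈ maximalIdeal B) {c g₀ k₀ : GQ} (hc : c * c = 1)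
    (hu : t (g₀ * k₀) + t (c * g₀ * k₀) - t (g₀ * c * k₀) - t (c * g₀ * c * k₀) ∉ maximalIdeal B)
    {τ₀ : GQ} (hτ₀ : τ₀ ∈ I) (hD : D τ₀ - 1 ∉ maximalIdeal B) {σ τ : GQ} (hσ : σ ∈ I)
    (hτ : τ ∈ I) (g : GQ) :
    t (σ * τ * g) - t (σ * g) - D σ * t (τ * g) + D σ * t g = 0 := by
  refine eq_of_forall_mk_eq (maximalIdeal B) fun n => ?_
  rw [map_zero, Ideal.Quotient.eq_zero_iff_mem]
  refine Ideal.pow_le_pow_right (Nat.le_succ n) ?_
  obtain ⟨X, i₁, i₂, ρ, hρ, hQ⟩ := hX (n + 1)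
  obtain ⟨m₀, hm₀⟩ := hρ.torsion
  obtain ⟨m, hmd⟩ : ∃ m, m = m₀ + (n + 1) := ⟨_, rfl⟩
  have hm : ∀ x : X, p ^ m • x = 0 := fun x => by
    rw [hmd, add_comm, pow_add, mul_smul, hm₀, smul_zero]
  choose r hr using hρ.exists_trace hS hpS m hm
  have ht := lim_eq hpI χ hS hpS h hρ hm hr
  have hDm : ∀ g, Ideal.Quotient.mk (maximalIdeal B ^ (n + 1)) (D g) =
      Ideal.Quotient.mk (maximalIdeal B ^ (n + 1)) (χ ((cyc (p ^ m) g).val : R)) := fun g => by
    rw [h.D_eq, map_natCast, map_natCast]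
    refine natCast_eq_of_modEq (natCast_val_eq_zero_of_dvd hpI) ?_
    rw [← ZMod.natCast_eq_natCast_iff, ZMod.natCast_zmod_val,
      ← castHom_cyc (m := p ^ (n + 1)) (n := p ^ m) (pow_dvd_pow p (by omega)) g]
    simp [ZMod.natCast_val]
  have hx : ∀ σ τ g, Ideal.Quotient.mk (maximalIdeal B ^ (n + 1))
      (t (σ * τ * g) - t (σ * g) - D σ * t (τ * g) + D σ * t g) =
      Ideal.Quotient.mk (maximalIdeal B ^ (n + 1)) (χ (r (σ * τ * g) - r (σ * g) -
        ((cyc (p ^ m) σ).val : R) * r (τ * g) + ((cyc (p ^ m) σ).val : R) * r g)) := by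
    intro σ τ g
    rw [map_add χ, map_sub χ, map_sub χ, map_mul χ, map_mul χ, map_add, map_sub, map_sub,
      map_mul, map_mul, map_add, map_sub, map_sub, map_mul, map_mul, ht, ht, ht, ht, hDm]
  have hle : maximalIdeal B ^ (n + 1) ≤ maximalIdeal B := Ideal.pow_le_self (Nat.succ_ne_zero n)
  have hcmp : ∀ {x y : B}, Ideal.Quotient.mk (maximalIdeal B ^ (n + 1)) x =
      Ideal.Quotient.mk (maximalIdeal B ^ (n + 1)) y → (x ∈ maximalIdeal B ↔
        y ∈ maximalIdeal B) := by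
    intro x y hxy
    rw [Ideal.Quotient.eq] at hxy
    have h1 := hle hxy
    constructor
    · intro h2
      have := Ideal.sub_mem _ h2 h1
      rwa [sub_sub_cancel] at this
    · intro h2
      have := Ideal.add_mem _ h1 h2
      rwa [sub_add_cancel] at this
  obtain ⟨s, hs, hs'⟩ := hQ m (by omega) hm r hr (fun σ hσ τ hτ g => by
    rw [Ideal.mem_comap]
    exact (hcmp (hx σ τ g)).1 (hres σ hσ τ hτ g)) c g₀ k₀ hc (fun h1 => hu (by
    rw [Ideal.mem_comap] at h1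
    refine (hcmp ?_).2 h1
    rw [map_sub χ, map_sub χ, map_add χ, map_sub, map_sub, map_add, map_sub, map_sub, map_add,
      ht, ht, ht, ht])) τ₀ hτ₀ (fun h1 => hD (by
    rw [Ideal.mem_comap] at h1
    refine (hcmp ?_).2 h1
    rw [map_sub χ, map_sub, map_sub, hDm, map_one χ]))
  obtain ⟨b, hb⟩ := hρ.faithful _ (hs' σ hσ τ hτ g)
  have hsu : IsUnit (χ s) := by
    by_contra h1
    exact hs (by rw [Ideal.mem_comap]; exact (mem_maximalIdeal _).2 h1)
  have h2 : χ s * χ (r (σ * τ * g) - r (σ * g) -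
        ((cyc (p ^ m) σ).val : R) * r (τ * g) + ((cyc (p ^ m) σ).val : R) * r g) ∈
        maximalIdeal B ^ (n + 1) := by
    rw [← map_mul, hb, map_mul, map_pow, map_natCast]
    exact Ideal.mul_mem_right _ _ (Ideal.pow_mem_pow hpI _)
  rw [Ideal.unit_mul_mem_iff_mem _ hsu] at h2
  rw [← Ideal.Quotient.eq_zero_iff_mem, hx, Ideal.Quotient.eq_zero_iff_mem]
  exact h2

end Fermat.Agent.Ord
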