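import Fermat.Agent.Ord.Fin
import Fermat.Agent.EC.InertiaSub

/-!
# Ordinariness at `p` of Hecke–Galois data
-/

set_option autoImplicit false
set_option linter.unusedSectionVars false
set_option linter.style.haveILetI false

noncomputable section

namespace Fermat.Agent.Ord

open Fermat.Agent.GalRep Fermat.Agent.Kum Fermat.Agent.HeckeHom Fermat.Agent.Flat
  Fermat.Agent.FlatRam IsLocalRing
open Fermat.Agent.DefRing (toMatRep toMatRep_apply toMatRep_cont)

section Alg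

variable {A : Type} [CommRing A] [IsLocalRing A]

/-- trace relations are relations -/
theorem eq_zero_of_trace (ρ : GaloisRepAdic A) (habs : ρ.residual.IsAbsolutelyIrreducible)
    (f : Module.End A ρ.V) (h : ∀ g, LinearMap.trace A ρ.V (f * ρ.ρ g) = 0) : f = 0 := by
  classical
  let b : Module.Basis (Fin 2) A ρ.V := Module.finBasisOfFinrankEq A ρ.V ρ.finrank_eq
  have h1 : ∀ X : Matrix (Fin 2) (Fin 2) A, (LinearMap.toMatrix b b f * X).trace = 0 := by
    intro X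
    have hX : X ∈ Submodule.span A (Set.range fun σ => toMatRep ρ b σ) := by
      rw [span_toMatRep_eq_top ρ habs b]; trivial
    induction hX using Submodule.span_induction with
    | mem X hX =>
      obtain ⟨g, rfl⟩ := hX
      have h2 := h g
      rw [LinearMap.trace_eq_matrix_trace A b, LinearMap.toMatrix_mul] at h2
      exact h2
    | zero => simp
    | add X Y _ _ hX hY => rw [Matrix.mul_add, Matrix.trace_add, hX, hY, add_zero]
    | smul a X _ hX => rw [Matrix.mul_smul, Matrix.trace_smul, hX, smul_zero]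
  have h2 : LinearMap.toMatrix b b f = 0 := by
    ext i j
    have h := h1 (Matrix.single j i 1)
    rw [Matrix.trace_mul_single] at h
    simpa using h
  exact (LinearMap.toMatrix b b).injective (by rw [h2, map_zero])

theorem two_by_two {M : Matrix (Fin 2) (Fin 2) A} (hM : IsUnit M.det)
    (h : (M - M.det • 1) * (M - 1) = 0) : M.trace = 1 + M.det := by
  have h1 : M.det ≠ 0 := hM.ne_zero
  have e00 := congrFun (congrFun h 0) 0
  have e01 := congrFun (congrFun h 0) 1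
  have e10 := congrFun (congrFun h 1) 0
  have e11 := congrFun (congrFun h 1) 1
  simp only [Matrix.mul_apply, Fin.sum_univ_two, Matrix.sub_apply, Matrix.smul_apply,
    Matrix.one_apply_eq, Matrix.zero_apply, smul_eq_mul, mul_one, ne_eq, zero_ne_one,
    not_false_eq_true, Matrix.one_apply_ne, one_ne_zero, mul_zero, sub_zero] at e00 e01 e10 e11
  have hd := Matrix.det_fin_two M
  rw [Matrix.trace_fin_two, ← sub_eq_zero]
  refine (hM.mul_right_eq_zero).1 ?_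
  linear_combination (M 0 0 + M 1 1 - (1 + M.det)) * hd + M 1 1 * (e00 - hd) - M 1 0 * e01

/-- from relations to the line -/
theorem exists_ord_line (ρ : GaloisRepAdic A) {P : ValuationSubring (AlgebraicClosure ℚ)}
    (h : ∀ σ ∈ P.inertiaSubgroupIn ℚ, ∀ τ ∈ P.inertiaSubgroupIn ℚ,
      (ρ.ρ σ - LinearMap.det (ρ.ρ σ) • (1 : Module.End A ρ.V)) * (ρ.ρ τ - 1) = 0)
    {τ₀ : GQ} (hτ₀ : τ₀ ∈ P.inertiaSubgroupIn ℚ) (hu : IsUnit (LinearMap.det (ρ.ρ τ₀) - 1)) :
    ∃ L : Submodule A ρ.V,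
      (∃ b : Module.Basis (Fin 2) A ρ.V, L = A ∙ b 0) ∧
      (∀ σ ∈ P.decompositionSubgroup ℚ, ∀ v ∈ L, ρ.ρ σ v ∈ L) ∧
      (∀ σ ∈ P.inertiaSubgroupIn ℚ, ∀ v : ρ.V, ρ.ρ σ v - v ∈ L) := by
  classical
  let b : Module.Basis (Fin 2) A ρ.V := Module.finBasisOfFinrankEq A ρ.V ρ.finrank_eq
  obtain ⟨δ, hδ⟩ := hu
  obtain ⟨f, hf⟩ : ∃ f : Module.End A ρ.V, f = ((δ⁻¹ : Aˣ) : A) • (ρ.ρ τ₀ - 1) := ⟨_, rfl⟩
  obtain ⟨M, hM⟩ : ∃ M, M = LinearMap.toMatrix b b (ρ.ρ τ₀) := ⟨_, rfl⟩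
  have hMdet : M.det = LinearMap.det (ρ.ρ τ₀) := by rw [hM, LinearMap.det_toMatrix]
  have hMu : IsUnit M.det := by
    rw [hMdet]
    refine IsUnit.map LinearMap.det ?_
    exact (Group.isUnit τ₀).map ρ.ρ
  have hMrel : (M - M.det • 1) * (M - 1) = 0 := by
    have h1 := congrArg (LinearMap.toMatrix b b) (h τ₀ hτ₀ τ₀ hτ₀)
    rw [LinearMap.toMatrix_mul, map_sub, map_sub, map_smul, LinearMap.toMatrix_one, map_zero,
      ← hMdet, ← hM] at h1
    exact h1
  have hMtr := two_by_two hMu hMrel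
  have hδM : (δ : A) = M.det - 1 := by rw [hδ, hMdet]
  have hfM : LinearMap.toMatrix b b f = ((δ⁻¹ : Aˣ) : A) • (M - 1) := by
    rw [hf, map_smul, map_sub, LinearMap.toMatrix_one, ← hM]
  have htr : (LinearMap.toMatrix b b f).trace = 1 := by
    rw [hfM, Matrix.trace_smul, Matrix.trace_sub, hMtr, Matrix.trace_one, Fintype.card_fin,
      smul_eq_mul]
    have : (1 + M.det - ((2 : ℕ) : A)) = δ := by rw [hδM]; push_cast; ring
    rw [this, Units.inv_mul]
  have hdet : (LinearMap.toMatrix b b f).det = 0 := by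
    rw [hfM, Matrix.det_smul]
    have : (M - 1).det = 0 := by
      rw [Matrix.det_fin_two]
      rw [Matrix.trace_fin_two] at hMtr
      have hd := Matrix.det_fin_two M
      simp only [Matrix.sub_apply, Matrix.one_apply_eq, ne_eq, zero_ne_one, not_false_eq_true,
        Matrix.one_apply_ne, one_ne_zero, sub_zero]
      linear_combination -hd - hMtr
    rw [this, mul_zero]
  obtain ⟨b', hb'⟩ := exists_line b f htr hdet
  have hin : ∀ σ ∈ P.inertiaSubgroupIn ℚ, ∀ v : ρ.V, ρ.ρ σ v - v ∈ LinearMap.range f := by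
    intro σ hσ v
    have h1 := LinearMap.congr_fun (h τ₀ hτ₀ σ hσ) v
    change ρ.ρ τ₀ (ρ.ρ σ v - v) - LinearMap.det (ρ.ρ τ₀) • (ρ.ρ σ v - v) = 0 at h1
    refine ⟨ρ.ρ σ v - v, ?_⟩
    rw [hf]
    change ((δ⁻¹ : Aˣ) : A) • (ρ.ρ τ₀ (ρ.ρ σ v - v) - (ρ.ρ σ v - v)) = _
    rw [sub_eq_zero.1 h1]
    have h2 : LinearMap.det (ρ.ρ τ₀) • (ρ.ρ σ v - v) - (ρ.ρ σ v - v) =
        (δ : A) • (ρ.ρ σ v - v) := by
      rw [hδ, sub_smul, one_smul]
    rw [h2, smul_smul, Units.inv_mul, one_smul]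
  refine ⟨LinearMap.range f, ⟨b', hb'⟩, ?_, hin⟩
  rintro g hg _ ⟨u, rfl⟩
  have hP : Pres P g := EC.mem_iff_of_mem_decomposition P hg
  have h1 := hin _ (conj_mem_inertia hP hτ₀) (ρ.ρ g u)
  have h2 : ρ.ρ (g * τ₀ * g⁻¹) (ρ.ρ g u) = ρ.ρ g (ρ.ρ τ₀ u) := by
    rw [← Module.End.mul_apply, ← map_mul, ← Module.End.mul_apply, ← map_mul]
    congr 2
    group
  rw [h2, ← map_sub] at h1
  have h3 : ρ.ρ g (f u) = ((δ⁻¹ : Aˣ) : A) • ρ.ρ g (ρ.ρ τ₀ u - u) := by
    rw [hf, ← map_smul]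
    rfl
  rw [h3]
  exact Submodule.smul_mem _ _ h1

open TensorProduct in
theorem residual_rel_aux {V : Type} [AddCommGroup V] [Module A V] [Module.Free A V]
    [Module.Finite A V] (b : Module.Basis (Fin 2) (ResidueField A) (ResidueField A ⊗[A] V))
    (f g h : Module.End A V)
    (hf : ∀ v, f.baseChange (ResidueField A) v - v ∈ ResidueField A ∙ b 0)
    (hg : ∀ v, g.baseChange (ResidueField A) v - v ∈ ResidueField A ∙ b 0) :
    LinearMap.trace A V (f * g * h) - LinearMap.trace A V (f * h) -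
      LinearMap.det f * LinearMap.trace A V (g * h) +
      LinearMap.det f * LinearMap.trace A V h ∈ maximalIdeal A := by
  have h1 := ord_rel b (f.baseChange (ResidueField A)) (g.baseChange (ResidueField A))
    (h.baseChange (ResidueField A)) hf hg
  rw [← LinearMap.baseChange_mul, ← LinearMap.baseChange_mul, ← LinearMap.baseChange_mul,
    ← LinearMap.baseChange_mul, LinearMap.trace_baseChange, LinearMap.trace_baseChange,
    LinearMap.trace_baseChange, LinearMap.trace_baseChange, LinearMap.det_baseChange,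
    ← map_mul, ← map_mul, ← map_sub, ← map_sub, ← map_add] at h1
  rw [← residue_eq_zero_iff]
  exact h1

/-- residual relations -/
theorem residual_rel (ρ : GaloisRepAdic A) {P : ValuationSubring (AlgebraicClosure ℚ)}
    {p : ℕ} (hP : P.LiesOverPrime p)
    (hres : (GaloisRepAdic.ofResidualGaloisRep ρ.residual).IsOrdinaryAt p) {σ τ : GQ}
    (hσ : σ ∈ P.inertiaSubgroupIn ℚ) (hτ : τ ∈ P.inertiaSubgroupIn ℚ) (g : GQ) :
    LinearMap.trace A ρ.V (ρ.ρ (σ * τ * g)) - LinearMap.trace A ρ.V (ρ.ρ (σ * g)) -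
      LinearMap.det (ρ.ρ σ) * LinearMap.trace A ρ.V (ρ.ρ (τ * g)) +
      LinearMap.det (ρ.ρ σ) * LinearMap.trace A ρ.V (ρ.ρ g) ∈ maximalIdeal A := by
  obtain ⟨L, ⟨b, hb⟩, -, hL⟩ := hres P hP
  rw [map_mul ρ.ρ (σ * τ) g, map_mul ρ.ρ σ τ, map_mul ρ.ρ σ g, map_mul ρ.ρ τ g]
  refine residual_rel_aux b (ρ.ρ σ) (ρ.ρ τ) (ρ.ρ g) (fun v => ?_) (fun v => ?_)
  · have := hL σ hσ v
    rw [hb] at this
    exact this
  · have := hL τ hτ v
    rw [hb] at this
    exact this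

end Alg

theorem IsHG.weaken {R : Type*} [CommRing R] {a : ℕ → R} {S : Set ℕ} {p n : ℕ} {X : Type*}
    [AddCommGroup X] [Module R X] {ρ : GQ →* Module.End R X} (h : IsHG a S p (n + 1) ρ) :
    IsHG a S p n ρ :=
  ⟨h.torsion, h.level, h.frobenius, fun r hr => by
    obtain ⟨b, hb⟩ := h.faithful r hr
    exact ⟨(p : R) * b, by rw [hb, pow_succ, mul_assoc]⟩⟩

section main

variable {p : ℕ} {N : ℕ} [NeZero N] {S : Finset ℕ}
  {𝒪 : Type} [CommRing 𝒪] [IsDomain 𝒪] [IsDiscreteValuationRing 𝒪]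
  [IsAdicComplete (IsLocalRing.maximalIdeal 𝒪) 𝒪]
  {θ : CuspForm.heckeAlgebra N 2 (↑S : Set ℕ) →+* IsLocalRing.ResidueField 𝒪}
  {T : Type} [CommRing T] [IsLocalRing T] [IsNoetherianRing T]
  [IsAdicComplete (IsLocalRing.maximalIdeal T) T] [Algebra 𝒪 T] [IsLocalHom (algebraMap 𝒪 T)]
  [Module.Finite 𝒪 T] [Module.Free 𝒪 T]

/-- **ordinariness at `p`** -/
theorem isOrdinaryAt
    [Finite (IsLocalRing.ResidueField 𝒪)]
    (hp : p.Prime) (hp2 : p ≠ 2) (hp𝒪 : (p : 𝒪) ∈ IsLocalRing.maximalIdeal 𝒪)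
    (hN : p ∣ N ∧ ¬ p ^ 2 ∣ N)
    (hNS : ∀ q : ℕ, q.Prime → q ∣ N → q ∈ S)
    (H : CuspForm.HeckeGaloisRepDatum N (↑S : Set ℕ) 𝒪 θ T)
    (hres : (GaloisRepAdic.ofResidualGaloisRep H.ρ.residual).IsOrdinaryAt p) :
    H.ρ.IsOrdinaryAt p := by
  classical
  obtain ⟨⟨M, rfl⟩, hN2⟩ := hN
  haveI : Fact p.Prime := ⟨hp⟩
  haveI : NeZero M := ⟨fun h => NeZero.ne (p * M) (by rw [h, mul_zero])⟩
  haveI : Finite (ResidueField T) := Finite.of_surjective _ (FlT.bij_residue H).2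
  have hpM : ¬ p ∣ M := fun h => hN2 (by rw [sq]; exact mul_dvd_mul_left p h)
  obtain ⟨ι⟩ := RedMod.exists_ιC
  have hNS' : ∀ l, l.Prime → l ∣ p * M → l ∈ (↑S : Set ℕ) := hNS
  have hpS' : p ∈ (↑S : Set ℕ) := hNS p hp (dvd_mul_right p M)
  have hpT : (p : T) ∈ maximalIdeal T := by
    rw [← map_natCast (algebraMap 𝒪 T), IsLocalRing.mem_maximalIdeal]
    rw [IsLocalRing.mem_maximalIdeal] at hp𝒪
    exact fun h => hp𝒪 ((isUnit_map_iff (algebraMap 𝒪 T) (p : 𝒪)).mp h)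
  have h2T : IsUnit (2 : T) := by
    by_contra h2
    obtain ⟨k, hk⟩ := hp.odd_of_ne_two hp2
    have h3 : (1 : T) ∈ maximalIdeal T := by
      have h4 : (1 : T) = (p : T) - 2 * k := by rw [hk]; push_cast; ring
      rw [h4]
      exact Ideal.sub_mem _ hpT (Ideal.mul_mem_right _ _ h2)
    exact (Ideal.ne_top_iff_one _).1 (Ideal.IsMaximal.ne_top inferInstance) h3
  obtain ⟨c, hc⟩ := isHG_rhoS (N := p * M) hpS' hNS' ι
  obtain ⟨t, D, hgood⟩ := exists_goodPseudoRep (a := heckeFun (p * M) (↑S : Set ℕ))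
    (I := maximalIdeal T) hpT H.π S.finite_toSet hpS' ∅
    (fun σ hσ => absurd hσ (Set.notMem_empty σ)) (fun n => by
      haveI : NeZero (p ^ (n + c)) := ⟨pow_ne_zero _ hp.ne_zero⟩
      exact ⟨XL (p * M) (p ^ (n + c)), inferInstance, modXS (p * M) (p ^ (n + c)) ↑S,
        rhoS hNS' ι (p ^ (n + c)), hc n _ rfl, fun σ hσ => absurd hσ (Set.notMem_empty σ)⟩)
  have hchar := charpoly_eq_of_frobenius hgood S.finite_toSet H.ρ (fun l hl hlS B hB τ hτ => by
    have hlN : ¬ l ∣ p * M := fun h => hlS (hNS l hl h)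
    rw [heckeFun_eq hl hlN hlS]
    exact H.charpoly_frob l hl hlN hlS B hB τ hτ)
  let b : Module.Basis (Fin 2) T H.ρ.V := Module.finBasisOfFinrankEq T H.ρ.V H.ρ.finrank_eq
  have htm : ∀ g, (toMatRep H.ρ b g).trace = t g := fun g =>
    (trace_det_of_charpoly (H.ρ.ρ g) b (hchar g)).1
  have hdm : ∀ g, (toMatRep H.ρ b g).det = D g := fun g =>
    (trace_det_of_charpoly (H.ρ.ρ g) b (hchar g)).2
  have ht : ∀ g, LinearMap.trace T H.ρ.V (H.ρ.ρ g) = t g := fun g => by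
    rw [LinearMap.trace_eq_matrix_trace T b]
    exact htm g
  have hD : ∀ g, LinearMap.det (H.ρ.ρ g) = D g := fun g => by
    rw [← LinearMap.det_toMatrix b]
    exact hdm g
  obtain ⟨g₀, k₀, hgk⟩ := FlT.exists_irr H.ρ H.residual_absIrr b (c := complexConjugation)
    (by
      intro h2
      have h3 : residue T (2 : T) = 0 := by rw [map_ofNat]; exact h2
      rw [residue_eq_zero_iff] at h3
      exact h3 h2T)
    (by rw [hdm, hgood.complexConj])
  have hu : t (g₀ * k₀) + t (complexConjugation * g₀ * k₀) - t (g₀ * complexConjugation * k₀) -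
      t (complexConjugation * g₀ * complexConjugation * k₀) ∉ maximalIdeal T := by
    intro h1
    apply hgk
    rw [residue_eq_zero_iff, htm, htm, htm, htm]
    convert h1 using 1
    rw [← sub_sub]
    simp only [mul_assoc]
  have h𝔫 : (Ideal.comap H.π (maximalIdeal T)).IsMaximal := by
    haveI : (Ideal.comap H.π (maximalIdeal T)).IsPrime := Ideal.comap_isPrime _ _
    haveI : Finite (T ⧸ maximalIdeal T) := inferInstanceAs (Finite (ResidueField T))
    haveI : Finite (CuspForm.heckeAlgebra (p * M) 2 (↑S : Set ℕ) ⧸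
        Ideal.comap H.π (maximalIdeal T)) :=
      Finite.of_injective _ (Ideal.quotientMap_injective (f := H.π) (I := maximalIdeal T))
    exact Ideal.Quotient.maximal_of_isField _ (Finite.isField_of_domain _)
  have hp𝔫 : (p : CuspForm.heckeAlgebra (p * M) 2 (↑S : Set ℕ)) ∈
      Ideal.comap H.π (maximalIdeal T) := by
    rw [Ideal.mem_comap, map_natCast]
    exact hpT
  obtain ⟨ℓ, hℓ, hℓS, hTℓ⟩ := exists_ell hpT S.finite_toSet hpS' hgood
    complexConjugation_mul_self hu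
  have hℓN : ¬ ℓ ∣ p * M := fun h => hℓS (hNS ℓ hℓ h)
  have hT : CuspForm.heckeAlgebra.T hℓ hℓN hℓS -
      ((ℓ + 1 : ℕ) : CuspForm.heckeAlgebra (p * M) 2 (↑S : Set ℕ)) ∉
      Ideal.comap H.π (maximalIdeal T) := by
    rw [Ideal.mem_comap, map_sub, map_natCast, ← heckeFun_eq hℓ hℓN hℓS]
    exact hTℓ
  intro P hP
  have hX : ∀ n, ∃ (X : Type) (i₁ : AddCommGroup X)
      (i₂ : Module (CuspForm.heckeAlgebra (p * M) 2 (↑S : Set ℕ)) X)
      (ρ : GQ →* Module.End (CuspForm.heckeAlgebra (p * M) 2 (↑S : Set ℕ)) X),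
      IsHG (heckeFun (p * M) (↑S : Set ℕ)) (↑S : Set ℕ) p n ρ ∧
      QC p (P.inertiaSubgroupIn ℚ) (Ideal.comap H.π (maximalIdeal T)) X i₁ i₂ ρ := fun n => by
    haveI : NeZero (p ^ (n + 1 + c)) := ⟨pow_ne_zero _ hp.ne_zero⟩
    letI := modXS (p * M) (p ^ (n + 1 + c)) (↑S : Set ℕ)
    exact ⟨XL (p * M) (p ^ (n + 1 + c)), inferInstance, modXS (p * M) (p ^ (n + 1 + c)) ↑S,
      rhoS hNS' ι (p ^ (n + 1 + c)), IsHG.weaken (hc (n + 1) _ rfl),
      qc_rhoS hpM hP hp2 ι hNS' (n + c) (by rw [add_right_comm, pow_succ]) h𝔫 hp𝔫 hℓ hℓN hℓS hT⟩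
  obtain ⟨τ₀, hτ₀, hcτ₀⟩ := exists_tau hP hp2
  have hDτ := tau_unit hpT hgood hcτ₀
  have hrel := fun σ (hσ : σ ∈ P.inertiaSubgroupIn ℚ) τ (hτ : τ ∈ P.inertiaSubgroupIn ℚ) g =>
    rel_zero hpT H.π S.finite_toSet hpS' hgood hX (fun σ hσ τ hτ g => by
      have h1 := residual_rel H.ρ hP hres hσ hτ g
      rw [ht, ht, ht, ht, hD] at h1
      exact h1) complexConjugation_mul_self hu hτ₀ hDτ hσ hτ g
  refine exists_ord_line H.ρ (fun σ hσ τ hτ => ?_) hτ₀ (by
    rw [hD]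
    by_contra h1
    exact hDτ h1)
  refine eq_zero_of_trace H.ρ H.residual_absIrr _ fun g => ?_
  have h1 : (H.ρ.ρ σ - LinearMap.det (H.ρ.ρ σ) • (1 : Module.End T H.ρ.V)) * (H.ρ.ρ τ - 1) *
      H.ρ.ρ g = H.ρ.ρ (σ * τ * g) - H.ρ.ρ (σ * g) - D σ • H.ρ.ρ (τ * g) + D σ • H.ρ.ρ g := by
    rw [hD, map_mul, map_mul, map_mul, map_mul]
    simp only [sub_mul, mul_sub, smul_mul_assoc, one_mul, mul_one]
    abel
  rw [h1, map_add, map_sub, map_sub, map_smul, map_smul, ht, ht, ht, ht, smul_eq_mul, smul_eq_mul]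
  exact hrel σ hσ τ hτ g

end main

end Fermat.Agent.Ord
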