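import Fermat.Agent.Ord.Pack

/-!
# New classes with trivial reduction are of multiplicative type
-/

set_option autoImplicit false
set_option linter.unusedSectionVars false
set_option linter.style.haveILetI false

noncomputable section

namespace Fermat.Agent.Ord

open ModularCurve Polynomial IntermediateField Fermat.Agent.ModPoly Fermat.Agent.Red
  Fermat.Agent.RedMod Fermat.Agent.Cusp Fermat.Agent.SemiSt AlgebraicCurve Fermat.Agent.Curve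
  Fermat.Agent.RR Fermat.Agent.Nod Fermat.Agent.Flat Fermat.Agent.FlatRam Fermat.Agent.Places
  Fermat.Agent.PRem Fermat.Agent.HeckeProd

local notation "Ω" => AlgebraicClosure ℚ

section Formal

variable {R : Type*} [CommRing R] [IsDomain R]

theorem twist_qExpand' (n : ℕ) [NeZero n] (c : Rˣ) (y : LaurentSeries R) :
    twist c (qExpand R n y) = qExpand R n (twist (c ^ n) y) := by
  ext i
  rw [twist_coeff]
  by_cases hi : (n : ℤ) ∣ i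
  · obtain ⟨j, rfl⟩ := hi
    rw [qExpand_coeff_mul, qExpand_coeff_mul, twist_coeff, zpow_mul, zpow_natCast]
  · rw [qExpand_coeff_of_not_dvd n _ hi, qExpand_coeff_of_not_dvd n _ hi, mul_zero]

theorem PP_qExpand {m n : ℕ} [NeZero m] [NeZero n] (hmn : n.Coprime m) {ζ : Rˣ}
    (hζ : IsPrimitiveRoot ζ m) (y : LaurentSeries R) :
    PP m ζ (qExpand R n y) = qExpand R n (PP m ζ y) := by
  rw [PP_indep hζ (hζ.pow_of_coprime n hmn) y, PP, PP, map_prod]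
  refine Finset.prod_congr rfl fun x _ => ?_
  rw [twist_qExpand', ← pow_mul, ← pow_mul, mul_comm]

theorem PP_comm {m n : ℕ} [NeZero m] [NeZero n] (ζ ξ : Rˣ) (y : LaurentSeries R) :
    PP m ζ (PP n ξ y) = PP n ξ (PP m ζ y) := by
  simp only [PP, map_prod]
  rw [Finset.prod_comm]
  refine Finset.prod_congr rfl fun x _ => Finset.prod_congr rfl fun z _ => ?_
  rw [twist_twist, twist_twist, mul_comm]

theorem qExpand_comm {m n : ℕ} [NeZero m] [NeZero n] (y : LaurentSeries R) :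
    qExpand R m (qExpand R n y) = qExpand R n (qExpand R m y) := by
  ext i
  by_cases hi : ((m * n : ℕ) : ℤ) ∣ i
  · obtain ⟨j, rfl⟩ := hi
    have h1 : ((m * n : ℕ) : ℤ) * j = m * (n * j) := by push_cast; ring
    have h2 : ((m * n : ℕ) : ℤ) * j = n * (m * j) := by push_cast; ring
    rw [h1, qExpand_coeff_mul, qExpand_coeff_mul, ← h1, h2, qExpand_coeff_mul, qExpand_coeff_mul]
  · have key : ∀ {m n : ℕ} [NeZero m] [NeZero n], ¬ ((m * n : ℕ) : ℤ) ∣ i →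
        (qExpand R m (qExpand R n y)).coeff i = 0 := by
      intro m n _ _ hi
      by_cases h1 : (m : ℤ) ∣ i
      · obtain ⟨j, rfl⟩ := h1
        rw [qExpand_coeff_mul]
        apply qExpand_coeff_of_not_dvd
        rintro ⟨l, rfl⟩
        exact hi ⟨l, by push_cast; ring⟩
      · exact qExpand_coeff_of_not_dvd m _ h1
    rw [key hi, key (by rwa [mul_comm])]

theorem qExpand_TT {ℓ : ℕ} [NeZero ℓ] {ζ : Rˣ} (hζ : IsPrimitiveRoot ζ ℓ) (y : LaurentSeries R) :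
    qExpand R ℓ (TT hζ y) = qExpand R ℓ (qExpand R ℓ y) * PP ℓ ζ y := by
  rw [TT_def, qExpand_TF hζ, PP, qExpand_qExpand]

theorem TT_qExpand {m ℓ : ℕ} [NeZero m] [NeZero ℓ] (hmn : m.Coprime ℓ) {ζ : Rˣ}
    (hζ : IsPrimitiveRoot ζ ℓ) (y : LaurentSeries R) :
    TT hζ (qExpand R m y) = qExpand R m (TT hζ y) := by
  apply qExpand_injective ℓ
  rw [qExpand_TT, PP_qExpand hmn hζ, qExpand_comm (m := ℓ) (n := m) (TT hζ y), qExpand_TT, map_mul,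
    qExpand_comm (m := ℓ) (n := m) y, qExpand_comm (m := ℓ) (n := m) (qExpand R ℓ y)]

theorem TT_PP {m ℓ : ℕ} [NeZero m] [NeZero ℓ] (hmn : ℓ.Coprime m) {ζ ξ : Rˣ}
    (hζ : IsPrimitiveRoot ζ ℓ) (hξ : IsPrimitiveRoot ξ m) (y : LaurentSeries R) :
    TT hζ (PP m ξ y) = PP m ξ (TT hζ y) := by
  apply qExpand_injective ℓ
  rw [qExpand_TT, ← PP_qExpand hmn hξ, ← PP_qExpand hmn hξ, ← PP_qExpand hmn hξ, qExpand_TT,
    PP_mul, PP_comm]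

end Formal

section Nm

variable {K : Type*} [Field K] [IsAlgClosed K] [CharZero K]
  {p M : ℕ} [hp : Fact p.Prime] [NeZero M] (hco : p.Coprime M)
  {ℓ : ℕ} [hl : Fact ℓ.Prime]

include hco in
/-- norms commute with Hecke operators -/
theorem Nm_TTf (hℓ : ℓ.Coprime (p * M)) (x : FF K (p * M)) :
    Nm K p M (TTf K ℓ (p * M) x) = TTf K ℓ M (Nm K p M x) := by
  obtain ⟨ζ, hζ⟩ := exists_zeta (k := K) (N := ℓ) (natCast_ne_zero_K K ℓ)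
  obtain ⟨ξ, hξ⟩ := exists_zeta (k := K) (N := p) (natCast_ne_zero_K K p)
  have hℓM : ℓ.Coprime M := hℓ.coprime_mul_left_right
  have hℓp : ℓ.Coprime p := hℓ.coprime_mul_right_right
  apply Subtype.ext
  apply qExpand_injective p
  have e : ∀ z : LaurentSeries K, ∏ b : Fin p, twist (ξ ^ (b : ℕ)) z = PP p ξ z := fun z => by
    rw [PP, prod_zmod (fun i => twist (ξ ^ i) z)]
  rw [qExpand_Nm hco hξ, coe_TTf hℓM hζ, ← TT_qExpand hℓp.symm hζ, qExpand_Nm hco hξ, map_mul, e, e,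
    TT_PP hℓp hζ hξ, TT_qExpand hℓp.symm hζ, coe_TTf hℓ hζ, ← TTf_w hco hℓ, coe_TTf hℓ hζ]

end Nm

section Main

variable {A : ValuationSubring (AlgebraicClosure ℚ)} {p : ℕ} [hp : Fact p.Prime]
  {M : ℕ} [NeZero M] {k : Type} [Field k] [Algebra A k] [CharP k p] [IsAlgClosed k]
  {hk : Function.Surjective (algebraMap A k)} {hco : p.Coprime M} {hM : (M : k) ≠ 0} {b : A}
  [Algebra A (FF Ω (p * M))] [IsScalarTower A Ω (FF Ω (p * M))]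
  [Algebra A (FF k M)] [IsScalarTower A k (FF k M)]
  [FunField k (FF k M)] [FunField Ω (FF Ω M)] [FunField Ω (FF Ω (p * M))]
  (H : NodMod (ng Ω hco hk hM b) hk (ng_hspan hco hk hM b) (fd k p M).nodes)

include H in
/-- new classes with trivial reduction are of multiplicative type -/
theorem new_cyc [hN : Nonempty (Nd (ng Ω hco hk hM b) hk (fd k p M).nodes)]
    (ι : Ω →+* ℂ) (hA : A.LiesOverPrime p)
    (hb : (b : Ω) ∈ K0 A) {S : Set ℕ} {ℓ : ℕ} (hℓ : ℓ.Prime) (hℓN : ¬ ℓ ∣ p * M) (hℓS : ℓ ∉ S)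
    {v η : Kum.XL (p * M) p}
    (hv : v = Kum.actX (p * M) p S (CuspForm.heckeAlgebra.T hℓ hℓN hℓS) η - (ℓ + 1) • η)
    {f : FF Ω (p * M)} (hf : UW (ng Ω hco hk hM b) f) (hcl : HasCls ι p f v)
    (h1 : r1 (ng Ω hco hk hM b) f = 1) (h2 : r2 (ng Ω hco hk hM b) f = 1)
    {tr trw : Kum.XL (p * M) p →+ Kum.XL M p}
    (htr : ∀ x ξ, HasCls ι p x ξ → HasCls ι p (Nm Ω p M x) (tr ξ))
    (htrw : ∀ x ξ, HasCls ι p x ξ → HasCls ι p (Nm Ω p M (SemiSt.w Ω hco x)) (trw ξ))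
    (z1 : tr v = 0) (z2 : trw v = 0)
    (χ : (Ω ≃ₐ[ℚ] Ω) → ℕ) (hχ : ∀ σ (ζ : Ω), ζ ^ p = 1 → σ ζ = ζ ^ χ σ)
    {τ₀ : Ω ≃ₐ[ℚ] Ω} (hτ₀ : τ₀ ∈ A.inertiaSubgroupIn ℚ) :
    Kum.rhoF ι p τ₀ v = χ τ₀ • v := by
  have hp0 := hp.out.ne_zero
  -- the field of definition
  obtain ⟨E, hE, hEσ, ⟨ζ, hζE, hζ⟩, hEfix⟩ := exists_field (A := A) (p := p) ι (p * M) p
  obtain ⟨ϖ, U⟩ := exists_Unif hA E
  obtain ⟨m, hm, hem⟩ := exists_m hA U Module.finrank_pos hζE hζ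
  rw [hem] at U
  obtain ⟨Q, R⟩ := exists_RS hk hco hM U hA hb
  obtain ⟨g, hgF, hg, hgcl⟩ := exists_rep' R ι (η := η) (fun σ hσ => hEfix σ hσ _) hℓ hℓN hℓS
  rw [← hv] at hgcl
  obtain ⟨z, hz, hgz⟩ := hcl.exists_pow hgcl
  have hzU : UW (ng Ω hco hk hM b) z := by
    refine uw_of_pow hp0 ?_
    have e : z ^ p = g * f⁻¹ := by
      rw [hgz, mul_comm f, mul_assoc, mul_inv_cancel₀ hf.ne_zero, mul_one]
    rw [e]
    exact hg.mul hf.inv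
  obtain ⟨f', hf'F, hf', e1, e2, hcl'⟩ := normalize H hgF hg hgcl
    ⟨r1 (ng Ω hco hk hM b) z, by
      rw [hgz, r1_mul hf.mem (hzU.pow p).mem, r1_pow hzU.mem, h1, one_mul]⟩
    ⟨r2 (ng Ω hco hk hM b) z, by
      rw [hgz, r2_mul hf.mem (hzU.pow p).mem, r2_pow hzU.mem, h2, one_mul]⟩
  have n1 := htr _ _ hcl'
  rw [z1] at n1
  have n2 := htrw _ _ hcl'
  rw [z2] at n2
  obtain ⟨τ, rfl⟩ := exists_res_eq hτ₀
  have hI := inert_of hA hm R hb (σ := τ) (hEσ τ) hζ (c := χ (AlgEquiv.restrictScalars ℚ τ))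
    (hχ (AlgEquiv.restrictScalars ℚ τ) ζ hζ.pow_eq_one)
  exact final_new H hA hm R hI hf'F hf' e1 e2 hcl' n1.exists_pow_of_zero n2.exists_pow_of_zero

end Main

/-- Hecke equivariance of maps on classes -/
theorem clsMap_T {N₁ N₂ m : ℕ} [NeZero N₁] [NeZero N₂] [NeZero m] (ι : Ω →+* ℂ)
    {F : FF Ω N₁ →* FF Ω N₂} {ℓ : ℕ} [Fact ℓ.Prime] (hℓ : ℓ.Prime) (hℓ₁ : ¬ ℓ ∣ N₁)
    (hℓ₂ : ¬ ℓ ∣ N₂) (hF : ∀ x, F (TTf Ω ℓ N₁ x) = TTf Ω ℓ N₂ (F x))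
    {tr : Kum.XL N₁ m →+ Kum.XL N₂ m} (htr : ∀ x ξ, HasCls ι m x ξ → HasCls ι m (F x) (tr ξ))
    {S S' : Set ℕ} (hℓS : ℓ ∉ S) (hℓS' : ℓ ∉ S') (ξ : Kum.XL N₁ m) :
    tr (Kum.actX N₁ m S (CuspForm.heckeAlgebra.T hℓ hℓ₁ hℓS) ξ) =
      Kum.actX N₂ m S' (CuspForm.heckeAlgebra.T hℓ hℓ₂ hℓS') (tr ξ) := by
  obtain ⟨ζ, hζ⟩ := exists_zeta (k := Ω) (N := ℓ) (natCast_ne_zero_K Ω ℓ)
  have hc1 : ℓ.Coprime N₁ := (Nat.Prime.coprime_iff_not_dvd hℓ).2 hℓ₁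
  have hc2 : ℓ.Coprime N₂ := (Nat.Prime.coprime_iff_not_dvd hℓ).2 hℓ₂
  obtain ⟨f, hf, -⟩ := exists_fixed ι ξ
  have e1 := htr _ _ (hf.TT (S := S) hℓ hℓ₁ hℓS hζ (coe_TTf hc1 hζ f))
  have e2 := (htr _ _ hf).TT (S := S') hℓ hℓ₂ hℓS' hζ (coe_TTf hc2 hζ _)
  rw [hF] at e1
  exact e1.unique e2

attribute [local instance] Spec.algFF

set_option maxHeartbeats 1000000 in
/-- **new classes with trivial reduction are of multiplicative type** (package) -/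
theorem exists_new {p M : ℕ} [hp : Fact p.Prime] [NeZero M] (hpM : ¬ p ∣ M)
    {A : ValuationSubring (AlgebraicClosure ℚ)} (hA : A.LiesOverPrime p)
    (ι : Ω →+* ℂ) {S : Set ℕ} (hS : ∀ q, q.Prime → q ∣ p * M → q ∈ S) :
    ∃ (K : AddSubgroup (Kum.XL (p * M) p)) (tr trw : Kum.XL (p * M) p →+ Kum.XL M p),
      (∀ t : CuspForm.heckeAlgebra (p * M) 2 S, ∀ ξ ∈ K, Kum.actX (p * M) p S t ξ ∈ K) ∧
      (∀ τ ∈ A.inertiaSubgroupIn ℚ, ∀ ξ, Kum.rhoF ι p τ ξ - ξ ∈ K) ∧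
      (∀ (σ : Ω ≃ₐ[ℚ] Ω) ξ, tr (Kum.rhoF ι p σ ξ) = Kum.rhoF ι p σ (tr ξ) ∧
        trw (Kum.rhoF ι p σ ξ) = Kum.rhoF ι p σ (trw ξ)) ∧
      (∀ (ℓ : ℕ) (hℓ : ℓ.Prime) (hℓN : ¬ ℓ ∣ p * M) (hℓM : ¬ ℓ ∣ M) (hℓS : ℓ ∉ S) (S' : Set ℕ)
        (hℓS' : ℓ ∉ S') (ξ : Kum.XL (p * M) p),
        tr (Kum.actX (p * M) p S (CuspForm.heckeAlgebra.T hℓ hℓN hℓS) ξ) =
          Kum.actX M p S' (CuspForm.heckeAlgebra.T hℓ hℓM hℓS') (tr ξ) ∧
        trw (Kum.actX (p * M) p S (CuspForm.heckeAlgebra.T hℓ hℓN hℓS) ξ) =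
          Kum.actX M p S' (CuspForm.heckeAlgebra.T hℓ hℓM hℓS') (trw ξ)) ∧
      ∀ (𝔫 : Ideal (CuspForm.heckeAlgebra (p * M) 2 S)), 𝔫.IsMaximal →
        ∀ (ℓ : ℕ) (hℓ : ℓ.Prime) (hℓN : ¬ ℓ ∣ p * M) (hℓS : ℓ ∉ S),
        CuspForm.heckeAlgebra.T hℓ hℓN hℓS - ((ℓ + 1 : ℕ) : CuspForm.heckeAlgebra (p * M) 2 S) ∉ 𝔫 →
        ∀ χ : (Ω ≃ₐ[ℚ] Ω) → ℕ, (∀ σ (ζ : Ω), ζ ^ p = 1 → σ ζ = ζ ^ χ σ) → ∀ v ∈ K,
          (∀ s ∈ 𝔫, Kum.actX (p * M) p S s v = 0) → tr v = 0 → trw v = 0 →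
          ∀ τ ∈ A.inertiaSubgroupIn ℚ, Kum.rhoF ι p τ v = χ τ • v := by
  have hp1 := hp.out.one_lt
  haveI : CharP (kk A) p := RedMod.charP_residue hA
  have hk : Function.Surjective (algebraMap A (kk A)) := IsLocalRing.residue_surjective
  have hM : (M : kk A) ≠ 0 := natCast_residue_ne_zero hA hpM
  have hco : p.Coprime M := (Nat.Prime.coprime_iff_not_dvd hp.out).2 hpM
  haveI := funField_FF (k := kk A) (M := M) hM
  haveI := funField_FF (k := Ω) (M := M) (natCast_ne_zero_K Ω M)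
  haveI := funField_FF (k := Ω) (M := p * M) (natCast_ne_zero_K Ω (p * M))
  have hgen := Spec.rrGenus_eq_level (A := A) (K := Ω) ι hk hM
  have hrank := hrank_of hk hA
  obtain ⟨b', hb'⟩ := exists_pow_ne (kk A) (n := p * p) (by nlinarith)
  obtain ⟨r, hr⟩ := algebraMap_kk_surjective hA b'
  obtain ⟨b, hb, rfl⟩ : ∃ b : A, (b : Ω) ∈ K0 A ∧ algebraMap A (kk A) b = b' :=
    ⟨⟨r, r.2.1⟩, r.2.2, hr⟩
  have H := nodMod_ng (K := Ω) hco hk hM hgen b hb'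
  haveI hNd := nonempty_nd (K := Ω) hco hk hM hgen b hb' hrank
  -- the traces
  obtain ⟨tr, htr⟩ := exists_clsMap (m := p) ι (Nm Ω p M) (fun x hx => Nm_ne_zero hx)
    (fun n x hx h v => Nm_dvd hx h v)
  obtain ⟨trw, htrw⟩ := exists_clsMap (m := p) ι
    ((Nm Ω p M).comp ((SemiSt.w Ω hco : FF Ω (p * M) ≃ₐ[Ω] FF Ω (p * M)) :
      FF Ω (p * M) →* FF Ω (p * M))) (fun x hx => Nm_ne_zero (w_ne_zero hx))
    (fun n x hx h v => Nm_dvd (w_ne_zero hx) (dvd_ord_w hx h) v)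
  refine ⟨KK hk hco hM b ι p, tr, trw, fun t ξ hξ => KK_act hS t hξ, fun τ hτ ξ => KK_sub hA hτ ξ,
    fun σ ξ => ⟨clsMap_gal ι (fun σ x => Nm_act hco σ x) htr σ ξ, clsMap_gal ι (fun σ x => by
      change Nm Ω p M (SemiSt.w Ω hco (act (p * M) σ x)) = act M σ (Nm Ω p M (SemiSt.w Ω hco x))
      rw [← act_w, Nm_act hco]) htrw σ ξ⟩, ?_, ?_⟩
  · intro ℓ hℓ hℓN hℓM hℓS S' hℓS' ξ
    haveI : Fact ℓ.Prime := ⟨hℓ⟩
    have hℓc := coprime_of' hℓN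
    exact ⟨clsMap_T ι hℓ hℓN hℓM (fun x => Nm_TTf hco hℓc x) htr hℓS hℓS' ξ,
      clsMap_T ι hℓ hℓN hℓM (fun x => by
        change Nm Ω p M (SemiSt.w Ω hco (TTf Ω ℓ (p * M) x)) =
          TTf Ω ℓ M (Nm Ω p M (SemiSt.w Ω hco x))
        rw [← TTf_w hco hℓc, Nm_TTf hco hℓc]) htrw hℓS hℓS' ξ⟩
  · intro 𝔫 h𝔫 ℓ hℓ hℓN hℓS ht χ hχ v hv hv𝔫 z1 z2 τ hτ
    obtain ⟨f, hf, hcl, f1, f2⟩ := hv
    obtain ⟨s, hs⟩ := h𝔫.exists_inv ht
    obtain ⟨i, hi, hsi⟩ := hs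
    have hη : v = Kum.actX (p * M) p S (CuspForm.heckeAlgebra.T hℓ hℓN hℓS)
        (Kum.actX (p * M) p S s v) - (ℓ + 1) • Kum.actX (p * M) p S s v := by
      have h1 : Kum.actX (p * M) p S (CuspForm.heckeAlgebra.T hℓ hℓN hℓS -
          ((ℓ + 1 : ℕ) : CuspForm.heckeAlgebra (p * M) 2 S)) (Kum.actX (p * M) p S s v) =
          Kum.actX (p * M) p S (CuspForm.heckeAlgebra.T hℓ hℓN hℓS)
        (Kum.actX (p * M) p S s v) - (ℓ + 1) • Kum.actX (p * M) p S s v := by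
        rw [map_sub, map_natCast]; rfl
      rw [← h1]
      have h2 : (CuspForm.heckeAlgebra.T hℓ hℓN hℓS -
          ((ℓ + 1 : ℕ) : CuspForm.heckeAlgebra (p * M) 2 S)) * s = 1 - i := by
        rw [← hsi]; ring
      have h3 : Kum.actX (p * M) p S (CuspForm.heckeAlgebra.T hℓ hℓN hℓS -
          ((ℓ + 1 : ℕ) : CuspForm.heckeAlgebra (p * M) 2 S)) (Kum.actX (p * M) p S s v) =
          Kum.actX (p * M) p S ((CuspForm.heckeAlgebra.T hℓ hℓN hℓS -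
          ((ℓ + 1 : ℕ) : CuspForm.heckeAlgebra (p * M) 2 S)) * s) v := by
        rw [map_mul]; rfl
      rw [h3, h2, map_sub, map_one]
      change v = v - Kum.actX (p * M) p S i v
      rw [hv𝔫 i hi, sub_zero]
    exact new_cyc H ι hA hb hℓ hℓN hℓS hη hf hcl f1 f2 htr htrw z1 z2 χ hχ hτ

end Fermat.Agent.Ord
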