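import Fermat.Agent.PRem.Asm6
import Fermat.Agent.Ord.LevM

/-!
# First order expansions of norms; roots
-/

set_option autoImplicit false
set_option linter.unusedSectionVars false
set_option linter.style.haveILetI false

noncomputable section

namespace Fermat.Agent.Ord

open ModularCurve Polynomial IntermediateField Fermat.Agent.ModPoly Fermat.Agent.Red
  Fermat.Agent.RedMod Fermat.Agent.Cusp Fermat.Agent.SemiSt AlgebraicCurve Fermat.Agent.Curve
  Fermat.Agent.RR Fermat.Agent.Nod Fermat.Agent.Flat Fermat.Agent.Places Fermat.Agent.PRem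

section Gen

variable {A K k : Type*} [CommRing A] [IsDomain A] [ValuationRing A]
  [Field K] [IsAlgClosed K] [CharZero K] [Algebra A K] [IsFractionRing A K] [Field k]
  [IsAlgClosed k] [Algebra A k]
  {q M : ℕ} [hq : Fact q.Prime] [NeZero M] (hco : q.Coprime M) [CharP k q]
  (hk : Function.Surjective (algebraMap A k)) (hM : (M : k) ≠ 0)

theorem rd_twist {ζ : Kˣ} (hζ : ζ ^ q = 1) {x : LaurentSeries K} {a : LaurentSeries k}
    (h : Rd A x a) : Rd A (twist ζ x) a := by
  obtain ⟨h1, rfl⟩ := h
  obtain ⟨c, hc, hc1⟩ := exists_root_one (A := A) (k := k) hζ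
  rw [← hc]
  exact twist_mem_WL hc1 h1

theorem rd_qExpand {x : LaurentSeries K} {a : LaurentSeries k}
    (h : Rd A x a) : Rd A (qExpand K q x) (qExpand k q a) := by
  obtain ⟨h1, rfl⟩ := h
  exact ⟨qExpand_mem_WL h1, πL_qExpand h1 _⟩

theorem twist_C'' (ζ : Kˣ) (a : K) : twist ζ (HahnSeries.C a : LaurentSeries K) = HahnSeries.C a := by
  have h := Sb_C ζ 1 a
  have h2 : Sb ζ 1 (HahnSeries.C a : LaurentSeries K) = twist ζ (HahnSeries.C a) := by
    ext n
    have h3 := Sb_coeff_mul ζ 1 (HahnSeries.C a : LaurentSeries K) n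
    rw [PNat.one_coe, Nat.cast_one, one_mul] at h3
    rw [h3, twist_coeff]
  rw [← h2, h]

theorem qExpand_C'' (a : K) : qExpand K q (HahnSeries.C a : LaurentSeries K) = HahnSeries.C a := by
  rw [← Sb_one_eq q (pn q) (coe_pn q), Sb_C]

/-- products of first order expansions -/
theorem prod_first {ι : Type*} (s : Finset ι) {c : A} (hc : algebraMap A k c = 0)
    (y : ι → LaurentSeries K) {b : LaurentSeries k} (hy : ∀ i, Rd A (y i) b) :
    ∃ T, Rd A T (s.card • b) ∧ ∏ i ∈ s, (1 + HahnSeries.C (algebraMap A K c) * y i) =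
      1 + HahnSeries.C (algebraMap A K c) * T := by
  classical
  induction s using Finset.induction_on with
  | empty => exact ⟨0, by rw [Finset.card_empty, zero_smul]; exact Rd.zero, by simp⟩
  | insert i s hi ih =>
    obtain ⟨T, hT, h1⟩ := ih
    refine ⟨y i + T + HahnSeries.C (algebraMap A K c) * (y i * T), ?_, ?_⟩
    · have h2 := ((hy i).add hT).add ((Rd.C (K := K) (k := k) c).mul ((hy i).mul hT))
      rw [hc, map_zero, zero_mul, add_zero] at h2
      rw [Finset.card_insert_of_notMem hi, succ_nsmul, add_comm (s.card • b)]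
      exact h2
    · rw [Finset.prod_insert hi, h1]
      ring

include hco hk hM in
/-- **first order expansions of norms** -/
theorem Nm_first {c : A} (hc : algebraMap A k c = 0) (hc0 : c ≠ 0) {x H : FF K (q * M)}
    (hx : x = 1 + algebraMap K (FF K (q * M)) (algebraMap A K c) * H)
    {a b : LaurentSeries k} (h1 : Rd A (H : LaurentSeries K) a)
    (h2 : Rd A (w K hco H : LaurentSeries K) b) :
    ∃ y : FF K M, Nm K q M x = 1 + algebraMap K (FF K M) (algebraMap A K c) * y ∧
      Rd A (y : LaurentSeries K) a := by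
  have hcK : algebraMap A K c ≠ 0 := by simpa using hc0
  obtain ⟨ζ, hζ⟩ := exists_zeta (k := K) (N := q) (natCast_ne_zero_K K q)
  have h3 := qExpand_Nm hco hζ x
  have e1 : (x : LaurentSeries K) = 1 + HahnSeries.C (algebraMap A K c) * (H : LaurentSeries K) := by
    rw [hx]
    change ((1 + algebraMap K (FF K (q * M)) (algebraMap A K c) * H : FF K (q * M)) :
      LaurentSeries K) = _
    rw [AddMemClass.coe_add, OneMemClass.coe_one, ← algebraMap_eq_C]
    rfl
  have e2 : (w K hco x : LaurentSeries K) =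
      1 + HahnSeries.C (algebraMap A K c) * (w K hco H : LaurentSeries K) := by
    rw [hx, map_add, map_one, map_mul, AlgEquiv.commutes, AddMemClass.coe_add,
      OneMemClass.coe_one, ← algebraMap_eq_C]
    rfl
  have e3 : ∀ b : Fin q, twist (ζ ^ (b : ℕ)) (w K hco x : LaurentSeries K) =
      1 + HahnSeries.C (algebraMap A K c) *
        twist (ζ ^ (b : ℕ)) (w K hco H : LaurentSeries K) := fun b => by
    rw [e2, map_add, map_one, map_mul, twist_C'']
  have hroot : ∀ b : Fin q, (ζ ^ (b : ℕ)) ^ q = 1 := fun b => by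
    rw [← pow_mul, mul_comm, pow_mul, hζ.pow_eq_one, one_pow]
  obtain ⟨T, hT, hT'⟩ := prod_first (K := K) (Finset.univ : Finset (Fin q)) hc
    (fun b => twist (ζ ^ (b : ℕ)) (w K hco H : LaurentSeries K)) (fun b => rd_twist (hroot b) h2)
  rw [Finset.card_univ, Fintype.card_fin, ← Nat.cast_smul_eq_nsmul k, CharP.cast_eq_zero,
    zero_smul] at hT
  simp only [e3] at h3
  rw [hT', e1, map_add, map_one, map_mul, qExpand_C''] at h3
  -- the expansion at level `M`
  set y : FF K M := algebraMap K (FF K M) (algebraMap A K c)⁻¹ * (Nm K q M x - 1) with hy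
  have e4 : Nm K q M x = 1 + algebraMap K (FF K M) (algebraMap A K c) * y := by
    rw [hy, ← mul_assoc, ← map_mul, mul_inv_cancel₀ hcK, map_one, one_mul]
    ring
  have e5 : (y : LaurentSeries K) = HahnSeries.C (algebraMap A K c)⁻¹ *
      ((Nm K q M x : LaurentSeries K) - 1) := by
    rw [hy, ← algebraMap_eq_C]; rfl
  have e6 : qExpand K q (y : LaurentSeries K) = qExpand K q (H : LaurentSeries K) + T +
      HahnSeries.C (algebraMap A K c) * (qExpand K q (H : LaurentSeries K) * T) := by
    rw [e5, map_mul, map_sub, map_one, qExpand_C'', h3]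
    have h4 : (HahnSeries.C (algebraMap A K c)⁻¹ : LaurentSeries K) *
        HahnSeries.C (algebraMap A K c) = 1 := by
      rw [← map_mul, inv_mul_cancel₀ hcK, map_one]
    linear_combination (qExpand K q (H : LaurentSeries K) + T +
      HahnSeries.C (algebraMap A K c) * (qExpand K q (H : LaurentSeries K) * T)) * h4
  have h5 : Rd A (qExpand K q (y : LaurentSeries K)) (qExpand k q a) := by
    rw [e6]
    have h6 := ((rd_qExpand (q := q) h1).add hT).add
      ((Rd.C (K := K) (k := k) c).mul ((rd_qExpand (q := q) h1).mul hT))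
    rw [hc, map_zero, zero_mul, add_zero, add_zero] at h6
    exact h6
  have h6 := mem_WL_of_qExpand (A := A) hk hM y h5.choose
  have h7 : Rd A (y : LaurentSeries K) (πL A K k ⟨_, h6⟩) := ⟨h6, rfl⟩
  have h8 := (rd_qExpand (q := q) h7).uniq h5
  have h9 := qExpand_injective q h8
  rw [h9] at h7
  exact ⟨y, e4, h7⟩

/-- constants in the Gauss ring -/
def cW (A K k : Type*) [CommRing A] [IsDomain A] [ValuationRing A]
    [Field K] [Algebra A K] [IsFractionRing A K] [Field k] [Algebra A k] (a : A) : WL A K k :=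
  ⟨HahnSeries.C (algebraMap A K a), const_mem_WL a⟩

theorem cW_mul (a b : A) : cW A K k (a * b) = cW A K k a * cW A K k b :=
  Subtype.ext (by
    change HahnSeries.C (algebraMap A K (a * b)) = _ * _
    rw [map_mul, map_mul]; rfl)

theorem cW_pow (a : A) (n : ℕ) : cW A K k (a ^ n) = cW A K k a ^ n :=
  Subtype.ext (by
    change HahnSeries.C (algebraMap A K (a ^ n)) = (HahnSeries.C (algebraMap A K a)) ^ n
    rw [map_pow, map_pow])

theorem cW_natCast (n : ℕ) : cW A K k (n : A) = (n : WL A K k) :=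
  Subtype.ext (by
    change HahnSeries.C (algebraMap A K n) = ((n : WL A K k) : LaurentSeries K)
    rw [map_natCast, map_natCast]; rfl)

theorem πL_cW (a : A) : πL A K k (cW A K k a) = HahnSeries.C (algebraMap A k a) := πL_const _ _

theorem cW_ne {a : A} (ha : a ≠ 0) : cW A K k a ≠ 0 := by
  intro h
  have h1 : (HahnSeries.C (algebraMap A K a) : LaurentSeries K) = 0 := congrArg Subtype.val h
  rw [map_eq_zero] at h1
  exact ha (by simpa using h1)

include hk hM in
/-- **roots of elements congruent to one** -/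
theorem root_first {z y : FF K M} {ϖ u : A} {n e : ℕ} (hϖ : algebraMap A k ϖ = 0) (hϖ0 : ϖ ≠ 0)
    (hpe : (q : A) = ϖ ^ e * u) (hn : q * n + 1 ≤ e + n) (hn1 : 1 ≤ n)
    (hz : z ^ q = 1 + algebraMap K (FF K M) (algebraMap A K (ϖ ^ (q * n))) * y)
    {a : LaurentSeries k} (hy : Rd A (y : LaurentSeries K) a) :
    ∃ h : FF k M, a = (h : LaurentSeries k) ^ q := by
  classical
  have hϖK : algebraMap A K ϖ ≠ 0 := by simpa using hϖ0
  have hzL : (z : LaurentSeries K) ^ q = 1 + HahnSeries.C (algebraMap A K (ϖ ^ (q * n))) *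
      (y : LaurentSeries K) := by
    have := congrArg Subtype.val hz
    rw [SubmonoidClass.coe_pow] at this
    rw [this, ← algebraMap_eq_C]
    rfl
  rcases eq_or_ne (z - 1) 0 with h0 | h0
  · -- trivial case
    have hz1 : z = 1 := sub_eq_zero.1 h0
    rw [hz1] at hzL
    have h1 : HahnSeries.C (algebraMap A K (ϖ ^ (q * n))) * (y : LaurentSeries K) = 0 := by
      have h2 : ((1 : FF K M) : LaurentSeries K) = 1 := rfl
      rw [h2, one_pow] at hzL
      linear_combination -hzL
    have h2 : (y : LaurentSeries K) = 0 := by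
      refine (mul_eq_zero.1 h1).resolve_left fun h3 => ?_
      rw [map_eq_zero, map_pow] at h3
      exact pow_ne_zero _ hϖK h3
    rw [h2] at hy
    refine ⟨0, ?_⟩
    rw [hy.uniq Rd.zero]
    change (0 : LaurentSeries k) = 0 ^ q
    rw [zero_pow hq.out.ne_zero]
  obtain ⟨c, hc, hcU⟩ := exists_scale_good (A := A) hk hM h0
  set T : FF K M := algebraMap K (FF K M) c * (z - 1) with hT
  have eT : (T : LaurentSeries K) = HahnSeries.C c * ((z - 1 : FF K M) : LaurentSeries K) := by
    rw [hT, ← algebraMap_eq_C]; rfl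
  have hzT : (z : LaurentSeries K) = 1 + HahnSeries.C c⁻¹ * (T : LaurentSeries K) := by
    have h2 : ((z - 1 : FF K M) : LaurentSeries K) = (z : LaurentSeries K) - 1 := rfl
    have h4 : (HahnSeries.C c⁻¹ : LaurentSeries K) * HahnSeries.C c = 1 := by
      rw [← map_mul, inv_mul_cancel₀ hc, map_one]
    rw [eT, h2]
    linear_combination (1 - (z : LaurentSeries K)) * h4
  obtain ⟨hTW, hTne⟩ : IsU A K k (T : LaurentSeries K) := by rw [eT]; exact hcU
  have hTR : Rd A (T : LaurentSeries K) (πL A K k ⟨_, hTW⟩) := ⟨hTW, rfl⟩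
  -- the scaling constant is integral
  obtain ⟨d, hd⟩ : ∃ d : A, algebraMap A K d = c⁻¹ := by
    by_contra hcon
    obtain ⟨c', hc', hc0⟩ := isU_C_inv (A := A) (k := k) hk (c := c) hcon
    have h1 : (HahnSeries.C (algebraMap A K c') + (T : LaurentSeries K)) ^ q =
        HahnSeries.C (algebraMap A K c') ^ q * (1 + HahnSeries.C (algebraMap A K (ϖ ^ (q * n))) *
          (y : LaurentSeries K)) := by
      rw [← hzL, ← mul_pow, hzT, hc', mul_add, mul_one, ← mul_assoc, ← map_mul,
        mul_inv_cancel₀ hc, map_one, one_mul]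
    have h2 := (((Rd.C (K := K) (k := k) c').add hTR).pow q)
    have h3 := ((Rd.C (K := K) (k := k) c').pow q).mul
      ((Rd.one (A := A) (K := K) (k := k)).add ((Rd.C (K := K) (k := k) (ϖ ^ (q * n))).mul hy))
    rw [← h1] at h3
    have h4 := h2.uniq h3
    rw [hc0, map_zero, zero_add, zero_pow hq.out.ne_zero, zero_mul] at h4
    exact hTne ((pow_eq_zero_iff hq.out.ne_zero).1 h4)
  have hd0 : d ≠ 0 := by
    rintro rfl
    rw [map_zero] at hd
    exact hc (inv_eq_zero.1 hd.symm)
  -- the equation in the Gauss ring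
  let TW : WL A K k := ⟨_, hTW⟩
  let YW : WL A K k := ⟨_, hy.choose⟩
  have hYa : πL A K k YW = a := hy.choose_spec
  obtain ⟨R, hR⟩ := exists_one_add_pow hq.out (cW A K k d * TW)
  have heq : (1 + cW A K k d * TW) ^ q = 1 + cW A K k (ϖ ^ (q * n)) * YW := by
    apply Subtype.ext
    change (1 + HahnSeries.C (algebraMap A K d) * (T : LaurentSeries K)) ^ q = 1 +
      HahnSeries.C (algebraMap A K (ϖ ^ (q * n))) * (y : LaurentSeries K)
    rw [hd, ← hzT, hzL]
  have hq' : (q : WL A K k) = cW A K k ϖ ^ e * cW A K k u := by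
    rw [← cW_natCast, hpe, cW_mul, cW_pow]
  rw [hR, cW_pow, hq'] at heq
  have hP : cW A K k ϖ ≠ 0 := cW_ne hϖ0
  have hPπ : πL A K k (cW A K k ϖ) = 0 := by rw [πL_cW, hϖ, map_zero]
  obtain ⟨e', he'⟩ : ∃ e', e + n = q * n + 1 + e' := Nat.exists_eq_add_of_le hn
  obtain ⟨r, hr⟩ : ∃ r, q = r + 1 := ⟨q - 1, by have := hq.out.pos; omega⟩
  have he'' : e = r * n + 1 + e' := by
    have : q * n = r * n + n := by rw [hr]; ring
    omega
  by_cases hcase : ∃ a' : A, algebraMap A K a' = c⁻¹ * (algebraMap A K (ϖ ^ n))⁻¹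
  · obtain ⟨a', ha'⟩ := hcase
    have hda : d = ϖ ^ n * a' := by
      apply IsFractionRing.injective A K
      rw [map_mul, ha', hd, map_pow]
      field_simp
    rw [hda, cW_mul, cW_pow] at heq
    have h1 : cW A K k ϖ ^ (q * n) * YW = cW A K k ϖ ^ (q * n) *
        ((cW A K k a' * TW) ^ q + cW A K k ϖ * (cW A K k ϖ ^ e' * cW A K k u *
          (cW A K k a' * TW * (1 + cW A K k ϖ ^ n * cW A K k a' * TW * R)))) := by
      have h2 : cW A K k ϖ ^ e * cW A K k ϖ ^ n = cW A K k ϖ ^ (q * n) *
          (cW A K k ϖ * cW A K k ϖ ^ e') := by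
        rw [← pow_add, he', pow_add, pow_add]; ring
      have h3 : (cW A K k ϖ ^ n) ^ q = cW A K k ϖ ^ (q * n) := by rw [← pow_mul, mul_comm]
      have h4 : cW A K k ϖ ^ (q * n) * YW = cW A K k ϖ ^ e * cW A K k u *
          (cW A K k ϖ ^ n * cW A K k a' * TW * (1 + cW A K k ϖ ^ n * cW A K k a' * TW * R)) +
          (cW A K k ϖ ^ n * cW A K k a' * TW) ^ q := by
        linear_combination -heq
      rw [h4, mul_assoc (cW A K k ϖ ^ n) (cW A K k a') TW, mul_pow, h3]
      linear_combination (cW A K k u * (cW A K k a' * TW * (1 + cW A K k ϖ ^ n *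
        (cW A K k a' * TW) * R))) * h2
    have h2 := mul_left_cancel₀ (pow_ne_zero _ hP) h1
    have h3 := congrArg (πL A K k) h2
    rw [map_add, map_mul (πL A K k) (cW A K k ϖ), hPπ, zero_mul, add_zero, hYa, map_pow] at h3
    have h5 : (((algebraMap K (FF K M) (algebraMap A K a') * T : FF K M)) : LaurentSeries K) =
        ((cW A K k a' * TW : WL A K k) : LaurentSeries K) := by
      change _ = HahnSeries.C (algebraMap A K a') * (T : LaurentSeries K)
      rw [← algebraMap_eq_C]; rfl
    have h6 : (((algebraMap K (FF K M) (algebraMap A K a') * T : FF K M)) : LaurentSeries K) ∈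
        WL A K k := by rw [h5]; exact Subtype.mem _
    have h7 := πφ_mem (A := A) hk hM (algebraMap K (FF K M) (algebraMap A K a') * T) (h := h6)
    refine ⟨⟨_, h7⟩, ?_⟩
    rw [h3]
    congr 2
    exact Subtype.ext h5.symm
  · exfalso
    obtain ⟨a', ha', ha0⟩ := isU_C_inv (A := A) (k := k) hk (c := c * algebraMap A K (ϖ ^ n)) (by
      rwa [mul_inv])
    have hda : ϖ ^ n = d * a' := by
      apply IsFractionRing.injective A K
      rw [map_mul, ha', hd]
      field_simp
    have hDA : cW A K k ϖ ^ n = cW A K k d * cW A K k a' := by rw [← cW_pow, hda, cW_mul]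
    have h1 : cW A K k d ^ q * (cW A K k a' ^ q * YW) = cW A K k d ^ q *
        (TW ^ q + cW A K k ϖ * (cW A K k a' ^ r * cW A K k ϖ ^ e' * cW A K k u *
          (TW * (1 + cW A K k d * TW * R)))) := by
      have h2 : cW A K k ϖ ^ e * cW A K k d = cW A K k d ^ q * (cW A K k ϖ *
          (cW A K k a' ^ r * cW A K k ϖ ^ e')) := by
        rw [he'', pow_add, pow_add, mul_comm r n, pow_mul, hDA, hr]
        ring
      have h3 : cW A K k ϖ ^ (q * n) = cW A K k d ^ q * cW A K k a' ^ q := by
        rw [mul_comm q n, pow_mul, hDA, mul_pow]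
      rw [h3] at heq
      have h4 : cW A K k d ^ q * (cW A K k a' ^ q * YW) = cW A K k ϖ ^ e * cW A K k u *
          (cW A K k d * TW * (1 + cW A K k d * TW * R)) + (cW A K k d * TW) ^ q := by
        linear_combination -heq
      rw [h4, mul_pow]
      linear_combination (cW A K k u * (TW * (1 + cW A K k d * TW * R))) * h2
    have h2 := mul_left_cancel₀ (pow_ne_zero _ (cW_ne hd0)) h1
    have h3 := congrArg (πL A K k) h2
    rw [map_add, map_mul (πL A K k) (cW A K k ϖ), hPπ, zero_mul, add_zero, map_mul, map_pow,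
      map_pow, πL_cW, ha0, map_zero, zero_pow hq.out.ne_zero, zero_mul] at h3
    exact hTne ((pow_eq_zero_iff hq.out.ne_zero).1 h3.symm)

end Gen

end Fermat.Agent.Ord
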