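import Fermat.Agent.Ord.KK
import Fermat.Agent.PRem.Final44

/-!
# Classes with trivial reduction: package
-/

set_option autoImplicit false
set_option linter.unusedSectionVars false
set_option linter.style.haveILetI false

noncomputable section

namespace Fermat.Agent.Ord

open ModularCurve Polynomial IntermediateField Fermat.Agent.ModPoly Fermat.Agent.Red
  Fermat.Agent.RedMod Fermat.Agent.Cusp Fermat.Agent.SemiSt AlgebraicCurve Fermat.Agent.Curve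
  Fermat.Agent.RR Fermat.Agent.Nod Fermat.Agent.Flat Fermat.Agent.FlatRam Fermat.Agent.Places
  Fermat.Agent.PRem

local notation "Ω" => AlgebraicClosure ℚ

attribute [local instance] Spec.algFF

theorem exists_kk {p M : ℕ} [hp : Fact p.Prime] [NeZero M] (hpM : ¬ p ∣ M)
    {A : ValuationSubring (AlgebraicClosure ℚ)} (hA : A.LiesOverPrime p) (hp2 : p ≠ 2)
    (ι : Ω →+* ℂ) {S : Set ℕ} (hS : ∀ q, q.Prime → q ∣ p * M → q ∈ S) (a : ℕ) {D : ℕ} [NeZero D]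
    (hD : D = p ^ a * p) :
    ∃ K : AddSubgroup (Kum.XL (p * M) D),
      (∀ t : CuspForm.heckeAlgebra (p * M) 2 S, ∀ ξ ∈ K, Kum.actX (p * M) D S t ξ ∈ K) ∧
      (∀ τ ∈ A.inertiaSubgroupIn ℚ, ∀ ξ, Kum.rhoF ι D τ ξ - ξ ∈ K) ∧
      ∀ (𝔫 : Ideal (CuspForm.heckeAlgebra (p * M) 2 S)), 𝔫.IsMaximal →
        (p : CuspForm.heckeAlgebra (p * M) 2 S) ∈ 𝔫 →
        ∀ (ℓ : ℕ) (hℓ : ℓ.Prime) (hℓN : ¬ ℓ ∣ p * M) (hℓS : ℓ ∉ S),
        CuspForm.heckeAlgebra.T hℓ hℓN hℓS - ((ℓ + 1 : ℕ) : CuspForm.heckeAlgebra (p * M) 2 S) ∉ 𝔫 →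
        ∀ χ : (Ω ≃ₐ[ℚ] Ω) → ℕ, (∀ σ (ζ : Ω), ζ ^ p = 1 → σ ζ = ζ ^ χ σ) →
        (∀ σ ∈ A.inertiaSubgroupIn ℚ, ∀ τ ∈ A.inertiaSubgroupIn ℚ, ∀ w : Kum.XL (p * M) D,
          (∀ s ∈ 𝔫, Kum.actX (p * M) D S s w = 0) →
          Kum.rhoF ι D σ (Kum.rhoF ι D τ w - w) = (χ σ : ℤ) • (Kum.rhoF ι D τ w - w)) →
        ∀ τ₀ ∈ A.inertiaSubgroupIn ℚ, ¬ (p : ℤ) ∣ (χ τ₀ : ℤ) - 1 → ∀ v ∈ K,
          (∀ s ∈ 𝔫, Kum.actX (p * M) D S s v = 0) → Kum.rhoF ι D τ₀ v = v → v = 0 := by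
  have hp1 := hp.out.one_lt
  haveI : CharP (kk A) p := RedMod.charP_residue hA
  have hk : Function.Surjective (algebraMap A (kk A)) := IsLocalRing.residue_surjective
  have hM : (M : kk A) ≠ 0 := natCast_residue_ne_zero hA hpM
  have hco : p.Coprime M := (Nat.Prime.coprime_iff_not_dvd hp.out).2 hpM
  haveI := funField_FF (k := kk A) (M := M) hM
  haveI := funField_FF (k := Ω) (M := M) (natCast_ne_zero_K Ω M)
  haveI := funField_FF (k := Ω) (M := p * M) (natCast_ne_zero_K Ω (p * M))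
  have hgen := Spec.rrGenus_eq_level (A := A) (K := Ω) ι hk hM
  have hrank := hrank_of hk hA
  obtain ⟨b', hb'⟩ := exists_pow_ne (kk A) (n := p * p) (by nlinarith)
  obtain ⟨r, hr⟩ := algebraMap_kk_surjective hA b'
  obtain ⟨b, hb, rfl⟩ : ∃ b : A, (b : Ω) ∈ K0 A ∧ algebraMap A (kk A) b = b' :=
    ⟨⟨r, r.2.1⟩, r.2.2, hr⟩
  have H := nodMod_ng (K := Ω) hco hk hM hgen b hb'
  haveI hNd := nonempty_nd (K := Ω) hco hk hM hgen b hb' hrank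
  refine ⟨KK hk hco hM b ι D, fun t ξ hξ => KK_act hS t hξ, fun τ hτ ξ => KK_sub hA hτ ξ, ?_⟩
  intro 𝔫 h𝔫 hp𝔫 ℓ hℓ hℓN hℓS ht χ hχ hstar τ₀ hτ₀ hχτ v hv hv𝔫 hτv
  have hpv : p • v = 0 := by
    have h1 := hv𝔫 _ hp𝔫
    rw [map_natCast] at h1
    exact h1
  obtain ⟨η, rfl⟩ := exists_jE hD hpv
  obtain ⟨f, hf, hcl, f1, f2⟩ := KK_desc hD hv
  have hinj := jE_injective hD (N := p * M)
  have hη𝔫 : ∀ s ∈ 𝔫, Kum.actX (p * M) p S s η = 0 := fun s hs => by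
    apply hinj
    rw [jE_act, hv𝔫 s hs, map_zero]
  obtain ⟨s, hs⟩ := h𝔫.exists_inv ht
  obtain ⟨i, hi, hsi⟩ := hs
  have hη : η = Kum.actX (p * M) p S (CuspForm.heckeAlgebra.T hℓ hℓN hℓS)
      (Kum.actX (p * M) p S s η) - (ℓ + 1) • Kum.actX (p * M) p S s η := by
    have h1 : Kum.actX (p * M) p S (CuspForm.heckeAlgebra.T hℓ hℓN hℓS -
        ((ℓ + 1 : ℕ) : CuspForm.heckeAlgebra (p * M) 2 S)) (Kum.actX (p * M) p S s η) =
        Kum.actX (p * M) p S (CuspForm.heckeAlgebra.T hℓ hℓN hℓS)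
      (Kum.actX (p * M) p S s η) - (ℓ + 1) • Kum.actX (p * M) p S s η := by
      rw [map_sub, map_natCast]; rfl
    rw [← h1]
    have h2 : (CuspForm.heckeAlgebra.T hℓ hℓN hℓS -
        ((ℓ + 1 : ℕ) : CuspForm.heckeAlgebra (p * M) 2 S)) * s = 1 - i := by
      rw [← hsi]; ring
    have h3 : Kum.actX (p * M) p S (CuspForm.heckeAlgebra.T hℓ hℓN hℓS -
        ((ℓ + 1 : ℕ) : CuspForm.heckeAlgebra (p * M) 2 S)) (Kum.actX (p * M) p S s η) =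
        Kum.actX (p * M) p S ((CuspForm.heckeAlgebra.T hℓ hℓN hℓS -
        ((ℓ + 1 : ℕ) : CuspForm.heckeAlgebra (p * M) 2 S)) * s) η := by
      rw [map_mul]; rfl
    rw [h3, h2, map_sub, map_one]
    change η = η - Kum.actX (p * M) p S i η
    rw [hη𝔫 i hi, sub_zero]
  rw [fixed_zero H ι hA hp2 hpM hb hℓ hℓN hℓS hη hf hcl f1 f2 χ hχ ?_ hτ₀ ?_ hχτ, map_zero]
  · intro σ hσ τ hτ g hg
    apply hinj
    have h1 := hstar σ hσ τ hτ (Kum.rhoF ι D g (jE hD η)) (fun s hs => by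
      rw [← rhoF_act' ι hS, hv𝔫 s hs]
      exact map_zero (rh ι D g))
    rw [jE_gal, map_sub, jE_gal, jE_gal, map_zsmul, map_sub, jE_gal, jE_gal]
    exact h1
  · apply hinj
    rw [jE_gal, hτv]

end Fermat.Agent.Ord
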