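import Fermat.Agent.Ord.NmF
import Fermat.Agent.PRem.Cls

/-!
# Trace maps on Kummer classes
-/

set_option autoImplicit false
set_option linter.unusedSectionVars false
set_option linter.style.haveILetI false

noncomputable section

namespace Fermat.Agent.Ord

open ModularCurve AlgebraicCurve Polynomial IntermediateField Fermat.Agent.ModPoly Fermat.Agent.Red
  Fermat.Agent.RedMod Fermat.Agent.Cusp Fermat.Agent.SemiSt Fermat.Agent.Curve Fermat.Agent.RR
  Fermat.Agent.Kum Fermat.Agent.Places Fermat.Agent.PRem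

section Map

variable {K : Type*} [Field K] [Algebra ℚ K] [IsAlgClosed K] [CharZero K] (ι : K →+* ℂ)
  {N₁ N₂ m : ℕ} [NeZero N₁] [NeZero N₂] [NeZero m]

/-- maps on classes induced by maps on functions -/
theorem exists_clsMap (F : FF K N₁ →* FF K N₂) (hF0 : ∀ x, x ≠ 0 → F x ≠ 0)
    (hF : ∀ (n : ℤ) (x : FF K N₁), x ≠ 0 → (∀ v : Place K (FF K N₁), n ∣ v.ord x) →
      ∀ v : Place K (FF K N₂), n ∣ v.ord (F x)) :
    ∃ tr : XL N₁ m →+ XL N₂ m, ∀ x ξ, HasCls ι m x ξ → HasCls ι m (F x) (tr ξ) := by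
  have h1 : ∀ ξ : XL N₁ m, ∃ η : XL N₂ m, ∀ x, HasCls ι m x ξ → HasCls ι m (F x) η := by
    intro ξ
    obtain ⟨x, hx, -, hx'⟩ := exists_good ι ξ (tb N₂)
    have e : toK (ofK x) = x := Subtype.ext (by rw [coe_toK, coe_ofK])
    have hkd := kd_toK.1 (e.symm ▸ hx)
    have h2 : KD (m * tb N₂) (toK (F (ofK x))) := by
      refine kd_toK.2 ⟨hF0 _ hkd.1, fun v => ?_⟩
      refine dvd_trans ?_ (hF _ _ hkd.1 hkd.2 v)
      push_cast
      exact ⟨tb N₁, by ring⟩
    have hg : Good m (toK (F (ofK x))) := h2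
    obtain ⟨Φ, hΦ⟩ := hg.exists_mk ι
    have h3 : HasCls ι m (F (ofK x)) (mkX Φ) := ⟨Φ, rfl, by
      have h4 := hΦ
      change Rep N₂ (coeffMap ι ((toK (F (ofK x)) : FK K N₂) : LaurentSeries K)) (redI m Φ) at h4
      rwa [coe_toK] at h4⟩
    refine ⟨mkX Φ, fun y hy => ?_⟩
    obtain ⟨z, hz, rfl⟩ := hx'.exists_pow hy
    rw [map_mul, map_pow]
    exact h3.mul_pow (hF0 _ hz)
  choose tr htr using h1
  have hex : ∀ ξ : XL N₁ m, ∃ x, HasCls ι m x ξ := fun ξ => by
    obtain ⟨x, -, -, hx'⟩ := exists_good ι ξ 1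
    exact ⟨_, hx'⟩
  refine ⟨AddMonoidHom.mk' tr fun ξ η => ?_, fun x ξ h => htr ξ x h⟩
  obtain ⟨x, hx⟩ := hex ξ
  obtain ⟨y, hy⟩ := hex η
  have h2 := htr _ _ (hx.mul hy)
  rw [map_mul] at h2
  exact h2.unique ((htr _ _ hx).mul (htr _ _ hy))

end Map

section Nm

variable {K : Type*} [Field K] [IsAlgClosed K] [CharZero K]
  {q M : ℕ} [hq : Fact q.Prime] [NeZero M] (hco : q.Coprime M)

theorem Nm_ne_zero {x : FF K (q * M)} (hx : x ≠ 0) : Nm K q M x ≠ 0 := by
  intro h
  have h1 : Nm K q M x * Nm K q M x⁻¹ = 1 := by rw [← map_mul, mul_inv_cancel₀ hx, map_one]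
  rw [h, zero_mul] at h1
  exact zero_ne_one h1

theorem Nm_dvd {n : ℤ} {x : FF K (q * M)} (hx : x ≠ 0)
    (h : ∀ v : Place K (FF K (q * M)), n ∣ v.ord x) (v : Place K (FF K M)) :
    n ∣ v.ord (Nm K q M x) := by
  letI := inclAlg (k := K) (dvd_mul_left M q)
  haveI := finiteDimensional_incl (k := K) (dvd_mul_left M q) (natCast_ne_zero_K K (q * M))
  haveI := isSeparable_incl (k := K) (dvd_mul_left M q) (natCast_ne_zero_K K (q * M))
  haveI := isScalarTower_incl (k := K) (dvd_mul_left M q)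
  haveI := funField_FF (k := K) (M := M) (natCast_ne_zero_K K M)
  haveI := funField_FF (k := K) (M := q * M) (natCast_ne_zero_K K (q * M))
  haveI : HasPrincipalDivisors K (FF K (q * M)) := hasPrincipalDivisors'
  have h1 := Spec.ord_norm (F := FF K M) (F' := FF K (q * M)) v hx
  change n ∣ v.ord (Algebra.norm (FF K M) x)
  rw [h1]
  exact Finset.dvd_sum fun w _ => h w

include hco in
/-- norms and automorphisms of the constants -/
theorem Nm_act (σ : K ≃+* K) (x : FF K (q * M)) :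
    Nm K q M (act (q * M) σ x) = act M σ (Nm K q M x) := by
  obtain ⟨ζ, hζ⟩ := exists_zeta (k := K) (N := q) (natCast_ne_zero_K K q)
  have hζ' : IsPrimitiveRoot (Units.map (σ : K →* K) ζ) q :=
    hζ.map_of_injective (Units.map_injective σ.injective)
  apply Subtype.ext
  apply qExpand_injective q
  have h1 : qExpand K q (coeffMap (σ : K →+* K) (Nm K q M x : LaurentSeries K)) =
      coeffMap (σ : K →+* K) (qExpand K q (Nm K q M x : LaurentSeries K)) :=
    (coeffMap_qExpand _ _ _).symm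
  rw [qExpand_Nm hco hζ', coe_act, coe_act, h1, qExpand_Nm hco hζ, map_mul,
    map_prod, coeffMap_qExpand]
  congr 1
  refine Finset.prod_congr rfl fun b _ => ?_
  rw [coeffMap_twist, ← act_w hco, coe_act, map_pow]
  rfl

end Nm

end Fermat.Agent.Ord
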